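import Fermat.Agent.S17.Glob.Api

/-!
# S17-GLOB: (POS) definitions
-/

set_option autoImplicit false

namespace Fermat.Agent.S17

namespace ACurve

variable (X : ACurve) (𝔸 : GlobalAbs)

/-- `a_n(S) = ∑_{P ∈ S} ∑_p n_{n,p}(P) - ∑_{pairs} λ` -/
noncomputable def an (n : ℕ) (S : List X.Pts) : ℝ := (S.map (X.ns 𝔸 n)).sum - pairSum (X.lam 𝔸) S

/-- admissible pair for the class `x`: `Q ∈ |x|`, `Q' ∈ |-x|`, stable, reduced, of size `μ`, disjoint -/
structure AdmPair (μ : ℕ) (Q Q' : Multiset X.Pts) : Prop where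
  st : X.Stable Q
  st' : X.Stable Q'
  nd : Q.Nodup
  nd' : Q'.Nodup
  card : Q.card = μ
  card' : Q'.card = μ
  cls : X.cls Q + X.cls Q' = 0
  disj : Disjoint Q Q'

end ACurve

end Fermat.Agent.S17
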