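import Fermat.Agent.S17.Glob.Resid
import Fermat.Agent.S17.Glob.PosDefs

/-!
# S17-GLOB: (NORTHCOTT) geometric part
-/

set_option autoImplicit false

namespace Fermat.Agent.S17

namespace ACurve

variable {X : ACurve}

/-- geometric part: the class `x` is determined by `Y` and a residual divisor supported in `Tres (q ++ Y) ∪ Y` for a suitable
admissible pair. -/
theorem north_geom (hG : X.Geom) (μ : ℕ) (hμ : X.n₀ ≤ μ) (𝒴 : Finset (List X.Pts))
    (h𝒴 : ∀ Y ∈ 𝒴, Y.length + μ = X.ℓ (X.n₀ + μ))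
    (hcov : ∀ Q Q' : List X.Pts, Q.Nodup → Q'.Nodup → Q.length = μ → Q'.length = μ →
        ∃ Y ∈ 𝒴, X.DL (Q ++ Y) ≠ 0 ∧ X.DL (Q' ++ Y) ≠ 0)
    (x : X.J) (hx : x ∈ X.Gam) :
    ∃ Y ∈ 𝒴, ∃ (Q Q' : Multiset X.Pts) (q q' : List X.Pts) (R : Multiset X.Pts), X.AdmPair μ Q Q' ∧
      X.cls Q = x ∧ (q : Multiset X.Pts) = Q ∧ (q' : Multiset X.Pts) = Q' ∧ X.DL (q ++ Y) ≠ 0 ∧ X.DL (q' ++ Y) ≠ 0 ∧
      R.card = X.g ∧ (∀ P ∈ R, P ∈ Y ∨ P ∈ X.Tres (q ++ Y)) ∧ x = - X.cls (Y : Multiset X.Pts) - X.cls R := by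
  classical
  have hn : X.n₀ ≤ X.n₀ + μ := Nat.le_add_right _ _
  have hclsApp : ∀ (A : Multiset X.Pts) (Y : List X.Pts),
      X.cls ((A.toList ++ Y : List X.Pts) : Multiset X.Pts) = X.cls A + X.cls (Y : Multiset X.Pts) := by
    intro A Y
    rw [← Multiset.coe_add, hG.cls_add, Multiset.coe_toList]
  have hndList : ∀ A : Multiset X.Pts, A.Nodup → A.toList.Nodup := by
    intro A hA
    rw [← Multiset.coe_nodup, Multiset.coe_toList]
    exact hA
  -- step 1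
  obtain ⟨Q1, -, hQ1nd, hQ1c, hQ1cls, -⟩ := hG.mov μ hμ x hx ∅
  obtain ⟨Q1', -, hQ1'nd, hQ1'c, hQ1'cls, -⟩ := hG.mov μ hμ (-x) (neg_mem hx) ∅
  obtain ⟨Y, hY, hD1, hD1'⟩ := hcov Q1.toList Q1'.toList (hndList _ hQ1nd) (hndList _ hQ1'nd)
    (by rw [Multiset.length_toList, hQ1c]) (by rw [Multiset.length_toList, hQ1'c])
  have hYlen := h𝒴 Y hY
  have hlen : ∀ A : Multiset X.Pts, A.card = μ → (A.toList ++ Y).length = X.ℓ (X.n₀ + μ) := by
    intro A hA
    rw [List.length_append, Multiset.length_toList, hA, add_comm, hYlen]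
  have hYnd : Y.Nodup := (List.nodup_append.1 (nodup_of_DL_ne_zero hD1)).2.1
  -- step 2
  obtain ⟨R1, hR1c, hR1cls, -⟩ := exists_resid hG hn (hlen Q1 hQ1c) hD1
  -- step 3
  obtain ⟨Q, hQst, hQnd, hQc, hQcls, hQav⟩ := hG.mov μ hμ x hx (Y.toFinset ∪ R1.toFinset)
  obtain ⟨Q', hQ'st, hQ'nd, hQ'c, hQ'cls, hQ'av⟩ :=
    hG.mov μ hμ (-x) (neg_mem hx) (Q.toFinset ∪ Y.toFinset)
  have hadm : X.AdmPair μ Q Q' :=
    { st := hQst
      st' := hQ'st
      nd := hQnd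
      nd' := hQ'nd
      card := hQc
      card' := hQ'c
      cls := by rw [hQcls, hQ'cls, add_neg_cancel]
      disj := by
        rw [Multiset.disjoint_right]
        intro P hP' hP
        exact hQ'av P hP' (Finset.mem_union_left _ (Multiset.mem_toFinset.2 hP)) }
  -- step 4
  have hSnd : (Q.toList ++ Y).Nodup := by
    refine List.Nodup.append (hndList _ hQnd) hYnd ?_
    intro P hP hPY
    exact hQav P (Multiset.mem_toList.1 hP) (Finset.mem_union_left _ (List.mem_toFinset.2 hPY))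
  have hS'nd : (Q'.toList ++ Y).Nodup := by
    refine List.Nodup.append (hndList _ hQ'nd) hYnd ?_
    intro P hP hPY
    exact hQ'av P (Multiset.mem_toList.1 hP) (Finset.mem_union_right _ (List.mem_toFinset.2 hPY))
  have hclsS : X.cls ((Q1.toList ++ Y : List X.Pts) : Multiset X.Pts) =
      X.cls ((Q.toList ++ Y : List X.Pts) : Multiset X.Pts) := by
    rw [hclsApp, hclsApp, hQ1cls, hQcls]
  have hD : X.DL (Q.toList ++ Y) ≠ 0 :=
    hG.det_congr _ hn _ _ (nodup_of_DL_ne_zero hD1) hSnd (hlen Q1 hQ1c) (hlen Q hQc) hclsS hD1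
  have hD' : X.DL (Q'.toList ++ Y) ≠ 0 :=
    hG.det_congr _ hn _ _ (nodup_of_DL_ne_zero hD1') hS'nd (hlen Q1' hQ1'c) (hlen Q' hQ'c)
      (by rw [hclsApp, hclsApp, hQ1'cls, hQ'cls]) hD1'
  -- step 5
  obtain ⟨R, hRc, hRcls, hR⟩ := exists_resid hG hn (hlen Q hQc) hD
  have hRR1 : R = R1 := by
    refine hG.resid_unique _ hn _ hSnd (hlen Q hQc) hD R R1 hRc hR1c hRcls ?_
    rw [hG.cls_add, ← hclsS, ← hG.cls_add]
    exact hR1cls
  refine ⟨Y, hY, Q, Q', Q.toList, Q'.toList, R, hadm, hQcls, Multiset.coe_toList Q,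
    Multiset.coe_toList Q', hD, hD', hRc, ?_, ?_⟩
  · -- step 6
    intro P hP
    by_cases hPY : P ∈ Y
    · exact Or.inl hPY
    · right
      rw [mem_Tres hG hn (hlen Q hQc) hD]
      refine ⟨(hR P).2 (Or.inr hP), ?_⟩
      rw [List.mem_append]
      rintro (h | h)
      · exact hQav P (Multiset.mem_toList.1 h)
          (Finset.mem_union_right _ (Multiset.mem_toFinset.2 (hRR1 ▸ hP)))
      · exact hPY h
  · -- step 7
    rw [hG.cls_add, hclsApp, hQcls] at hRcls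
    have : x = - X.cls (Y : Multiset X.Pts) - X.cls R + (x + X.cls (Y : Multiset X.Pts) + X.cls R) := by
      abel
    rw [this, hRcls, add_zero]

end ACurve

end Fermat.Agent.S17
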