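import Fermat.Agent.S17.Glob.NorthAux
import Fermat.Agent.S17.Glob.NorthGeom

/-!
# S17-GLOB: (NORTHCOTT)
-/

set_option autoImplicit false

namespace Fermat.Agent.S17

/-- multisets of given cardinality supported in a finite set are finite in number -/
theorem north_finite_multiset {α : Type*} (s : Finset α) (g : ℕ) :
    {R : Multiset α | R.card = g ∧ ∀ P ∈ R, P ∈ s}.Finite := by
  classical
  refine (Set.finite_Icc (0 : Multiset α) (g • s.val)).subset ?_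
  rintro R ⟨hc, hs⟩
  refine ⟨Multiset.zero_le _, ?_⟩
  rw [Multiset.le_iff_count]
  intro a
  rw [Multiset.count_nsmul]
  by_cases ha : a ∈ R
  · have h1 : Multiset.count a s.val = 1 := Multiset.count_eq_one_of_mem s.nodup (hs a ha)
    rw [h1, mul_one, ← hc]
    exact Multiset.count_le_card a R
  · rw [Multiset.count_eq_zero_of_notMem ha]
    exact Nat.zero_le _

namespace ACurve

variable {X : ACurve} {𝔸 : GlobalAbs}

/-- **NORTHCOTT** -/
theorem north (hG : X.Geom) (hE : X.Estimates 𝔸) (μ : ℕ) (hμ : X.n₀ ≤ μ) (B : ℝ) :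
    {x : X.J | x ∈ X.Gam ∧ ∀ Q Q' : Multiset X.Pts, X.AdmPair μ Q Q' → X.cls Q = x → - X.bb 𝔸 Q Q' ≤ B}.Finite := by
  classical
  obtain ⟨𝒴, h𝒴, hcov⟩ := exists_finite_cover hG (X.n₀ + μ) μ le_rfl
  have haux : ∀ Y : List X.Pts, ∃ FF : Finset X.Pts, Y ∈ 𝒴 →
      ∀ (Q Q' : Multiset X.Pts) (q q' : List X.Pts), X.AdmPair μ Q Q' →
      (q : Multiset X.Pts) = Q → (q' : Multiset X.Pts) = Q' → X.DL (q ++ Y) ≠ 0 → X.DL (q' ++ Y) ≠ 0 →
      - X.bb 𝔸 Q Q' ≤ B → ∀ P ∈ X.Tres (q ++ Y), P ∈ FF := by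
    intro Y
    by_cases hY : Y ∈ 𝒴
    · obtain ⟨FF, hFF⟩ := north_aux hG hE μ hμ Y (h𝒴 Y hY) B
      exact ⟨FF, fun _ => hFF⟩
    · exact ⟨∅, fun h => absurd h hY⟩
  choose FF hFF using haux
  have hfin : (⋃ Y ∈ 𝒴, (fun R : Multiset X.Pts => - X.cls (Y : Multiset X.Pts) - X.cls R) ''
      {R : Multiset X.Pts | R.card = X.g ∧ ∀ P ∈ R, P ∈ Y.toFinset ∪ FF Y}).Finite :=
    Set.Finite.biUnion 𝒴.finite_toSet fun Y _ => (north_finite_multiset _ _).image _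
  refine hfin.subset ?_
  rintro x ⟨hx, hB⟩
  obtain ⟨Y, hY, Q, Q', q, q', R, hadm, hcls, hq, hq', hD, hD', hRc, hRs, hxe⟩ :=
    north_geom hG μ hμ 𝒴 h𝒴 hcov x hx
  simp only [Set.mem_iUnion]
  refine ⟨Y, hY, R, ⟨hRc, fun P hP => ?_⟩, hxe.symm⟩
  rcases hRs P hP with h | h
  · exact Finset.mem_union_left _ (List.mem_toFinset.2 h)
  · exact Finset.mem_union_right _
      (hFF Y hY Q Q' q q' hadm hq hq' hD hD' (hB Q Q' hadm hcls) P h)

end ACurve

end Fermat.Agent.S17
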