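import Mathlib

/-!
# S17-GLOB: the formal pairing machine (pure algebra)
-/

set_option autoImplicit false

namespace Fermat.Agent.S17

/-- abstract bookkeeping: a quasi-bilinear, quasi-symmetric `β` gives a quasi-quadratic `x ↦ β x x`. -/
theorem pair_quasi_parallelogram {G : Type*} [AddCommGroup G] (β : G → G → ℝ) (A B : ℝ)
    (hA : ∀ x y z, |β (x + y) z - β x z - β y z| ≤ A)
    (hB : ∀ x z, |β x z - β z x| ≤ B) :
    (∀ x y, |β (x + y) (x + y) + β (x - y) (x - y) - 2 * (β x x + β y y)| ≤ 14 * A + 7 * B) ∧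
    (∀ x, |β x x + β x (-x)| ≤ 2 * A + B) := by
  have h0 : ∀ z, |β 0 z| ≤ A := by
    intro z
    have h1 := hA 0 0 z
    rw [add_zero] at h1
    have h2 : β 0 z - β 0 z - β 0 z = - β 0 z := by ring
    rw [h2, abs_neg] at h1
    exact h1
  have hneg : ∀ y z, |β (-y) z + β y z| ≤ 2 * A := by
    intro y z
    have h1 := hA (-y) y z
    rw [neg_add_cancel] at h1
    have h2 := h0 z
    rw [abs_le] at h1 h2 ⊢
    constructor <;> linarith [h1.1, h1.2, h2.1, h2.2]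
  constructor
  · intro x y
    have e1 := hA x y (x + y)
    have e2 := hB x (x + y)
    have e3 := hB y (x + y)
    have e4 := hA x y x
    have e5 := hA x y y
    have f1 := hA x (-y) (x + -y)
    have f2 := hB x (x + -y)
    have f3 := hB (-y) (x + -y)
    have f4 := hA x (-y) x
    have f5 := hA x (-y) (-y)
    have g1 := hneg y x
    have g2 := hB x (-y)
    have g3 := hB x y
    have g4 := hneg y (-y)
    have g5 := hB y (-y)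
    have g6 := hneg y y
    rw [sub_eq_add_neg x y]
    rw [abs_le] at e1 e2 e3 e4 e5 f1 f2 f3 f4 f5 g1 g2 g3 g4 g5 g6 ⊢
    constructor <;>
      linarith [e1.1, e1.2, e2.1, e2.2, e3.1, e3.2, e4.1, e4.2, e5.1, e5.2, f1.1, f1.2, f2.1, f2.2,
        f3.1, f3.2, f4.1, f4.2, f5.1, f5.2, g1.1, g1.2, g2.1, g2.2, g3.1, g3.2, g4.1, g4.2,
        g5.1, g5.2, g6.1, g6.2]
  · intro x
    have g1 := hB x (-x)
    have g2 := hneg x x
    rw [abs_le] at g1 g2 ⊢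
    constructor <;> linarith [g1.1, g1.2, g2.1, g2.2]

/-- **PAIR.**  `b` a bi-additive symmetric real pairing on multisets of points, `cls` an additive class map, `Adm` = admissible
(Galois-stable) multisets.  If `b(Q,Q')` is bounded for `Q` reduced admissible of class `0` disjoint from `Q'` (KEY1), and every
class in `Gam` has reduced admissible representatives of size `μ` avoiding any finite set (moving lemma), then there is a
function `hh` on `Gam` satisfying the quasi-parallelogram law with `hh x = -b(Q,Q') + O(1)` for `Q ∈ |x|`, `Q' ∈ |-x|`.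

Proof.  `𝒬(x)` = reduced admissible `Q` of size `μ` and class `x`.
(A) `Q₁,Q₂ ∈ 𝒬(x)`, `Q' ∈ 𝒬(x')` disjoint from both: pick `R ∈ 𝒬(-x)` avoiding everything; `Q_i + R` has class `0` and size `2μ`, so
`|b(Q_i,Q') + b(R,Q')| ≤ C₁`.  (B) `β(x,x') := b(Q,Q')` for a chosen disjoint pair is independent of the choice up to `8C₁`
(go through a third pair avoiding everything).  (C) `β(x+y,x') ≈ β(x,x') + β(y,x')` using `Q_x + Q_y + R`, `R ∈ 𝒬(-x-y)`, of size `3μ`.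
Then `β(x,0) ≈ 0`, `β(x,-y) ≈ -β(x,y)`, `hh x := β(x,x)`. -/
theorem exists_quasi_quadratic {Pts J : Type*} [AddCommGroup J] (Gam : AddSubgroup J)
    (Adm : Multiset Pts → Prop) (cls : Multiset Pts → J) (b : Multiset Pts → Multiset Pts → ℝ) (μ : ℕ)
    (hAdm : ∀ Q Q', Adm Q → Adm Q' → Adm (Q + Q'))
    (hcls : ∀ Q Q', cls (Q + Q') = cls Q + cls Q')
    (hsymm : ∀ Q Q', b Q Q' = b Q' Q)
    (hadd : ∀ Q₁ Q₂ Q', b (Q₁ + Q₂) Q' = b Q₁ Q' + b Q₂ Q')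
    (key1 : ∀ k ∈ ({2, 3} : Finset ℕ), ∃ C : ℝ, ∀ Q Q', Adm Q → Adm Q' → Q.Nodup → Q.card = k * μ → Q'.card = μ →
      cls Q = 0 → Disjoint Q Q' → |b Q Q'| ≤ C)
    (mov : ∀ x ∈ Gam, ∀ Sg : Finset Pts, ∃ Q, Adm Q ∧ Q.Nodup ∧ Q.card = μ ∧ cls Q = x ∧ ∀ P ∈ Q, P ∉ Sg) :
    ∃ (hh : Gam → ℝ) (C : ℝ),
      (∀ x y, |hh (x + y) + hh (x - y) - 2 * (hh x + hh y)| ≤ C) ∧
      ∀ (x : Gam) (Q Q' : Multiset Pts), Adm Q → Adm Q' → Q.Nodup → Q'.Nodup → Q.card = μ → Q'.card = μ →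
        cls Q = x → cls Q' = -x → Disjoint Q Q' → |hh x + b Q Q'| ≤ C := by
  classical
  obtain ⟨C2, hC2⟩ := key1 2 (by simp)
  obtain ⟨C3, hC3⟩ := key1 3 (by simp)
  obtain ⟨C, hC0, hC2', hC3'⟩ : ∃ C : ℝ, 0 ≤ C ∧ C2 ≤ C ∧ C3 ≤ C :=
    ⟨max (max C2 C3) 0, le_max_right _ _, (le_max_left _ _).trans (le_max_left _ _),
      (le_max_right _ _).trans (le_max_left _ _)⟩
  let QQ : J → Multiset Pts → Prop := fun x Q => Adm Q ∧ Q.Nodup ∧ Q.card = μ ∧ cls Q = x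
  -- the moving lemma, avoiding a multiset
  have mov' : ∀ x ∈ Gam, ∀ T : Multiset Pts, ∃ Q, QQ x Q ∧ Disjoint Q T := by
    intro x hx T
    obtain ⟨Q, h1, h2, h3, h4, h5⟩ := mov x hx T.toFinset
    refine ⟨Q, ⟨h1, h2, h3, h4⟩, ?_⟩
    rw [Multiset.disjoint_left]
    intro P hP hPT
    exact h5 P hP (Multiset.mem_toFinset.mpr hPT)
  -- (A)
  have stepA : ∀ x ∈ Gam, ∀ Q1 Q2 Q', QQ x Q1 → QQ x Q2 → Adm Q' → Q'.card = μ →
      Disjoint Q1 Q' → Disjoint Q2 Q' → |b Q1 Q' - b Q2 Q'| ≤ 2 * C := by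
    intro x hx Q1 Q2 Q' h1 h2 hA' hc' d1 d2
    obtain ⟨R, hR, hRd⟩ := mov' (-x) (Gam.neg_mem hx) (Q1 + Q2 + Q')
    rw [Multiset.disjoint_add_right, Multiset.disjoint_add_right] at hRd
    obtain ⟨⟨hR1, hR2⟩, hR'⟩ := hRd
    have key : ∀ Q, QQ x Q → Disjoint Q Q' → Disjoint R Q → |b Q Q' + b R Q'| ≤ C := by
      intro Q hQ dQ dR
      have h := hC2 (Q + R) Q' (hAdm _ _ hQ.1 hR.1) hA'
        (Multiset.nodup_add.mpr ⟨hQ.2.1, hR.2.1, dR.symm⟩)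
        (by rw [Multiset.card_add, hQ.2.2.1, hR.2.2.1]; ring) hc'
        (by rw [hcls, hQ.2.2.2, hR.2.2.2, add_neg_cancel])
        (Multiset.disjoint_add_left.mpr ⟨dQ, hR'⟩)
      rw [hadd] at h
      exact h.trans hC2'
    have k1 := key Q1 h1 d1 hR1
    have k2 := key Q2 h2 d2 hR2
    rw [abs_le] at k1 k2 ⊢
    constructor <;> linarith [k1.1, k1.2, k2.1, k2.2]
  -- (B)
  have stepB : ∀ x ∈ Gam, ∀ x' ∈ Gam, ∀ Q Q' Q1 Q1', QQ x Q → QQ x' Q' → Disjoint Q Q' →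
      QQ x Q1 → QQ x' Q1' → Disjoint Q1 Q1' → |b Q Q' - b Q1 Q1'| ≤ 8 * C := by
    intro x hx x' hx' Q Q' Q1 Q1' hQ hQ' d hQ1 hQ1' d1
    obtain ⟨P, hP, hPd⟩ := mov' x hx (Q + Q' + Q1 + Q1')
    obtain ⟨P', hP', hPd'⟩ := mov' x' hx' (Q + Q' + Q1 + Q1' + P)
    simp only [Multiset.disjoint_add_right] at hPd hPd'
    obtain ⟨⟨⟨p1, p2⟩, p3⟩, p4⟩ := hPd
    obtain ⟨⟨⟨⟨p1', p2'⟩, p3'⟩, p4'⟩, p5'⟩ := hPd'
    have a1 := stepA x hx Q P Q' hQ hP hQ'.1 hQ'.2.2.1 d p2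
    have a2 := stepA x' hx' Q' P' P hQ' hP' hP.1 hP.2.2.1 p2.symm p5'
    have a3 := stepA x hx Q1 P Q1' hQ1 hP hQ1'.1 hQ1'.2.2.1 d1 p4
    have a4 := stepA x' hx' Q1' P' P hQ1' hP' hP.1 hP.2.2.1 p4.symm p5'
    rw [hsymm Q' P] at a2
    rw [hsymm Q1' P] at a4
    rw [abs_le] at a1 a2 a3 a4 ⊢
    constructor <;> linarith [a1.1, a1.2, a2.1, a2.2, a3.1, a3.2, a4.1, a4.2]
  -- the chosen pairs
  have exPair : ∀ x x' : Gam, ∃ pr : Multiset Pts × Multiset Pts,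
      QQ x pr.1 ∧ QQ x' pr.2 ∧ Disjoint pr.1 pr.2 := by
    intro x x'
    obtain ⟨Q', hQ', -⟩ := mov' x' x'.2 0
    obtain ⟨Q, hQ, hd⟩ := mov' x x.2 Q'
    exact ⟨(Q, Q'), hQ, hQ', hd⟩
  choose pr hpr1 hpr2 hpr3 using exPair
  let β : Gam → Gam → ℝ := fun x x' => b (pr x x').1 (pr x x').2
  have hβ : ∀ (x x' : Gam) (Q Q' : Multiset Pts), QQ x Q → QQ x' Q' → Disjoint Q Q' →
      |β x x' - b Q Q'| ≤ 8 * C := fun x x' Q Q' hQ hQ' d =>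
    stepB x x.2 x' x'.2 _ _ _ _ (hpr1 x x') (hpr2 x x') (hpr3 x x') hQ hQ' d
  -- quasi-symmetry
  have hBsymm : ∀ x z : Gam, |β x z - β z x| ≤ 8 * C := by
    intro x z
    have h := hβ x z (pr z x).2 (pr z x).1 (hpr2 z x) (hpr1 z x) (hpr3 z x).symm
    rw [hsymm] at h
    exact h
  -- (C) quasi-additivity
  have hAadd : ∀ x y z : Gam, |β (x + y) z - β x z - β y z| ≤ 26 * C := by
    intro x y z
    obtain ⟨Q', hQ', -⟩ := mov' z z.2 0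
    obtain ⟨Qx, hQx, dx⟩ := mov' x x.2 Q'
    obtain ⟨Qy, hQy, dy⟩ := mov' y y.2 (Q' + Qx)
    obtain ⟨R, hR, dR⟩ := mov' (-((x + y : Gam) : J)) (Gam.neg_mem (x + y).2) (Q' + Qx + Qy)
    obtain ⟨Qs, hQs, ds⟩ := mov' ((x + y : Gam) : J) (x + y).2 (Q' + R)
    simp only [Multiset.disjoint_add_right] at dy dR ds
    obtain ⟨dy1, dy2⟩ := dy
    obtain ⟨⟨dR1, dR2⟩, dR3⟩ := dR
    obtain ⟨ds1, ds2⟩ := ds
    have t3 := hC3 (Qx + Qy + R) Q' (hAdm _ _ (hAdm _ _ hQx.1 hQy.1) hR.1) hQ'.1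
      (Multiset.nodup_add.mpr ⟨Multiset.nodup_add.mpr ⟨hQx.2.1, hQy.2.1, dy2.symm⟩, hR.2.1,
        Multiset.disjoint_add_left.mpr ⟨dR2.symm, dR3.symm⟩⟩)
      (by rw [Multiset.card_add, Multiset.card_add, hQx.2.2.1, hQy.2.2.1, hR.2.2.1]; ring)
      hQ'.2.2.1
      (by rw [hcls, hcls, hQx.2.2.2, hQy.2.2.2, hR.2.2.2, AddSubgroup.coe_add, add_neg_cancel])
      (Multiset.disjoint_add_left.mpr ⟨Multiset.disjoint_add_left.mpr ⟨dx, dy1⟩, dR1⟩)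
    have t2 := hC2 (Qs + R) Q' (hAdm _ _ hQs.1 hR.1) hQ'.1
      (Multiset.nodup_add.mpr ⟨hQs.2.1, hR.2.1, ds2⟩)
      (by rw [Multiset.card_add, hQs.2.2.1, hR.2.2.1]; ring) hQ'.2.2.1
      (by rw [hcls, hQs.2.2.2, hR.2.2.2, add_neg_cancel])
      (Multiset.disjoint_add_left.mpr ⟨ds1, dR1⟩)
    rw [hadd, hadd] at t3
    rw [hadd] at t2
    have u1 := hβ (x + y) z Qs Q' hQs hQ' ds1
    have u2 := hβ x z Qx Q' hQx hQ' dx
    have u3 := hβ y z Qy Q' hQy hQ' dy1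
    rw [abs_le] at t2 t3 u1 u2 u3 ⊢
    constructor <;>
      linarith [t2.1, t2.2, t3.1, t3.2, u1.1, u1.2, u2.1, u2.2, u3.1, u3.2]
  obtain ⟨hpar, hdiag⟩ := pair_quasi_parallelogram β (26 * C) (8 * C) hAadd hBsymm
  refine ⟨fun x => β x x, 14 * (26 * C) + 7 * (8 * C), hpar, ?_⟩
  intro x Q Q' hQ hQ' hn hn' hc hc' hx hx' hd
  have v1 := hβ x (-x) Q Q' ⟨hQ, hn, hc, hx⟩ ⟨hQ', hn', hc', by rw [hx', AddSubgroup.coe_neg]⟩ hd
  have v2 := hdiag x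
  rw [abs_le] at v1 v2 ⊢
  constructor <;> linarith [v1.1, v1.2, v2.1, v2.2]

end Fermat.Agent.S17
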