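import Fermat.Agent.S17.Glob.Height
import Fermat.Agent.S17.Glob.Pair
import Fermat.Agent.S17.Abs.Stable
import Fermat.Agent.S17.Glob.North

/-!
# S17-GLOB: main statements (KEY1, KEY2, POS, Northcott)
-/

set_option autoImplicit false

namespace Fermat.Agent.S17

namespace ACurve

variable (X : ACurve) (𝔸 : GlobalAbs)

/-- **KEY1** -/
theorem key1 (hG : X.Geom) (hE : X.Estimates 𝔸) (m m' : ℕ) (hm : X.n₀ ≤ m) :
    ∃ C : ℝ, ∀ Q Q' : Multiset X.Pts, X.Stable Q → X.Stable Q' → Q.Nodup → Q.card = m → Q'.card = m' →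
      X.cls Q = 0 → Disjoint Q Q' → |X.bb 𝔸 Q Q'| ≤ C :=
  key1' hG hE m m' hm

/-- **KEY2**: `G₂(Z) = G(Z,Z)/2 = (m+g-1) H(Z) + O(1)` -/
theorem key2 (hG : X.Geom) (hE : X.Estimates 𝔸) (m : ℕ) (hm : X.n₀ ≤ m) :
    ∃ C : ℝ, ∀ Q : Multiset X.Pts, X.Stable Q → Q.Nodup → Q.card = m → X.cls Q = 0 →
      |X.Gr 𝔸 Q Q / 2 - ((m : ℝ) + X.g - 1) * X.Ht 𝔸 Q| ≤ C :=
  key2' hG hE m hm

/-- **Main theorem of S17-GLOB.** -/
theorem exists_height (hG : X.Geom) (hE : X.Estimates 𝔸) :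
    ∃ (h : X.Gam → ℝ) (C : ℝ), (∀ x, 0 ≤ h x) ∧
      (∀ x y, |h (x + y) + h (x - y) - 2 * (h x + h y)| ≤ C) ∧ ∀ B : ℝ, {x | h x ≤ B}.Finite := by
  classical
  obtain ⟨hh, C, hpar, hcmp⟩ := exists_quasi_quadratic X.Gam X.Stable X.cls (X.bb 𝔸) X.n₀
    (fun Q Q' h h' => h.add h') hG.cls_add (fun Q Q' => bb_symm Q Q')
    (fun Q₁ Q₂ Q' => bb_add_left Q₁ Q₂ Q')
    (fun k hk => key1' hG hE (k * X.n₀) X.n₀ (by
      have hk1 : 1 ≤ k := by
        rcases Finset.mem_insert.1 hk with h | h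
        · omega
        · rw [Finset.mem_singleton] at h
          omega
      exact Nat.le_mul_of_pos_left _ hk1))
    (hG.mov X.n₀ le_rfl)
  obtain ⟨C', hC'⟩ := pos_upper (𝔸 := 𝔸) hG hE X.n₀ le_rfl
  -- every class has an admissible pair
  have hpair : ∀ x : X.Gam, ∃ Q Q' : Multiset X.Pts, X.AdmPair X.n₀ Q Q' ∧ X.cls Q = x := by
    intro x
    obtain ⟨Q, h1, h2, h3, h4, -⟩ := hG.mov X.n₀ le_rfl x x.2 ∅
    obtain ⟨Q', h1', h2', h3', h4', h5'⟩ :=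
      hG.mov X.n₀ le_rfl (-(x : X.J)) (X.Gam.neg_mem x.2) Q.toFinset
    refine ⟨Q, Q', ⟨h1, h1', h2, h2', h3, h3', by rw [h4, h4', add_neg_cancel], ?_⟩, h4⟩
    rw [Multiset.disjoint_left]
    intro P hP hP'
    exact h5' P hP' (Multiset.mem_toFinset.2 hP)
  have hcmp' : ∀ (x : X.Gam) (Q Q' : Multiset X.Pts), X.AdmPair X.n₀ Q Q' → X.cls Q = x →
      |hh x + X.bb 𝔸 Q Q'| ≤ C := by
    intro x Q Q' h hx
    refine hcmp x Q Q' h.st h.st' h.nd h.nd' h.card h.card' hx ?_ h.disj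
    have h0 := h.cls
    rw [hx] at h0
    exact eq_neg_of_add_eq_zero_right h0
  refine ⟨fun x => hh x + (C + C'), C + 2 * |C + C'|, ?_, ?_, ?_⟩
  · intro x
    obtain ⟨Q, Q', h, hx⟩ := hpair x
    have h1 := hcmp' x Q Q' h hx
    have h2 := hC' Q Q' h
    rw [abs_le] at h1
    show 0 ≤ hh x + (C + C')
    linarith [h1.1]
  · intro x y
    have h1 := hpar x y
    have h2 : hh (x + y) + (C + C') + (hh (x - y) + (C + C')) -
        2 * (hh x + (C + C') + (hh y + (C + C'))) =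
        (hh (x + y) + hh (x - y) - 2 * (hh x + hh y)) - 2 * (C + C') := by ring
    show |hh (x + y) + (C + C') + (hh (x - y) + (C + C')) -
        2 * (hh x + (C + C') + (hh y + (C + C')))| ≤ C + 2 * |C + C'|
    rw [h2]
    refine (abs_sub _ _).trans ?_
    rw [abs_mul, abs_two]
    linarith
  · intro B
    have hN := north (𝔸 := 𝔸) hG hE X.n₀ le_rfl (B - (C + C') + C)
    refine (hN.preimage (Subtype.val_injective.injOn)).subset ?_
    intro x hx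
    refine ⟨x.2, fun Q Q' h hc => ?_⟩
    have h1 := hcmp' x Q Q' h hc
    rw [abs_le] at h1
    have h2 : hh x + (C + C') ≤ B := hx
    linarith [h1.1]

/-- Mordell–Weil from weak Mordell–Weil (`AddCommGroup.fg_of_descent'`). -/
theorem fg_of_weak (hG : X.Geom) (hE : X.Estimates 𝔸)
    (hW : (nsmulAddMonoidHom (α := X.Gam) 2).range.FiniteIndex) : AddGroup.FG X.Gam := by
  obtain ⟨h, C, h0, hpar, hN⟩ := X.exists_height 𝔸 hG hE
  have : Northcott h := ⟨hN⟩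
  exact AddCommGroup.fg_of_descent' hW h0 hpar

end ACurve

end Fermat.Agent.S17
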