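import Fermat.Agent.S17.Abs.Defs

/-!
# S17-GLOB: the abstract interface `ACurve`

`ACurve` abstracts the arithmetic curve `(X₀(N), ∞)` over `ℚ`: affine `ℚ̄`-points `Pts` with Galois action,
the values `ev i P = e_i(P)` of the rational pole-order basis `e_0 = 1, e_1, …` of `A = ⋃ L(n∞)`, `ℓ n = dim L(n∞)`,
the Jacobian `J = Pic⁰`, `Gam = J^G`, and `cls Q = [Q - |Q|∞]`.

* `ACurve.Geom`      : the geometric facts (to be proved by S17-FF / S17-GAL for the modular curve)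
* `ACurve.Estimates` : the local estimates (to be proved by S17-LOC)
* S17-GLOB proves `exists_height` from these two.
-/

set_option autoImplicit false

open scoped Classical in
noncomputable instance Fermat.Agent.S17.instDecidableEqQbar : DecidableEq (AlgebraicClosure ℚ) := fun _ _ => Classical.propDecidable _

namespace Fermat.Agent.S17

/-- product of `f a b` over all pairs `a` before `b` in the list -/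
def pairProd {α : Type*} (f : α → α → ℝ) : List α → ℝ
  | [] => 1
  | a :: l => (l.map (f a)).prod * pairProd f l

structure ACurve where
  Pts : Type
  act : MulAction GQ Pts
  J : Type
  grp : AddCommGroup J
  Gam : AddSubgroup J
  /-- `ev i P = e_i(P)` -/
  ev : ℕ → Pts → Qbar
  /-- `ℓ n = dim L(n∞)`; `e_0, …, e_{ℓ n - 1}` is a basis of `L(n∞)` -/
  ℓ : ℕ → ℕ
  g : ℕ
  /-- all thresholds ("`n` large") -/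
  n₀ : ℕ
  /-- the degree used for the distance function -/
  d : ℕ
  /-- `cls Q = [Q - |Q|∞]` -/
  cls : Multiset Pts → J

attribute [instance] ACurve.act ACurve.grp

namespace ACurve

variable (X : ACurve)

/-- the section `∑_{i < ℓ m} t_i e_i` of `L(m∞)` evaluated at `P` -/
noncomputable def sec (m : ℕ) (t : ℕ → Qbar) (P : X.Pts) : Qbar := ∑ i ∈ Finset.range (X.ℓ m), t i * X.ev i P

/-- the minor `det (e_{I i}(P_j))` -/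
noncomputable def minor (I : ℕ → ℕ) (l : List X.Pts) : Qbar :=
  Matrix.det (Matrix.of fun i j : Fin l.length => X.ev (I i) (l.get j))

/-- `det (e_i(P_j))_{i,j < r}` -/
noncomputable def DL (l : List X.Pts) : Qbar := X.minor id l

/-- Galois-stable multiset of points -/
def Stable (Q : Multiset X.Pts) : Prop := ∀ σ : GQ, Q.map (fun P => σ • P) = Q

/-- The geometric facts. -/
structure Geom : Prop where
  ev_zero : ∀ P, X.ev 0 P = 1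
  ev_smul : ∀ (σ : GQ) (i : ℕ) (P : X.Pts), X.ev i (σ • P) = σ (X.ev i P)
  ell_eq : ∀ n, X.n₀ ≤ n → X.ℓ n + X.g = n + 1
  ell_mono : Monotone X.ℓ
  one_le_ell : ∀ n, 1 ≤ X.ℓ n
  d_ge : X.n₀ ≤ X.d
  d_pos : 0 < X.d
  two_le_ell_d : 2 ≤ X.ℓ X.d
  sep : ∀ P P' : X.Pts, P ≠ P' → ∃ i < X.ℓ X.d, X.ev i P ≠ X.ev i P'
  cls_zero : X.cls 0 = 0
  cls_add : ∀ Q Q', X.cls (Q + Q') = X.cls Q + X.cls Q'
  finite_orbit : ∀ P : X.Pts, (MulAction.orbit GQ P).Finite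
  finite_fiber : ∀ c : Qbar, {P | X.ev 1 P = c}.Finite
  /-- rational moving lemma -/
  mov : ∀ μ, X.n₀ ≤ μ → ∀ x ∈ X.Gam, ∀ Sg : Finset X.Pts,
    ∃ Q, X.Stable Q ∧ Q.Nodup ∧ Q.card = μ ∧ X.cls Q = x ∧ ∀ P ∈ Q, P ∉ Sg
  /-- a Galois-stable reduced principal divisor is the zero set of a rational section -/
  sec_of_cls : ∀ m, X.n₀ ≤ m → ∀ Q, X.Stable Q → Q.Nodup → Q.card = m → X.cls Q = 0 →
    ∃ t : ℕ → ℚ, (∃ i < X.ℓ m, t i ≠ 0) ∧ ∀ P, X.sec m (fun i => algebraMap ℚ Qbar (t i)) P = 0 ↔ P ∈ Q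
  /-- the zero divisor of a section of exact pole order `m` -/
  zeros : ∀ m, X.n₀ < m → ∀ t : ℕ → Qbar, t (X.ℓ m - 1) ≠ 0 →
    ∃ Z : Multiset X.Pts, Z.card = m ∧ X.cls Z = 0 ∧ ∀ P, P ∈ Z ↔ X.sec m t P = 0
  /-- `det_n(S) ≠ 0 ↔ h⁰(n∞ - S) = 0` depends only on the class of `S` -/
  det_congr : ∀ n, X.n₀ ≤ n → ∀ S S' : List X.Pts, S.Nodup → S'.Nodup → S.length = X.ℓ n → S'.length = X.ℓ n →
    X.cls (S : Multiset X.Pts) = X.cls (S' : Multiset X.Pts) → X.DL S ≠ 0 → X.DL S' ≠ 0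
  /-- `h⁰((n+1)∞ - S) = 1` if `det_n(S) ≠ 0` -/
  resid_unique : ∀ n, X.n₀ ≤ n → ∀ S : List X.Pts, S.Nodup → S.length = X.ℓ n → X.DL S ≠ 0 →
    ∀ P P' : Multiset X.Pts, P.card = X.g → P'.card = X.g →
      X.cls ((S : Multiset X.Pts) + P) = 0 → X.cls ((S : Multiset X.Pts) + P') = 0 → P = P'
  exists_indep : ∀ n, X.n₀ ≤ n → ∀ Sg : Finset X.Pts,
    ∃ U : List X.Pts, U.Nodup ∧ U.length = X.ℓ n ∧ X.DL U ≠ 0 ∧ ∀ P ∈ U, P ∉ Sg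
  cover : ∀ n μ, X.n₀ + μ ≤ n → ∀ Q Q' : List X.Pts, Q.Nodup → Q'.Nodup → Q.length = μ → Q'.length = μ →
    ∃ Y : List X.Pts, Y.length + μ = X.ℓ n ∧ X.DL (Q ++ Y) ≠ 0 ∧ X.DL (Q' ++ Y) ≠ 0

section Local

variable (𝔸 : GlobalAbs)

/-- `N_{n,p}(P) = max_{i < ℓ n} |e_i(P)|_p` -/
noncomputable def Nn (p : 𝔸.ι) (n : ℕ) (P : X.Pts) : ℝ :=
  asize (𝔸.abv p) ((Finset.range (X.ℓ n)).image fun i => X.ev i P)

/-- `W_p(P,P') = max |e_i(P) e_j(P') - e_j(P) e_i(P')|_p`, `i, j < ℓ d` -/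
noncomputable def Wd (p : 𝔸.ι) (P P' : X.Pts) : ℝ :=
  asize (𝔸.abv p) ((Finset.range (X.ℓ X.d) ×ˢ Finset.range (X.ℓ X.d)).image
    fun ij => X.ev ij.1 P * X.ev ij.2 P' - X.ev ij.2 P * X.ev ij.1 P')

/-- `N_{d,p}(P) N_{d,p}(P')` -/
noncomputable def NN (p : 𝔸.ι) (P P' : X.Pts) : ℝ := X.Nn 𝔸 p X.d P * X.Nn 𝔸 p X.d P'

/-- `‖t‖_p = max_{i < ℓ m} |t_i|_p` -/
noncomputable def tsize (p : 𝔸.ι) (m : ℕ) (t : ℕ → Qbar) : ℝ :=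
  asize (𝔸.abv p) ((Finset.range (X.ℓ m)).image t)

/-- (E1) `N_m^d ≈ N_d^m` -/
def E1 (m : ℕ) : Prop :=
  ∃ C, 𝔸.Good C ∧ ∀ p P, X.Nn 𝔸 p m P ^ X.d ≤ C p * X.Nn 𝔸 p X.d P ^ m ∧
    X.Nn 𝔸 p X.d P ^ m ≤ C p * X.Nn 𝔸 p m P ^ X.d

/-- (E-HS) `|t(ρ)| ∏_j N_d(ψ_j) N_d(ρ) ≈ ‖t‖ N_m(ρ) ∏_j W(ψ_j,ρ)` if `ψ` is the full list of the `m` distinct zeros of `t ∈ L(m∞)` -/
def EHS (m : ℕ) : Prop :=
  ∃ C, 𝔸.Good C ∧ ∀ (p : 𝔸.ι) (t : ℕ → Qbar) (ψ : List X.Pts) (ρ : X.Pts), ψ.Nodup → ψ.length = m →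
    (∃ i < X.ℓ m, t i ≠ 0) → (∀ P ∈ ψ, X.sec m t P = 0) →
    𝔸.abv p (X.sec m t ρ) * (ψ.map fun P => X.NN 𝔸 p P ρ).prod ≤
        C p * (X.tsize 𝔸 p m t * X.Nn 𝔸 p m ρ * (ψ.map fun P => X.Wd 𝔸 p P ρ).prod) ∧
      X.tsize 𝔸 p m t * X.Nn 𝔸 p m ρ * (ψ.map fun P => X.Wd 𝔸 p P ρ).prod ≤
        C p * (𝔸.abv p (X.sec m t ρ) * (ψ.map fun P => X.NN 𝔸 p P ρ).prod)

/-- (E-HS∞) `|t_top| ∏_j N_{n+1}(ψ_j) ≤ C ‖t‖ ∏_j N_n(ψ_j)` for any list `ψ` of `k` distinct zeros of `t ∈ L((n+1)∞)` -/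
def EHSinf (n k : ℕ) : Prop :=
  ∃ C, 𝔸.Good C ∧ ∀ (p : 𝔸.ι) (t : ℕ → Qbar) (ψ : List X.Pts), ψ.Nodup → ψ.length = k →
    (∀ P ∈ ψ, X.sec (n + 1) t P = 0) →
    𝔸.abv p (t (X.ℓ n)) * (ψ.map fun P => X.Nn 𝔸 p (n + 1) P).prod ≤
      C p * (X.tsize 𝔸 p (n + 1) t * (ψ.map fun P => X.Nn 𝔸 p n P).prod)

/-- (E-W) `|minor| ∏_{pairs} N_d N_d ≤ C ∏ N_n ∏_{pairs} W` for `r × r` minors with rows in `L(n∞)` -/
def EW (n r : ℕ) : Prop :=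
  ∃ C, 𝔸.Good C ∧ ∀ (p : 𝔸.ι) (I : ℕ → ℕ) (l : List X.Pts), l.length = r → (∀ i < r, I i < X.ℓ n) →
    𝔸.abv p (X.minor I l) * pairProd (X.NN 𝔸 p) l ≤
      C p * ((l.map fun P => X.Nn 𝔸 p n P).prod * pairProd (X.Wd 𝔸 p) l)

/-- (E-D) the reverse inequality for the square determinant of `ψ ++ U`, `ψ` = the `m` distinct zeros of `t ∈ L(m∞)`,
`U` a fixed list with `det_{n-m}(U) ≠ 0`. -/
def ED (n m : ℕ) (U : List X.Pts) : Prop :=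
  ∃ C, 𝔸.Good C ∧ ∀ (p : 𝔸.ι) (t : ℕ → Qbar) (ψ : List X.Pts), ψ.Nodup → ψ.length = m →
    (∃ i < X.ℓ m, t i ≠ 0) → (∀ P ∈ ψ, X.sec m t P = 0) → (∀ P ∈ ψ, P ∉ U) →
    ((ψ ++ U).map fun P => X.Nn 𝔸 p n P).prod * pairProd (X.Wd 𝔸 p) (ψ ++ U) ≤
      C p * (𝔸.abv p (X.DL (ψ ++ U)) * pairProd (X.NN 𝔸 p) (ψ ++ U))

/-- The local estimates. -/
structure Estimates : Prop where
  e1 : ∀ m, X.n₀ ≤ m → X.E1 𝔸 m
  ehs : ∀ m, X.n₀ ≤ m → X.EHS 𝔸 m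
  ehsinf : ∀ n k, X.n₀ ≤ n → X.EHSinf 𝔸 n k
  ew : ∀ n r, X.n₀ ≤ n → X.EW 𝔸 n r
  ed : ∀ n m (U : List X.Pts), X.n₀ ≤ m → X.n₀ + m ≤ n → U.Nodup → U.length = X.ℓ (n - m) → X.DL U ≠ 0 →
    X.ED 𝔸 n m U

end Local

section E6

/-- `P, P'` are congruent modulo the maximal ideal of `𝒜`: `wdg_𝒜(P,P') < nrm_𝒜(P) nrm_𝒜(P')` -/
def Close (𝒜 : ValuationSubring Qbar) (P P' : X.Pts) : Prop :=
  ∃ a < X.ℓ X.d, ∃ b < X.ℓ X.d, ∀ i < X.ℓ X.d, ∀ j < X.ℓ X.d,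
    𝒜.valuation (X.ev i P * X.ev j P' - X.ev j P * X.ev i P') < 𝒜.valuation (X.ev a P * X.ev b P')

/-- (E6), for fixed lists `T₁, T₂` with `cls T₁ ≠ cls T₂` -/
def E6 (T₁ T₂ : List X.Pts) (m : ℕ) : Prop :=
  ∃ c : Finset Qbar, ∀ 𝒜 : ValuationSubring Qbar, (∀ x ∈ c, x ∈ 𝒜) →
    ∀ (t₁ t₂ : ℕ → Qbar) (P P' R : List X.Pts), (P' ++ T₂ ++ R).Nodup → (P ++ T₁ ++ R).Nodup →
      (P' ++ T₂ ++ R).length = m → (P ++ T₁ ++ R).length = m →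
      (∃ i < X.ℓ m, t₁ i ≠ 0) → (∃ i < X.ℓ m, t₂ i ≠ 0) →
      (∀ z ∈ P' ++ T₂ ++ R, X.sec m t₁ z = 0) → (∀ z ∈ P ++ T₁ ++ R, X.sec m t₂ z = 0) →
      ¬ List.Forall₂ (X.Close 𝒜) P P'

/-- to be proved by S17-LOC -/
def EstimateE6 : Prop :=
  ∀ (T₁ T₂ : List X.Pts) (m : ℕ), X.n₀ ≤ m → T₁.length = T₂.length →
    X.cls (T₁ : Multiset X.Pts) ≠ X.cls (T₂ : Multiset X.Pts) → X.E6 T₁ T₂ m

end E6

end ACurve

end Fermat.Agent.S17
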