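import Fermat.Agent.S17.Glob.ApiLoc

/-!
# S17-GLOB: basic API II (`lam`, `Ht`, `Gr`, `bb`, sums over pairs)
-/

set_option autoImplicit false

namespace Fermat.Agent.S17

namespace ACurve

variable {X : ACurve} {𝔸 : GlobalAbs}

/-! ### `lam`, `Ht`, `Gr`, `bb` -/

theorem lam_self (P : X.Pts) : X.lam 𝔸 P P = 0 := by
  rw [lam, if_pos rfl]

theorem lam_eq {P P' : X.Pts} (h : P ≠ P') : X.lam 𝔸 P P' = ∑ᶠ p, X.ll 𝔸 p P P' := by
  rw [lam, if_neg h]
  rfl

theorem lam_symm (P P' : X.Pts) : X.lam 𝔸 P P' = X.lam 𝔸 P' P := by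
  by_cases h : P = P'
  · rw [h]
  · rw [lam_eq h, lam_eq (Ne.symm h)]
    apply finsum_congr
    intro p
    rw [ll, ll, NN_symm, Wd_symm]

@[simp] theorem Ht_zero : X.Ht 𝔸 0 = 0 := by
  simp [Ht]

theorem Ht_add (S S' : Multiset X.Pts) : X.Ht 𝔸 (S + S') = X.Ht 𝔸 S + X.Ht 𝔸 S' := by
  rw [Ht, Multiset.map_add, Multiset.sum_add]
  rfl

theorem Ht_finset_sum {κ : Type*} (I : Finset κ) (S : κ → Multiset X.Pts) :
    X.Ht 𝔸 (∑ k ∈ I, S k) = ∑ k ∈ I, X.Ht 𝔸 (S k) := by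
  classical
  induction I using Finset.induction_on with
  | empty => simp
  | insert a I ha ih => rw [Finset.sum_insert ha, Finset.sum_insert ha, Ht_add, ih]

/-- `Gr` as a sum over the second variable first -/
theorem apigr_Gr_swap (S S' : Multiset X.Pts) :
    X.Gr 𝔸 S S' = (S'.map fun ρ => (S.map fun P => X.lam 𝔸 P ρ).sum).sum := by
  rw [Gr]
  exact Multiset.sum_map_sum_map S S'

theorem Gr_symm (S S' : Multiset X.Pts) : X.Gr 𝔸 S S' = X.Gr 𝔸 S' S := by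
  rw [apigr_Gr_swap, Gr]
  simp only [lam_symm]

theorem Gr_add_left (S₁ S₂ S' : Multiset X.Pts) : X.Gr 𝔸 (S₁ + S₂) S' = X.Gr 𝔸 S₁ S' + X.Gr 𝔸 S₂ S' := by
  rw [Gr, Multiset.map_add, Multiset.sum_add]
  rfl

theorem Gr_add_right (S S₁ S₂ : Multiset X.Pts) : X.Gr 𝔸 S (S₁ + S₂) = X.Gr 𝔸 S S₁ + X.Gr 𝔸 S S₂ := by
  rw [Gr_symm, Gr_add_left, Gr_symm S₁, Gr_symm S₂]

theorem Gr_finset_sum_right {κ : Type*} (S : Multiset X.Pts) (I : Finset κ) (S' : κ → Multiset X.Pts) :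
    X.Gr 𝔸 S (∑ k ∈ I, S' k) = ∑ k ∈ I, X.Gr 𝔸 S (S' k) := by
  classical
  induction I using Finset.induction_on with
  | empty => simp [Gr]
  | insert a I ha ih => rw [Finset.sum_insert ha, Finset.sum_insert ha, Gr_add_right, ih]

/-- `Gr` as a sum over the second variable first -/
theorem Gr_eq_sum_right (S S' : Multiset X.Pts) :
    X.Gr 𝔸 S S' = (S'.map fun ρ => (S.map fun P => X.lam 𝔸 P ρ).sum).sum := by
  exact apigr_Gr_swap S S'

theorem bb_symm (Q Q' : Multiset X.Pts) : X.bb 𝔸 Q Q' = X.bb 𝔸 Q' Q := by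
  rw [bb, bb, Gr_symm]
  ring

theorem bb_add_left (Q₁ Q₂ Q' : Multiset X.Pts) : X.bb 𝔸 (Q₁ + Q₂) Q' = X.bb 𝔸 Q₁ Q' + X.bb 𝔸 Q₂ Q' := by
  rw [bb, bb, bb, Gr_add_left, Ht_add, Multiset.card_add]
  push_cast
  ring

/-- sum over pairs of a list = half of `Gr` -/
theorem pairSum_lam (l : List X.Pts) :
    pairSum (X.lam 𝔸) l = X.Gr 𝔸 (l : Multiset X.Pts) (l : Multiset X.Pts) / 2 := by
  have h := two_mul_pairSum (X.lam 𝔸) lam_symm lam_self l
  have h2 : X.Gr 𝔸 (l : Multiset X.Pts) (l : Multiset X.Pts) =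
      (l.map fun a => (l.map (X.lam 𝔸 a)).sum).sum := by
    simp only [Gr, Multiset.map_coe, Multiset.sum_coe]
  rw [h2, ← h]
  ring

theorem fs_pairSum_ll (hG : X.Geom) {l : List X.Pts} (hl : l.Nodup) : FS fun p => pairSum (X.ll 𝔸 p) l := by
  apply FS.pairSum (fun p => X.ll 𝔸 p) l
  exact List.Pairwise.imp (fun {a b} hab => fs_ll hG hab) hl

theorem fsum_pairSum_ll (hG : X.Geom) {l : List X.Pts} (hl : l.Nodup) :
    ∑ᶠ p, pairSum (X.ll 𝔸 p) l = pairSum (X.lam 𝔸) l := by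
  rw [fsum_pairSum (fun p => X.ll 𝔸 p) l (List.Pairwise.imp (fun {a b} hab => fs_ll hG hab) hl)]
  apply pairSum_congr
  exact List.Pairwise.imp (fun {a b} hab => (lam_eq hab).symm) hl

theorem pairProd_NN_pos (hG : X.Geom) (p : 𝔸.ι) (l : List X.Pts) : 0 < pairProd (X.NN 𝔸 p) l := by
  induction l with
  | nil => simp [pairProd]
  | cons a l ih =>
    simp only [pairProd]
    exact mul_pos (list_prod_pos l _ fun b _ => NN_pos hG p a b) ih

theorem pairProd_Wd_pos (hG : X.Geom) (p : 𝔸.ι) {l : List X.Pts} (hl : l.Nodup) :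
    0 < pairProd (X.Wd 𝔸 p) l := by
  induction l with
  | nil => simp [pairProd]
  | cons a l ih =>
    rw [List.nodup_cons] at hl
    simp only [pairProd]
    refine mul_pos (list_prod_pos l _ fun b hb => Wd_pos hG p ?_) (ih hl.2)
    rintro rfl
    exact hl.1 hb

/-- `log ∏_{pairs} N N - log ∏_{pairs} W = ∑_{pairs} ll` -/
theorem log_pairProd_sub (hG : X.Geom) (p : 𝔸.ι) {l : List X.Pts} (hl : l.Nodup) :
    Real.log (pairProd (X.NN 𝔸 p) l) - Real.log (pairProd (X.Wd 𝔸 p) l) = pairSum (X.ll 𝔸 p) l := by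
  induction l with
  | nil => simp [pairProd, pairSum]
  | cons a l ih =>
    have hl' := hl
    rw [List.nodup_cons] at hl
    have hW : ∀ b ∈ l, 0 < X.Wd 𝔸 p a b := by
      intro b hb
      apply Wd_pos hG p
      rintro rfl
      exact hl.1 hb
    have hN : ∀ b ∈ l, 0 < X.NN 𝔸 p a b := fun b _ => NN_pos hG p a b
    simp only [pairProd, pairSum]
    rw [Real.log_mul (list_prod_pos l _ hN).ne' (pairProd_NN_pos hG p l).ne',
      Real.log_mul (list_prod_pos l _ hW).ne' (pairProd_Wd_pos hG p hl.2).ne',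
      log_list_prod l _ hN, log_list_prod l _ hW, ← ih hl.2]
    have e : (l.map (X.ll 𝔸 p a)).sum =
        (l.map fun b => Real.log (X.NN 𝔸 p a b)).sum - (l.map fun b => Real.log (X.Wd 𝔸 p a b)).sum := by
      rw [← Fsum_list_sum_sub]
      rfl
    rw [e]
    ring

end ACurve

end Fermat.Agent.S17
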