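import Fermat.Agent.S17.Glob.ApiLoc

/-!
# S17-GLOB: basic API III (Galois-stable multisets)
-/

set_option autoImplicit false

namespace Fermat.Agent.S17

namespace ACurve

variable {X : ACurve} {𝔸 : GlobalAbs}

/-! ### stable multisets -/

theorem stable_zero : X.Stable 0 := by
  intro σ
  exact Multiset.map_zero _

theorem Stable.add {Q Q' : Multiset X.Pts} (h : X.Stable Q) (h' : X.Stable Q') : X.Stable (Q + Q') := by
  intro σ
  rw [Multiset.map_add, h σ, h' σ]

theorem Stable.smul_mem {Q : Multiset X.Pts} (h : X.Stable Q) (σ : GQ) {P : X.Pts} (hP : P ∈ Q) :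
    σ • P ∈ Q := by
  have h1 : σ • P ∈ Q.map (fun P => σ • P) := Multiset.mem_map_of_mem (fun P => σ • P) hP
  rwa [h σ] at h1

theorem Stable.smul_mem_iff {Q : Multiset X.Pts} (h : X.Stable Q) (σ : GQ) {P : X.Pts} :
    σ • P ∈ Q ↔ P ∈ Q := by
  constructor
  · intro hP
    have h1 := h.smul_mem σ⁻¹ hP
    rwa [inv_smul_smul] at h1
  · exact h.smul_mem σ

/-- a list representing a stable multiset is permuted by Galois -/
theorem Stable.perm {Q : Multiset X.Pts} (h : X.Stable Q) {q : List X.Pts} (hq : (q : Multiset X.Pts) = Q)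
    (σ : GQ) : (q.map fun P => σ • P).Perm q := by
  rw [← Multiset.coe_eq_coe, ← Multiset.map_coe, hq]
  exact h σ

/-- values of a rational section -/
theorem sec_smul (hG : X.Geom) (m : ℕ) (t : ℕ → ℚ) (σ : GQ) (P : X.Pts) :
    X.sec m (fun i => algebraMap ℚ Qbar (t i)) (σ • P) = σ (X.sec m (fun i => algebraMap ℚ Qbar (t i)) P) := by
  unfold sec
  rw [map_sum]
  refine Finset.sum_congr rfl fun i _ => ?_
  rw [map_mul, hG.ev_smul, AlgEquiv.commutes]

end ACurve

end Fermat.Agent.S17
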