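import Fermat.Agent.S17.Glob.ApiLoc
import Fermat.Agent.S17.Glob.ApiGr
import Fermat.Agent.S17.Glob.ApiSt

/-!
# S17-GLOB: basic API (umbrella file)
-/
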