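import Mathlib

/-!
# S17-GLOB: toolkit for finite sums over places (`finsum` with finite support), logs of products
-/

set_option autoImplicit false

namespace Fermat.Agent.S17

/-- finite support -/
def FS {ι : Type*} (f : ι → ℝ) : Prop := (Function.support f).Finite

section

variable {ι : Type*} {f g c : ι → ℝ}

theorem FS.zero : FS (fun _ : ι => (0 : ℝ)) := by
  unfold FS
  rw [show (fun _ : ι => (0 : ℝ)) = 0 from rfl, Function.support_zero]
  exact Set.finite_empty

theorem FS.add (hf : FS f) (hg : FS g) : FS (fun p => f p + g p) := by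
  exact (Set.Finite.union hf hg).subset (Function.support_add f g)

theorem FS.sub (hf : FS f) (hg : FS g) : FS (fun p => f p - g p) := by
  exact (Set.Finite.union hf hg).subset (Function.support_sub f g)

theorem FS.neg (hf : FS f) : FS (fun p => - f p) := by
  refine Set.Finite.subset hf fun p hp h0 => hp ?_
  show - f p = 0
  rw [h0, neg_zero]

theorem FS.const_mul (a : ℝ) (hf : FS f) : FS (fun p => a * f p) := by
  refine Set.Finite.subset hf fun p hp h0 => hp ?_
  show a * f p = 0
  rw [h0, mul_zero]

theorem FS.list_sum {α : Type*} (l : List α) (F : α → ι → ℝ) (h : ∀ a ∈ l, FS (F a)) :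
    FS (fun p => (l.map fun a => F a p).sum) := by
  induction l with
  | nil => simpa using FS.zero
  | cons a l ih =>
    simp only [List.map_cons, List.sum_cons]
    exact FS.add (h a List.mem_cons_self) (ih fun b hb => h b (List.mem_cons_of_mem _ hb))

theorem FS.multiset_sum {α : Type*} (S : Multiset α) (F : α → ι → ℝ) (h : ∀ a ∈ S, FS (F a)) :
    FS (fun p => (S.map fun a => F a p).sum) := by
  induction S using Quotient.inductionOn with
  | h l =>
    simp only [Multiset.quot_mk_to_coe, Multiset.map_coe, Multiset.sum_coe]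
    exact FS.list_sum l F fun a ha => h a (by simpa using ha)

theorem FS.finset_sum {α : Type*} (S : Finset α) (F : α → ι → ℝ) (h : ∀ a ∈ S, FS (F a)) :
    FS (fun p => ∑ a ∈ S, F a p) := by
  exact FS.multiset_sum S.val F h

theorem fsum_add (hf : FS f) (hg : FS g) : ∑ᶠ p, (f p + g p) = ∑ᶠ p, f p + ∑ᶠ p, g p := by
  exact finsum_add_distrib hf hg

theorem fsum_sub (hf : FS f) (hg : FS g) : ∑ᶠ p, (f p - g p) = ∑ᶠ p, f p - ∑ᶠ p, g p := by
  exact finsum_sub_distrib hf hg

theorem fsum_neg : ∑ᶠ p, (- f p) = - ∑ᶠ p, f p := by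
  exact finsum_neg_distrib f

theorem fsum_const_mul (a : ℝ) : ∑ᶠ p, a * f p = a * ∑ᶠ p, f p := by
  exact (mul_finsum f a).symm

theorem fsum_list_sum {α : Type*} (l : List α) (F : α → ι → ℝ) (h : ∀ a ∈ l, FS (F a)) :
    ∑ᶠ p, (l.map fun a => F a p).sum = (l.map fun a => ∑ᶠ p, F a p).sum := by
  induction l with
  | nil => simp
  | cons a l ih =>
    simp only [List.map_cons, List.sum_cons]
    rw [fsum_add (h a List.mem_cons_self)
      (FS.list_sum l F fun b hb => h b (List.mem_cons_of_mem _ hb)),
      ih fun b hb => h b (List.mem_cons_of_mem _ hb)]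

theorem fsum_multiset_sum {α : Type*} (S : Multiset α) (F : α → ι → ℝ) (h : ∀ a ∈ S, FS (F a)) :
    ∑ᶠ p, (S.map fun a => F a p).sum = (S.map fun a => ∑ᶠ p, F a p).sum := by
  induction S using Quotient.inductionOn with
  | h l =>
    simp only [Multiset.quot_mk_to_coe, Multiset.map_coe, Multiset.sum_coe]
    exact fsum_list_sum l F fun a ha => h a (by simpa using ha)

theorem fsum_finset_sum {α : Type*} (S : Finset α) (F : α → ι → ℝ) (h : ∀ a ∈ S, FS (F a)) :
    ∑ᶠ p, ∑ a ∈ S, F a p = ∑ a ∈ S, ∑ᶠ p, F a p := by
  exact fsum_multiset_sum S.val F h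

theorem fsum_le (hf : FS f) (hg : FS g) (h : ∀ p, f p ≤ g p) : ∑ᶠ p, f p ≤ ∑ᶠ p, g p := by
  exact finsum_le_finsum' hf hg h

theorem fsum_nonneg (h : ∀ p, 0 ≤ f p) : 0 ≤ ∑ᶠ p, f p := by
  exact finsum_nonneg h

theorem abs_fsum_le (hf : FS f) (hc : FS c) (h : ∀ p, |f p| ≤ c p) : |∑ᶠ p, f p| ≤ ∑ᶠ p, c p := by
  rw [abs_le]
  constructor
  · rw [← fsum_neg]
    exact fsum_le hc.neg hf fun p => (abs_le.mp (h p)).1
  · exact fsum_le hf hc fun p => (abs_le.mp (h p)).2

end

theorem list_prod_pos {α : Type*} (l : List α) (F : α → ℝ) (h : ∀ a ∈ l, 0 < F a) :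
    0 < (l.map F).prod := by
  induction l with
  | nil => simp
  | cons a l ih =>
    simp only [List.map_cons, List.prod_cons]
    exact mul_pos (h a List.mem_cons_self) (ih fun b hb => h b (List.mem_cons_of_mem _ hb))

theorem log_list_prod {α : Type*} (l : List α) (F : α → ℝ) (h : ∀ a ∈ l, 0 < F a) :
    Real.log (l.map F).prod = (l.map fun a => Real.log (F a)).sum := by
  induction l with
  | nil => simp
  | cons a l ih =>
    simp only [List.map_cons, List.prod_cons, List.sum_cons]
    rw [Real.log_mul (h a List.mem_cons_self).ne'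
      (list_prod_pos l F fun b hb => h b (List.mem_cons_of_mem _ hb)).ne',
      ih fun b hb => h b (List.mem_cons_of_mem _ hb)]

theorem log_le_of_le_mul {A B C : ℝ} (hA : 0 < A) (hB : 0 < B) (hC : 0 < C) (h : A ≤ C * B) :
    Real.log A ≤ Real.log C + Real.log B := by
  rw [← Real.log_mul hC.ne' hB.ne']
  exact Real.log_le_log hA h

/-- two-sided comparison `A ≈ B` up to the factor `C` in log form -/
theorem abs_log_sub_log_le {A B C : ℝ} (hA : 0 < A) (hB : 0 < B) (hC : 0 < C) (h₁ : A ≤ C * B)
    (h₂ : B ≤ C * A) : |Real.log A - Real.log B| ≤ Real.log C := by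
  have h3 := log_le_of_le_mul hA hB hC h₁
  have h4 := log_le_of_le_mul hB hA hC h₂
  rw [abs_le]
  constructor <;> linarith

/-- sums of bounded terms over a multiset -/
theorem abs_multiset_sum_sub_le {α : Type*} (S : Multiset α) (u v : α → ℝ) (c : ℝ)
    (h : ∀ a ∈ S, |u a - v a| ≤ c) : |(S.map u).sum - (S.map v).sum| ≤ S.card * c := by
  induction S using Multiset.induction_on with
  | empty => simp
  | cons a S ih =>
    simp only [Multiset.map_cons, Multiset.sum_cons, Multiset.card_cons, Nat.cast_add, Nat.cast_one]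
    have h1 := h a (Multiset.mem_cons_self a S)
    have h2 := ih fun b hb => h b (Multiset.mem_cons_of_mem hb)
    have e : u a + (S.map u).sum - (v a + (S.map v).sum) =
        (u a - v a) + ((S.map u).sum - (S.map v).sum) := by ring
    rw [e]
    calc |(u a - v a) + ((S.map u).sum - (S.map v).sum)|
        ≤ |u a - v a| + |(S.map u).sum - (S.map v).sum| := abs_add_le _ _
      _ ≤ c + S.card * c := add_le_add h1 h2
      _ = (S.card + 1) * c := by ring

theorem multiset_sum_le_sum {α : Type*} (S : Multiset α) (u v : α → ℝ)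
    (h : ∀ a ∈ S, u a ≤ v a) : (S.map u).sum ≤ (S.map v).sum := by
  induction S using Multiset.induction_on with
  | empty => simp
  | cons a S ih =>
    simp only [Multiset.map_cons, Multiset.sum_cons]
    exact add_le_add (h a (Multiset.mem_cons_self a S))
      (ih fun b hb => h b (Multiset.mem_cons_of_mem hb))

/-! ### sums over pairs -/

/-- sum of `f a b` over all pairs `a` before `b` in the list -/
def pairSum {α : Type*} (f : α → α → ℝ) : List α → ℝ
  | [] => 0
  | a :: l => (l.map (f a)).sum + pairSum f l

theorem Fsum_list_sum_sub {α : Type*} (u v : α → ℝ) (l : List α) :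
    (l.map fun b => u b - v b).sum = (l.map u).sum - (l.map v).sum := by
  induction l with
  | nil => simp
  | cons a l ih =>
    simp only [List.map_cons, List.sum_cons]
    rw [ih]
    ring

theorem Fsum_list_sum_add {α : Type*} (u v : α → ℝ) (l : List α) :
    (l.map fun b => u b + v b).sum = (l.map u).sum + (l.map v).sum := by
  induction l with
  | nil => simp
  | cons a l ih =>
    simp only [List.map_cons, List.sum_cons]
    rw [ih]
    ring

theorem pairSum_sub {α : Type*} (f g : α → α → ℝ) (l : List α) :
    pairSum (fun a b => f a b - g a b) l = pairSum f l - pairSum g l := by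
  induction l with
  | nil => simp [pairSum]
  | cons a l ih =>
    simp only [pairSum]
    rw [ih, Fsum_list_sum_sub]
    ring

theorem pairSum_append {α : Type*} (f : α → α → ℝ) (l l' : List α) :
    pairSum f (l ++ l') = pairSum f l + pairSum f l' + (l.map fun a => (l'.map (f a)).sum).sum := by
  induction l with
  | nil => simp [pairSum]
  | cons a l ih =>
    simp only [List.cons_append, pairSum, List.map_append, List.sum_append, List.map_cons,
      List.sum_cons]
    rw [ih]
    ring

theorem two_mul_pairSum {α : Type*} (f : α → α → ℝ) (hs : ∀ a b, f a b = f b a) (h0 : ∀ a, f a a = 0)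
    (l : List α) : 2 * pairSum f l = (l.map fun a => (l.map (f a)).sum).sum := by
  induction l with
  | nil => simp [pairSum]
  | cons a l ih =>
    simp only [pairSum, List.map_cons, List.sum_cons]
    rw [Fsum_list_sum_add, h0, mul_add, ih]
    have e : (l.map fun x => f x a) = l.map (f a) := List.map_congr_left fun x _ => hs x a
    rw [e]
    ring

theorem pairSum_congr {α : Type*} (f g : α → α → ℝ) (l : List α) (h : l.Pairwise fun a b => f a b = g a b) :
    pairSum f l = pairSum g l := by
  induction l with
  | nil => rfl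
  | cons a l ih =>
    rw [List.pairwise_cons] at h
    simp only [pairSum]
    rw [ih h.2, List.map_congr_left h.1]

theorem FS.pairSum {ι α : Type*} (F : ι → α → α → ℝ) (l : List α)
    (h : l.Pairwise fun a b => FS fun p => F p a b) : FS (fun p => pairSum (F p) l) := by
  induction l with
  | nil => exact FS.zero
  | cons a l ih =>
    rw [List.pairwise_cons] at h
    simp only [Fermat.Agent.S17.pairSum]
    exact FS.add (FS.list_sum l (fun b p => F p a b) h.1) (ih h.2)

theorem fsum_pairSum {ι α : Type*} (F : ι → α → α → ℝ) (l : List α)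
    (h : l.Pairwise fun a b => FS fun p => F p a b) :
    ∑ᶠ p, pairSum (F p) l = pairSum (fun a b => ∑ᶠ p, F p a b) l := by
  induction l with
  | nil => simp [pairSum]
  | cons a l ih =>
    rw [List.pairwise_cons] at h
    simp only [pairSum]
    rw [fsum_add (FS.list_sum l (fun b p => F p a b) h.1) (FS.pairSum F l h.2), ih h.2,
      fsum_list_sum l (fun b p => F p a b) h.1]

end Fermat.Agent.S17
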