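import Fermat.Agent.S17.Glob.Height
import Fermat.Agent.S17.Glob.Fsum
import Fermat.Agent.S17.Abs.Stable

/-!
# S17-GLOB: basic API I (definitions `hl`, `nl`, `ns`, `ll`; positivity, symmetry, finite supports)
-/

set_option autoImplicit false

namespace Fermat.Agent.S17

/-- `∑_p log |x|_p` -/
noncomputable def GlobalAbs.hl (𝔸 : GlobalAbs) (x : Qbar) : ℝ := ∑ᶠ p, Real.log (𝔸.abv p x)

theorem GlobalAbs.fs_log (𝔸 : GlobalAbs) {x : Qbar} (hx : x ≠ 0) : FS fun p => Real.log (𝔸.abv p x) := by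
  exact 𝔸.finite_support_log hx

theorem AbsFam.Good.fs_log {𝔸 : GlobalAbs} {C : 𝔸.ι → ℝ} (hC : 𝔸.Good C) : FS fun p => Real.log (C p) := by
  exact AbsFam.Good.finite_support_log 𝔸.toAbsFam hC

theorem AbsFam.Good.pos {𝔸 : GlobalAbs} {C : 𝔸.ι → ℝ} (hC : 𝔸.Good C) (p : 𝔸.ι) : 0 < C p := by
  exact lt_of_lt_of_le zero_lt_one (hC.1 p)

/-- product formula for a Galois-stable multiset of nonzero numbers, in terms of `hl` -/
theorem GlobalAbs.sum_hl_eq_zero (𝔸 : GlobalAbs) (s : Multiset Qbar) (hs : ∀ σ : GQ, s.map σ = s)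
    (h0 : (0 : Qbar) ∉ s) : (s.map 𝔸.hl).sum = 0 := by
  have h := fsum_multiset_sum s (fun x p => Real.log (𝔸.abv p x))
    (fun a ha => 𝔸.fs_log (fun h => h0 (h ▸ ha)))
  rw [𝔸.sum_log_eq_zero s hs h0] at h
  exact h.symm

/-- product formula for a multiset stable up to signs -/
theorem GlobalAbs.sum_hl_eq_zero_of_sq (𝔸 : GlobalAbs) (s : Multiset Qbar)
    (hs : ∀ σ : GQ, (s.map fun x => σ x ^ 2) = s.map fun x => x ^ 2) (h0 : (0 : Qbar) ∉ s) :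
    (s.map 𝔸.hl).sum = 0 := by
  have h := fsum_multiset_sum s (fun x p => Real.log (𝔸.abv p x))
    (fun a ha => 𝔸.fs_log (fun h => h0 (h ▸ ha)))
  rw [𝔸.sum_log_eq_zero_of_sq' s hs h0] at h
  exact h.symm

/-- the log of the size of a family containing a nonzero element has finite support -/
theorem apiloc_fs_log_asize (𝔸 : GlobalAbs) {s : Finset Qbar} (hs : ∃ x ∈ s, x ≠ 0) :
    FS fun p => Real.log (asize (𝔸.abv p) s) := by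
  refine (𝔸.toAbsFam.finite_asize_ne_one hs).subset fun p hp h1 => hp ?_
  simp only [h1, Real.log_one]

namespace ACurve

variable (X : ACurve) (𝔸 : GlobalAbs)

/-- `n_{n,p}(P) = log N_{n,p}(P)` -/
noncomputable def nl (p : 𝔸.ι) (n : ℕ) (P : X.Pts) : ℝ := Real.log (X.Nn 𝔸 p n P)

/-- `∑_p n_{n,p}(P)` -/
noncomputable def ns (n : ℕ) (P : X.Pts) : ℝ := ∑ᶠ p, X.nl 𝔸 p n P

/-- the local Green function `log N_d(P) N_d(P') - log W(P,P')` -/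
noncomputable def ll (p : 𝔸.ι) (P P' : X.Pts) : ℝ :=
  Real.log (X.NN 𝔸 p P P') - Real.log (X.Wd 𝔸 p P P')

variable {X 𝔸}

/-! ### local quantities -/

theorem abv_ev_le_Nn (p : 𝔸.ι) {n i : ℕ} (hi : i < X.ℓ n) (P : X.Pts) :
    𝔸.abv p (X.ev i P) ≤ X.Nn 𝔸 p n P := by
  exact le_asize _ (Finset.mem_image.2 ⟨i, Finset.mem_range.2 hi, rfl⟩)

theorem one_le_Nn (hG : X.Geom) (p : 𝔸.ι) (n : ℕ) (P : X.Pts) : 1 ≤ X.Nn 𝔸 p n P := by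
  have h := abv_ev_le_Nn (𝔸 := 𝔸) p (n := n) (i := 0) (hG.one_le_ell n) P
  rwa [hG.ev_zero, map_one] at h

theorem Nn_pos (hG : X.Geom) (p : 𝔸.ι) (n : ℕ) (P : X.Pts) : 0 < X.Nn 𝔸 p n P := by
  exact lt_of_lt_of_le zero_lt_one (one_le_Nn hG p n P)

theorem Nn_mono (hG : X.Geom) (p : 𝔸.ι) {n n' : ℕ} (h : n ≤ n') (P : X.Pts) :
    X.Nn 𝔸 p n P ≤ X.Nn 𝔸 p n' P := by
  refine asize_mono _ (Finset.image_subset_image ?_)
  exact Finset.range_subset_range.2 (hG.ell_mono h)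

theorem nl_nonneg (hG : X.Geom) (p : 𝔸.ι) (n : ℕ) (P : X.Pts) : 0 ≤ X.nl 𝔸 p n P := by
  exact Real.log_nonneg (one_le_Nn hG p n P)

theorem nl_mono (hG : X.Geom) (p : 𝔸.ι) {n n' : ℕ} (h : n ≤ n') (P : X.Pts) :
    X.nl 𝔸 p n P ≤ X.nl 𝔸 p n' P := by
  exact Real.log_le_log (Nn_pos hG p n P) (Nn_mono hG p h P)

theorem fs_nl (hG : X.Geom) (n : ℕ) (P : X.Pts) : FS fun p => X.nl 𝔸 p n P := by
  refine apiloc_fs_log_asize 𝔸 ⟨X.ev 0 P, Finset.mem_image.2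
    ⟨0, Finset.mem_range.2 (hG.one_le_ell n), rfl⟩, ?_⟩
  rw [hG.ev_zero]
  exact one_ne_zero

theorem ns_mono (hG : X.Geom) {n n' : ℕ} (h : n ≤ n') (P : X.Pts) : X.ns 𝔸 n P ≤ X.ns 𝔸 n' P := by
  exact fsum_le (fs_nl hG n P) (fs_nl hG n' P) fun p => nl_mono hG p h P

theorem eta_eq (P : X.Pts) : X.eta 𝔸 P = X.ns 𝔸 X.d P / X.d := by
  rfl

/-- `log max(1,|e_1(P)|_p) ≤ n_{d,p}(P)` -/
theorem log_max_ev_one_le (hG : X.Geom) (p : 𝔸.ι) (P : X.Pts) :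
    Real.log (max 1 (𝔸.abv p (X.ev 1 P))) ≤ X.nl 𝔸 p X.d P := by
  refine Real.log_le_log (lt_of_lt_of_le zero_lt_one (le_max_left _ _)) ?_
  exact max_le (one_le_Nn hG p X.d P) (abv_ev_le_Nn p hG.two_le_ell_d P)

theorem one_le_NN (hG : X.Geom) (p : 𝔸.ι) (P P' : X.Pts) : 1 ≤ X.NN 𝔸 p P P' := by
  exact one_le_mul_of_one_le_of_one_le (one_le_Nn hG p X.d P) (one_le_Nn hG p X.d P')

theorem NN_pos (hG : X.Geom) (p : 𝔸.ι) (P P' : X.Pts) : 0 < X.NN 𝔸 p P P' := by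
  exact lt_of_lt_of_le zero_lt_one (one_le_NN hG p P P')

theorem NN_symm (p : 𝔸.ι) (P P' : X.Pts) : X.NN 𝔸 p P P' = X.NN 𝔸 p P' P := by
  exact mul_comm _ _

theorem Wd_symm (p : 𝔸.ι) (P P' : X.Pts) : X.Wd 𝔸 p P P' = X.Wd 𝔸 p P' P := by
  unfold Wd
  congr 1
  ext x
  simp only [Finset.mem_image, Finset.mem_product, Finset.mem_range, Prod.exists]
  constructor
  · rintro ⟨i, j, ⟨hi, hj⟩, rfl⟩
    exact ⟨j, i, ⟨hj, hi⟩, by ring⟩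
  · rintro ⟨i, j, ⟨hi, hj⟩, rfl⟩
    exact ⟨j, i, ⟨hj, hi⟩, by ring⟩

/-- the family defining `W(P,P')` contains a nonzero element -/
theorem apiloc_exists_ne_zero (hG : X.Geom) {P P' : X.Pts} (h : P ≠ P') :
    ∃ x ∈ (Finset.range (X.ℓ X.d) ×ˢ Finset.range (X.ℓ X.d)).image
      (fun ij : ℕ × ℕ => X.ev ij.1 P * X.ev ij.2 P' - X.ev ij.2 P * X.ev ij.1 P'), x ≠ 0 := by
  obtain ⟨i, hi, hne⟩ := hG.sep P P' h
  refine ⟨X.ev i P * X.ev 0 P' - X.ev 0 P * X.ev i P', Finset.mem_image.2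
    ⟨(i, 0), Finset.mem_product.2 ⟨Finset.mem_range.2 hi,
      Finset.mem_range.2 (hG.one_le_ell X.d)⟩, rfl⟩, ?_⟩
  rw [hG.ev_zero, hG.ev_zero, mul_one, one_mul]
  exact sub_ne_zero.2 hne

theorem Wd_pos (hG : X.Geom) (p : 𝔸.ι) {P P' : X.Pts} (h : P ≠ P') : 0 < X.Wd 𝔸 p P P' := by
  exact (asize_pos_iff _ _).2 (apiloc_exists_ne_zero hG h)

theorem fs_log_NN (hG : X.Geom) (P P' : X.Pts) : FS fun p => Real.log (X.NN 𝔸 p P P') := by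
  have h : (fun p => Real.log (X.NN 𝔸 p P P')) = fun p => X.nl 𝔸 p X.d P + X.nl 𝔸 p X.d P' := by
    funext p
    exact Real.log_mul (Nn_pos hG p X.d P).ne' (Nn_pos hG p X.d P').ne'
  rw [h]
  exact (fs_nl hG X.d P).add (fs_nl hG X.d P')

theorem fs_log_Wd (hG : X.Geom) {P P' : X.Pts} (h : P ≠ P') : FS fun p => Real.log (X.Wd 𝔸 p P P') := by
  exact apiloc_fs_log_asize 𝔸 (apiloc_exists_ne_zero hG h)

theorem fs_ll (hG : X.Geom) {P P' : X.Pts} (h : P ≠ P') : FS fun p => X.ll 𝔸 p P P' := by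
  exact (fs_log_NN hG P P').sub (fs_log_Wd hG h)

theorem tsize_pos (p : 𝔸.ι) {m : ℕ} {t : ℕ → Qbar} (ht : ∃ i < X.ℓ m, t i ≠ 0) : 0 < X.tsize 𝔸 p m t := by
  obtain ⟨i, hi, h0⟩ := ht
  exact (asize_pos_iff _ _).2 ⟨t i, Finset.mem_image.2 ⟨i, Finset.mem_range.2 hi, rfl⟩, h0⟩

theorem abv_le_tsize (p : 𝔸.ι) {m i : ℕ} (t : ℕ → Qbar) (hi : i < X.ℓ m) :
    𝔸.abv p (t i) ≤ X.tsize 𝔸 p m t := by
  exact le_asize _ (Finset.mem_image.2 ⟨i, Finset.mem_range.2 hi, rfl⟩)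

theorem tsize_le_iff (p : 𝔸.ι) (m : ℕ) (t : ℕ → Qbar) {B : ℝ} (hB : 0 ≤ B) :
    X.tsize 𝔸 p m t ≤ B ↔ ∀ i < X.ℓ m, 𝔸.abv p (t i) ≤ B := by
  unfold tsize
  rw [asize_le_iff _ _ hB]
  constructor
  · intro h i hi
    exact h _ (Finset.mem_image.2 ⟨i, Finset.mem_range.2 hi, rfl⟩)
  · intro h x hx
    obtain ⟨i, hi, rfl⟩ := Finset.mem_image.1 hx
    exact h i (Finset.mem_range.1 hi)

theorem fs_log_tsize {m : ℕ} {t : ℕ → Qbar} (ht : ∃ i < X.ℓ m, t i ≠ 0) :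
    FS fun p => Real.log (X.tsize 𝔸 p m t) := by
  obtain ⟨i, hi, h0⟩ := ht
  exact apiloc_fs_log_asize 𝔸 ⟨t i, Finset.mem_image.2 ⟨i, Finset.mem_range.2 hi, rfl⟩, h0⟩

end ACurve

end Fermat.Agent.S17
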