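import Fermat.Agent.S17.Glob.Api

/-!
# S17-GLOB: (COVER) finitely many auxiliary lists `Y` suffice
-/

set_option autoImplicit false

namespace Fermat.Agent.S17

/-- In a finite dimensional space of functions, the common zeros of a family are the common zeros of a finite subfamily. -/
theorem exists_finset_common_zero {T K ι : Type*} [Field K] (φ : ι → T → K) (V : Submodule K (T → K))
    [FiniteDimensional K V] (h : ∀ i, φ i ∈ V) :
    ∃ s : Finset ι, ∀ x, (∀ i ∈ s, φ i x = 0) → ∀ i, φ i x = 0 := by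
  classical
  have hle : Submodule.span K (Set.range φ) ≤ V := by
    rw [Submodule.span_le]
    rintro _ ⟨i, rfl⟩
    exact h i
  have hfd : FiniteDimensional K (Submodule.span K (Set.range φ)) :=
    Submodule.finiteDimensional_of_le hle
  have hfg : (Submodule.span K (Set.range φ)).FG := (Submodule.fg_iff_finiteDimensional _).2 hfd
  obtain ⟨s', hs', hspan⟩ := (Submodule.fg_span_iff_fg_span_finset_subset _).1 hfg
  rw [← Set.image_univ] at hs'
  obtain ⟨t, -, ht⟩ := Finset.subset_set_image_iff.1 hs'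
  refine ⟨t, fun x hx i => ?_⟩
  have h1 : Submodule.span K (s' : Set (T → K)) ≤ LinearMap.ker (LinearMap.proj x : (T → K) →ₗ[K] K) := by
    rw [Submodule.span_le]
    intro f hf
    rw [← ht] at hf
    obtain ⟨j, hj, rfl⟩ := Finset.mem_image.1 (Finset.mem_coe.1 hf)
    exact hx j hj
  have h2 : φ i ∈ Submodule.span K (s' : Set (T → K)) := by
    rw [← hspan]
    exact Submodule.subset_span ⟨i, rfl⟩
  exact h1 h2

namespace ACurve

variable {X : ACurve}

theorem cover_DL_cast (l : List X.Pts) (r : ℕ) (hl : l.length = r) :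
    X.DL l = Matrix.det (Matrix.of fun i j : Fin r => X.ev i (l.get (j.cast hl.symm))) := by
  subst hl
  rfl

theorem cover_DL_ofFn {r : ℕ} (g : Fin r → X.Pts) :
    X.DL (List.ofFn g) = Matrix.det (Matrix.of fun i j : Fin r => X.ev i (g j)) := by
  rw [cover_DL_cast (List.ofFn g) r (List.length_ofFn)]
  congr 1
  ext i j
  simp only [Matrix.of_apply, List.get_ofFn]
  rfl

theorem cover_exists_ofFn {α : Type*} (l : List α) {μ : ℕ} (hl : l.length = μ) :
    ∃ q : Fin μ → α, l = List.ofFn q := by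
  subst hl
  exact ⟨l.get, (List.ofFn_get l).symm⟩

/-- Leibniz expansion: as a function of `Q`, `DL (Q ++ Y)` is a combination of the finitely many functions
`Q ↦ ∏_j e_{f j}(Q_j)`. -/
theorem DL_append_expand (μ r : ℕ) (Y : List X.Pts) (hY : Y.length + μ = r) :
    ∃ c : (Fin μ → Fin r) → Qbar, ∀ Q : Fin μ → X.Pts,
      X.DL (List.ofFn Q ++ Y) = ∑ f : Fin μ → Fin r, c f * ∏ j, X.ev (f j) (Q j) := by
  classical
  have hr : r = μ + Y.length := by omega
  subst hr
  refine ⟨fun f => ∑ σ : Equiv.Perm (Fin (μ + Y.length)),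
    if (fun j => σ (Fin.castAdd Y.length j)) = f then
      ((Equiv.Perm.sign σ : ℤ) : Qbar) * ∏ j : Fin Y.length, X.ev (σ (Fin.natAdd μ j)) (Y.get j)
    else 0, fun Q => ?_⟩
  have e1 : List.ofFn Q ++ Y = List.ofFn (Fin.append Q Y.get) := by
    rw [List.ofFn_fin_append, List.ofFn_get]
  rw [e1, cover_DL_ofFn, Matrix.det_apply']
  simp_rw [Finset.sum_mul, ite_mul, zero_mul]
  rw [Finset.sum_comm]
  refine Finset.sum_congr rfl fun σ _ => ?_
  rw [Finset.sum_ite_eq, if_pos (Finset.mem_univ _), Fin.prod_univ_add]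
  simp only [Matrix.of_apply, Fin.append_left, Fin.append_right]
  ring

/-- (COVER) -/
theorem exists_finite_cover (hG : X.Geom) (n μ : ℕ) (h : X.n₀ + μ ≤ n) :
    ∃ 𝒴 : Finset (List X.Pts), (∀ Y ∈ 𝒴, Y.length + μ = X.ℓ n) ∧
      ∀ Q Q' : List X.Pts, Q.Nodup → Q'.Nodup → Q.length = μ → Q'.length = μ →
        ∃ Y ∈ 𝒴, X.DL (Q ++ Y) ≠ 0 ∧ X.DL (Q' ++ Y) ≠ 0 := by
  classical
  set r := X.ℓ n with hr
  let bas : ((Fin μ → Fin r) × (Fin μ → Fin r)) → ((Fin μ → X.Pts) × (Fin μ → X.Pts)) → Qbar :=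
    fun ff QQ => (∏ j, X.ev (ff.1 j) (QQ.1 j)) * ∏ j, X.ev (ff.2 j) (QQ.2 j)
  let φ : {Y : List X.Pts // Y.length + μ = r} → ((Fin μ → X.Pts) × (Fin μ → X.Pts)) → Qbar :=
    fun Y QQ => X.DL (List.ofFn QQ.1 ++ Y.1) * X.DL (List.ofFn QQ.2 ++ Y.1)
  have hfd : FiniteDimensional Qbar (Submodule.span Qbar (Set.range bas)) :=
    FiniteDimensional.span_of_finite Qbar (Set.finite_range bas)
  have hφ : ∀ Y, φ Y ∈ Submodule.span Qbar (Set.range bas) := by
    intro Y
    obtain ⟨c, hc⟩ := DL_append_expand (X := X) μ r Y.1 Y.2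
    have e : φ Y = ∑ f : Fin μ → Fin r, ∑ f' : Fin μ → Fin r, (c f * c f') • bas (f, f') := by
      funext QQ
      simp only [φ, bas, hc, Finset.sum_apply, Pi.smul_apply, smul_eq_mul]
      rw [Finset.sum_mul_sum]
      refine Finset.sum_congr rfl fun f _ => Finset.sum_congr rfl fun f' _ => ?_
      ring
    rw [e]
    exact Submodule.sum_mem _ fun f _ => Submodule.sum_mem _ fun f' _ =>
      Submodule.smul_mem _ _ (Submodule.subset_span ⟨(f, f'), rfl⟩)
  obtain ⟨s, hs⟩ := exists_finset_common_zero φ (Submodule.span Qbar (Set.range bas)) hφ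
  refine ⟨s.map ⟨Subtype.val, Subtype.val_injective⟩, ?_, ?_⟩
  · intro Y hY
    obtain ⟨Y', -, rfl⟩ := Finset.mem_map.1 hY
    exact Y'.2
  · intro Q Q' hQ hQ' hl hl'
    obtain ⟨q, rfl⟩ := cover_exists_ofFn Q hl
    obtain ⟨q', rfl⟩ := cover_exists_ofFn Q' hl'
    by_contra hcon
    push Not at hcon
    have h0 : ∀ Y ∈ s, φ Y (q, q') = 0 := by
      intro Y hY
      by_cases h1 : X.DL (List.ofFn q ++ Y.1) = 0
      · simp only [φ, h1, zero_mul]
      · have h2 := hcon Y.1 (Finset.mem_map.2 ⟨Y, hY, rfl⟩) h1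
        simp only [φ, h2, mul_zero]
    obtain ⟨Y, hY, h1, h2⟩ := hG.cover n μ h _ _ hQ hQ' hl hl'
    exact mul_ne_zero h1 h2 (hs (q, q') h0 ⟨Y, hY⟩)

end ACurve

end Fermat.Agent.S17
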