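import Fermat.Agent.S17.Glob.Api

/-!
# S17-GLOB: determinant facts (Galois action, permutations, Laplace expansion along the last column)
-/

set_option autoImplicit false

namespace Fermat.Agent.S17

namespace ACurve

variable {X : ACurve}

variable (X) in
/-- the determinant `det (e_{I i}(f j))` for a family of points indexed by `Fin r` -/
noncomputable def det_F (r : ℕ) (I : ℕ → ℕ) (f : Fin r → X.Pts) : Qbar :=
  Matrix.det (Matrix.of fun i j : Fin r => X.ev (I i) (f j))

theorem det_minor_eq (I : ℕ → ℕ) (l : List X.Pts) {r : ℕ} (h : l.length = r) :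
    X.minor I l = X.det_F r I (fun j => l.get (j.cast h.symm)) := by
  subst h
  rfl

theorem det_F_smul (hG : X.Geom) (σ : GQ) (r : ℕ) (I : ℕ → ℕ) (f : Fin r → X.Pts) :
    X.det_F r I (fun j => σ • f j) = σ (X.det_F r I f) := by
  unfold det_F
  rw [AlgEquiv.map_det]
  congr 1
  ext i j
  simp [hG.ev_smul]

theorem det_F_perm (r : ℕ) (I : ℕ → ℕ) (f : Fin r → X.Pts) (τ : Equiv.Perm (Fin r)) :
    X.det_F r I (fun j => f (τ j)) = (Equiv.Perm.sign τ : ℤ) * X.det_F r I f := by
  unfold det_F
  rw [← Matrix.det_permute']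
  rfl

theorem det_F_sq_perm (r : ℕ) (I : ℕ → ℕ) (f : Fin r → X.Pts) (τ : Equiv.Perm (Fin r)) :
    X.det_F r I (fun j => f (τ j)) ^ 2 = X.det_F r I f ^ 2 := by
  rw [det_F_perm, mul_pow]
  rcases Int.units_eq_one_or (Equiv.Perm.sign τ) with h | h <;> simp [h]

theorem minor_smul (hG : X.Geom) (σ : GQ) (I : ℕ → ℕ) (l : List X.Pts) :
    X.minor I (l.map fun P => σ • P) = σ (X.minor I l) := by
  rw [det_minor_eq I (l.map fun P => σ • P) (List.length_map _), det_minor_eq I l rfl,
    ← det_F_smul hG]
  congr 1
  ext j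
  simp

theorem DL_smul (hG : X.Geom) (σ : GQ) (l : List X.Pts) :
    X.DL (l.map fun P => σ • P) = σ (X.DL l) := by
  exact minor_smul hG σ id l

/-- only the values `I i`, `i < l.length`, matter -/
theorem minor_congr {I I' : ℕ → ℕ} (l : List X.Pts) (h : ∀ i < l.length, I i = I' i) :
    X.minor I l = X.minor I' l := by
  unfold minor
  congr 1
  ext i j
  simp [h i i.isLt]

theorem nodup_of_DL_ne_zero {l : List X.Pts} (h : X.DL l ≠ 0) : l.Nodup := by
  rw [List.nodup_iff_injective_get]
  intro i j hij
  by_contra hne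
  apply h
  unfold DL minor
  refine Matrix.det_zero_of_column_eq hne fun k => ?_
  change X.ev _ (l.get i) = X.ev _ (l.get j)
  rw [hij]

theorem DL_sq_perm {l l' : List X.Pts} (h : l.Perm l') : X.DL l ^ 2 = X.DL l' ^ 2 := by
  classical
  by_cases hl : l.Nodup
  · have hl' : l'.Nodup := h.nodup_iff.1 hl
    have hlen : l'.length = l.length := h.length_eq.symm
    -- the permutation of the indices
    let e : Fin l.length ≃ Fin l'.length :=
      (List.Nodup.getEquiv l hl).trans
        ((Equiv.subtypeEquivRight fun x => h.mem_iff).trans (List.Nodup.getEquiv l' hl').symm)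
    have he : ∀ j, l'.get (e j) = l.get j := by
      intro j
      have h1 : (List.Nodup.getEquiv l' hl') (e j) =
          (Equiv.subtypeEquivRight fun x => h.mem_iff) (List.Nodup.getEquiv l hl j) := by
        simp only [e, Equiv.trans_apply, Equiv.apply_symm_apply]
      have h2 := congrArg Subtype.val h1
      simpa using h2
    let τ : Equiv.Perm (Fin l.length) := e.trans (finCongr hlen)
    unfold DL
    rw [det_minor_eq id l rfl, det_minor_eq id l' hlen,
      ← det_F_sq_perm _ _ (fun j => l'.get (j.cast hlen.symm)) τ]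
    congr 2
    ext j
    change l.get j = l'.get (e j)
    rw [he j]
  · have hl' : ¬ l'.Nodup := fun h' => hl (h.nodup_iff.2 h')
    have h0 : X.DL l = 0 := by
      by_contra h0
      exact hl (nodup_of_DL_ne_zero h0)
    have h0' : X.DL l' = 0 := by
      by_contra h0
      exact hl' (nodup_of_DL_ne_zero h0)
    rw [h0, h0']

theorem DL_ne_zero_perm {l l' : List X.Pts} (h : l.Perm l') (h0 : X.DL l ≠ 0) : X.DL l' ≠ 0 := by
  intro h1
  have := DL_sq_perm (X := X) h
  rw [h1] at this
  exact h0 (by simpa using this)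

variable (X) in
/-- the cofactor vector: the coefficients of the section `P ↦ DL (S ++ [P])` -/
noncomputable def cof (S : List X.Pts) (i : ℕ) : Qbar :=
  (-1) ^ (i + S.length) * X.minor (fun k => if k < i then k else k + 1) S

theorem cof_length (S : List X.Pts) : X.cof S S.length = X.DL S := by
  unfold cof DL
  rw [Even.neg_one_pow ⟨S.length, rfl⟩, one_mul]
  exact minor_congr S fun i hi => by simp [hi]

theorem det_val_succAbove {n : ℕ} (i : Fin (n + 1)) (k : Fin n) :
    ((i.succAbove k : Fin (n + 1)) : ℕ) = if (k : ℕ) < i then (k : ℕ) else k + 1 := by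
  unfold Fin.succAbove
  by_cases h : (k : ℕ) < i
  · have : k.castSucc < i := h
    simp [this, h]
  · have : ¬ k.castSucc < i := h
    simp [this, h]

/-- Laplace expansion along the last column -/
theorem DL_append_singleton (S : List X.Pts) (P : X.Pts) :
    X.DL (S ++ [P]) = ∑ i ∈ Finset.range (S.length + 1), X.cof S i * X.ev i P := by
  have hlen : (S ++ [P]).length = S.length + 1 := by simp
  unfold DL
  rw [det_minor_eq id (S ++ [P]) hlen, Finset.sum_range]
  unfold det_F
  rw [Matrix.det_succ_column _ (Fin.last S.length)]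
  refine Finset.sum_congr rfl fun i _ => ?_
  have h1 : (S ++ [P]).get ((Fin.last S.length).cast hlen.symm) = P := by
    simp
  have h2 : ∀ m : Fin S.length,
      (S ++ [P]).get (((Fin.last S.length).succAbove m).cast hlen.symm) = S.get m := by
    intro m
    simp [Fin.succAbove_last, List.getElem_append_left]
  unfold cof minor
  simp only [Matrix.of_apply, id, h1, Fin.val_last]
  rw [mul_right_comm]
  congr 3
  ext k m
  simp only [Matrix.submatrix_apply, Matrix.of_apply, h2, det_val_succAbove]

theorem ell_succ (hG : X.Geom) {n : ℕ} (hn : X.n₀ ≤ n) : X.ℓ (n + 1) = X.ℓ n + 1 := by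
  have h1 := hG.ell_eq n hn
  have h2 := hG.ell_eq (n + 1) (by omega)
  omega

theorem DL_append_singleton_eq_sec (hG : X.Geom) {n : ℕ} (hn : X.n₀ ≤ n) {S : List X.Pts}
    (hS : S.length = X.ℓ n) (P : X.Pts) : X.DL (S ++ [P]) = X.sec (n + 1) (X.cof S) P := by
  rw [DL_append_singleton, sec, ell_succ hG hn, hS]

theorem DL_append_singleton_self {S : List X.Pts} {P : X.Pts} (h : P ∈ S) : X.DL (S ++ [P]) = 0 := by
  by_contra h0
  have := nodup_of_DL_ne_zero h0
  rw [List.nodup_append] at this
  exact this.2.2 P h P (by simp) rfl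

end ACurve

end Fermat.Agent.S17
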