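import Fermat.Agent.S17.Glob.Api

/-!
# S17-GLOB: pairwise disjoint auxiliary families and the pigeonhole principle
-/

set_option autoImplicit false

namespace Fermat.Agent.S17

/-- pigeonhole: among `k + 1` pairwise disjoint sets one avoids a given multiset of `≤ k` points -/
theorem exists_avoid {α : Type*} (k : ℕ) (F : Fin (k + 1) → Set α) (hF : ∀ i j, i ≠ j → Disjoint (F i) (F j))
    (Q : Multiset α) (hQ : Q.card ≤ k) : ∃ i, ∀ P ∈ Q, P ∉ F i := by
  classical
  by_contra hcon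
  have hcon' : ∀ i, ∃ P, P ∈ Q ∧ P ∈ F i := by
    intro i
    by_contra hi
    exact hcon ⟨i, fun P hP hPF => hi ⟨P, hP, hPF⟩⟩
  choose P hPQ hPF using hcon'
  have hinj : Function.Injective P := by
    intro i j hij
    by_contra hne
    exact Set.disjoint_left.1 (hF i j hne) (hPF i) (hij ▸ hPF j)
  have h1 : (Finset.univ : Finset (Fin (k + 1))).card ≤ Q.toFinset.card :=
    Finset.card_le_card_of_injOn P (fun i _ => Multiset.mem_toFinset.2 (hPQ i)) hinj.injOn
  have h2 := Multiset.toFinset_card_le Q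
  rw [Finset.card_univ, Fintype.card_fin] at h1
  omega

/-- auxiliary: greedy construction of `k` objects with pairwise disjoint (finite) supports -/
theorem fam_exists {α β : Type*} (supp : β → Finset α) (good : β → Prop)
    (step : ∀ Sg : Finset α, ∃ b, good b ∧ ∀ a ∈ supp b, a ∉ Sg) (k : ℕ) :
    ∃ F : Fin k → β, (∀ i, good (F i)) ∧ ∀ i j, i ≠ j → ∀ a ∈ supp (F i), a ∉ supp (F j) := by
  classical
  induction k with
  | zero => exact ⟨Fin.elim0, fun i => i.elim0, fun i => i.elim0⟩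
  | succ k ih =>
    obtain ⟨F, hF, hd⟩ := ih
    obtain ⟨b, hb, hbS⟩ := step (Finset.univ.biUnion fun i => supp (F i))
    refine ⟨Fin.cons b F, ?_, ?_⟩
    · intro i
      refine Fin.cases ?_ (fun i => ?_) i
      · simpa using hb
      · simpa using hF i
    · intro i j
      refine Fin.cases ?_ (fun i => ?_) i <;> refine Fin.cases ?_ (fun j => ?_) j
      · intro h
        exact absurd rfl h
      · intro _ a ha haj
        simp only [Fin.cons_zero, Fin.cons_succ] at ha haj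
        exact hbS a ha (Finset.mem_biUnion.2 ⟨j, Finset.mem_univ _, haj⟩)
      · intro _ a ha haj
        simp only [Fin.cons_zero, Fin.cons_succ] at ha haj
        exact hbS a haj (Finset.mem_biUnion.2 ⟨i, Finset.mem_univ _, ha⟩)
      · intro hij a ha haj
        simp only [Fin.cons_succ] at ha haj
        exact hd i j (fun h => hij (by rw [h])) a ha haj

namespace ACurve

variable {X : ACurve}

/-- `k` pairwise disjoint stable reduced divisors of class `0` and size `μ` -/
theorem exists_fam_cls_zero (hG : X.Geom) (μ : ℕ) (hμ : X.n₀ ≤ μ) (k : ℕ) :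
    ∃ F : Fin k → Multiset X.Pts,
      (∀ i, X.Stable (F i) ∧ (F i).Nodup ∧ (F i).card = μ ∧ X.cls (F i) = 0) ∧
      ∀ i j, i ≠ j → ∀ P ∈ F i, P ∉ F j := by
  classical
  obtain ⟨F, hF, hd⟩ := fam_exists (fun Q : Multiset X.Pts => Q.toFinset)
    (fun Q => X.Stable Q ∧ Q.Nodup ∧ Q.card = μ ∧ X.cls Q = 0)
    (fun Sg => by
      obtain ⟨Q, h1, h2, h3, h4, h5⟩ := hG.mov μ hμ 0 (zero_mem _) Sg
      exact ⟨Q, ⟨h1, h2, h3, h4⟩, fun a ha => h5 a (Multiset.mem_toFinset.1 ha)⟩) k
  refine ⟨F, hF, fun i j hij P hP hPj => ?_⟩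
  exact hd i j hij P (Multiset.mem_toFinset.2 hP) (Multiset.mem_toFinset.2 hPj)

/-- `k` pairwise disjoint lists with non-vanishing determinant -/
theorem exists_fam_indep (hG : X.Geom) (n : ℕ) (hn : X.n₀ ≤ n) (k : ℕ) :
    ∃ F : Fin k → List X.Pts,
      (∀ i, (F i).Nodup ∧ (F i).length = X.ℓ n ∧ X.DL (F i) ≠ 0) ∧
      ∀ i j, i ≠ j → ∀ P ∈ F i, P ∉ F j := by
  classical
  obtain ⟨F, hF, hd⟩ := fam_exists (fun Q : List X.Pts => Q.toFinset)
    (fun Q => Q.Nodup ∧ Q.length = X.ℓ n ∧ X.DL Q ≠ 0)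
    (fun Sg => by
      obtain ⟨Q, h1, h2, h3, h4⟩ := hG.exists_indep n hn Sg
      exact ⟨Q, ⟨h1, h2, h3⟩, fun a ha => h4 a (List.mem_toFinset.1 ha)⟩) k
  refine ⟨F, hF, fun i j hij P hP hPj => ?_⟩
  exact hd i j hij P (List.mem_toFinset.2 hP) (List.mem_toFinset.2 hPj)

end ACurve

end Fermat.Agent.S17
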