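import Fermat.Agent.S17.Glob.Api

/-!
# S17-GLOB: global form of (E-W) + (E-D)
-/

set_option autoImplicit false

namespace Fermat.Agent.S17

/-- there is at least one place (by Northcott) -/
theorem gdet_nonempty (𝔸 : GlobalAbs) : Nonempty 𝔸.ι := by
  by_contra hne
  rw [not_nonempty_iff] at hne
  have h := 𝔸.northcott 0
  have h1 : {x : ℚ | ∑ᶠ p, Real.log (max 1 (𝔸.abv p (algebraMap ℚ Qbar x))) ≤ 0} = Set.univ := by
    ext x
    simp only [Set.mem_ofPred_eq, Set.mem_univ, iff_true]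
    rw [finsum_of_isEmpty]
  rw [h1] at h
  exact Set.infinite_univ h

namespace ACurve

variable {X : ACurve} {𝔸 : GlobalAbs}

/-- (GDET)  `∑_p log|DL(ψ ++ U)|_p = ∑_{P ∈ ψ ++ U} ∑_p n_{n,p}(P) - ∑_{pairs} λ + O(1)` -/
theorem gdet (hG : X.Geom) (hE : X.Estimates 𝔸) (n m : ℕ) (U : List X.Pts) (hm : X.n₀ ≤ m)
    (hn : X.n₀ + m ≤ n) (hU : U.Nodup) (hl : U.length = X.ℓ (n - m)) (hD : X.DL U ≠ 0) :
    ∃ c : ℝ, ∀ (t : ℕ → Qbar) (ψ : List X.Pts), ψ.Nodup → ψ.length = m →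
      (∃ i < X.ℓ m, t i ≠ 0) → (∀ P ∈ ψ, X.sec m t P = 0) → (∀ P ∈ ψ, P ∉ U) →
      X.DL (ψ ++ U) ≠ 0 ∧
      |𝔸.hl (X.DL (ψ ++ U)) - ((ψ ++ U).map (X.ns 𝔸 n)).sum + pairSum (X.lam 𝔸) (ψ ++ U)| ≤ c := by
  obtain ⟨C1, hC1, h1⟩ := hE.ed n m U hm hn hU hl hD
  obtain ⟨C2, hC2, h2⟩ := hE.ew n (X.ℓ n) (by omega)
  have hC : 𝔸.Good (fun p => C1 p * C2 p) := AbsFam.Good.mul 𝔸.toAbsFam hC1 hC2
  refine ⟨∑ᶠ p, Real.log (C1 p * C2 p), ?_⟩
  intro t ψ hψ hψl ht hz hψU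
  set l : List X.Pts := ψ ++ U with hldef
  have hnd : l.Nodup := by
    rw [hldef, List.nodup_append]
    refine ⟨hψ, hU, ?_⟩
    intro a ha b hb hab
    exact hψU a ha (hab ▸ hb)
  have hlen : l.length = X.ℓ n := by
    have e1 := hG.ell_eq (n - m) (by omega)
    have e2 := hG.ell_eq n (by omega)
    rw [hldef, List.length_append, hψl, hl]
    omega
  -- the two local quantities
  have hBpos : ∀ p, 0 < (l.map fun P => X.Nn 𝔸 p n P).prod * pairProd (X.Wd 𝔸 p) l := fun p =>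
    mul_pos (list_prod_pos l _ fun P _ => Nn_pos hG p n P) (pairProd_Wd_pos hG p hnd)
  have hle1 : ∀ p, (l.map fun P => X.Nn 𝔸 p n P).prod * pairProd (X.Wd 𝔸 p) l ≤
      C1 p * (𝔸.abv p (X.DL l) * pairProd (X.NN 𝔸 p) l) := fun p =>
    h1 p t ψ hψ hψl ht hz hψU
  have hle2 : ∀ p, 𝔸.abv p (X.DL l) * pairProd (X.NN 𝔸 p) l ≤
      C2 p * ((l.map fun P => X.Nn 𝔸 p n P).prod * pairProd (X.Wd 𝔸 p) l) := fun p =>
    h2 p id l hlen (fun i hi => hi)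
  have hApos : ∀ p, 0 < 𝔸.abv p (X.DL l) * pairProd (X.NN 𝔸 p) l := by
    intro p
    have h3 := lt_of_lt_of_le (hBpos p) (hle1 p)
    exact (pos_iff_pos_of_mul_pos h3).1 (hC1.pos p)
  have hDL : X.DL l ≠ 0 := by
    obtain ⟨p⟩ := gdet_nonempty 𝔸
    intro h0
    have := hApos p
    rw [h0, map_zero, zero_mul] at this
    exact lt_irrefl _ this
  refine ⟨hDL, ?_⟩
  have habv : ∀ p, 0 < 𝔸.abv p (X.DL l) := fun p => (𝔸.abv p).pos hDL
  -- local inequality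
  have hloc : ∀ p, |Real.log (𝔸.abv p (X.DL l)) - (l.map fun P => X.nl 𝔸 p n P).sum +
      pairSum (X.ll 𝔸 p) l| ≤ Real.log (C1 p * C2 p) := by
    intro p
    have hA := hApos p
    have hB := hBpos p
    have hc1 := hC1.1 p
    have hc2 := hC2.1 p
    have hc1' := hC1.pos p
    have hc2' := hC2.pos p
    have k1 : 𝔸.abv p (X.DL l) * pairProd (X.NN 𝔸 p) l ≤ (C1 p * C2 p) *
        ((l.map fun P => X.Nn 𝔸 p n P).prod * pairProd (X.Wd 𝔸 p) l) := by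
      refine (hle2 p).trans ?_
      refine mul_le_mul_of_nonneg_right ?_ hB.le
      nlinarith
    have k2 : (l.map fun P => X.Nn 𝔸 p n P).prod * pairProd (X.Wd 𝔸 p) l ≤ (C1 p * C2 p) *
        (𝔸.abv p (X.DL l) * pairProd (X.NN 𝔸 p) l) := by
      refine (hle1 p).trans ?_
      refine mul_le_mul_of_nonneg_right ?_ hA.le
      nlinarith
    have k3 := abs_log_sub_log_le hA hB (mul_pos hc1' hc2') k1 k2
    have e1 : Real.log (𝔸.abv p (X.DL l) * pairProd (X.NN 𝔸 p) l) =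
        Real.log (𝔸.abv p (X.DL l)) + Real.log (pairProd (X.NN 𝔸 p) l) :=
      Real.log_mul (habv p).ne' (pairProd_NN_pos hG p l).ne'
    have e2 : Real.log ((l.map fun P => X.Nn 𝔸 p n P).prod * pairProd (X.Wd 𝔸 p) l) =
        (l.map fun P => X.nl 𝔸 p n P).sum + Real.log (pairProd (X.Wd 𝔸 p) l) := by
      rw [Real.log_mul (list_prod_pos l _ fun P _ => Nn_pos hG p n P).ne'
        (pairProd_Wd_pos hG p hnd).ne', log_list_prod l _ fun P _ => Nn_pos hG p n P]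
      rfl
    have e3 := log_pairProd_sub (𝔸 := 𝔸) hG p hnd
    rw [e1, e2] at k3
    have e4 : Real.log (𝔸.abv p (X.DL l)) - (l.map fun P => X.nl 𝔸 p n P).sum +
        pairSum (X.ll 𝔸 p) l = Real.log (𝔸.abv p (X.DL l)) + Real.log (pairProd (X.NN 𝔸 p) l) -
          ((l.map fun P => X.nl 𝔸 p n P).sum + Real.log (pairProd (X.Wd 𝔸 p) l)) := by
      rw [← e3]; ring
    rw [e4]
    exact k3
  -- summation over the places
  have f1 : FS fun p => Real.log (𝔸.abv p (X.DL l)) := 𝔸.fs_log hDL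
  have f2 : FS fun p => (l.map fun P => X.nl 𝔸 p n P).sum :=
    FS.list_sum l (fun P p => X.nl 𝔸 p n P) fun P _ => fs_nl hG n P
  have f3 : FS fun p => pairSum (X.ll 𝔸 p) l := fs_pairSum_ll hG hnd
  have hsum : ∑ᶠ p, (Real.log (𝔸.abv p (X.DL l)) - (l.map fun P => X.nl 𝔸 p n P).sum +
      pairSum (X.ll 𝔸 p) l) =
      𝔸.hl (X.DL l) - (l.map (X.ns 𝔸 n)).sum + pairSum (X.lam 𝔸) l := by
    rw [fsum_add (f1.sub f2) f3, fsum_sub f1 f2, fsum_pairSum_ll hG hnd,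
      fsum_list_sum l (fun P p => X.nl 𝔸 p n P) fun P _ => fs_nl hG n P]
    rfl
  rw [← hsum]
  exact abs_fsum_le ((f1.sub f2).add f3) hC.fs_log hloc

end ACurve

end Fermat.Agent.S17
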