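import Fermat.Agent.S17.Glob.Api

/-!
# S17-GLOB: global form of (E1):  `∑_p n_{m,p}(P) = m η(P) + O(1)`
-/

set_option autoImplicit false

namespace Fermat.Agent.S17

namespace ACurve

variable {X : ACurve} {𝔸 : GlobalAbs}

/-- (GE1) -/
theorem ge1 (hG : X.Geom) (hE : X.Estimates 𝔸) (m : ℕ) (hm : X.n₀ ≤ m) :
    ∃ c : ℝ, ∀ P, |X.ns 𝔸 m P - m * X.eta 𝔸 P| ≤ c := by
  obtain ⟨C, hC, hCE⟩ := hE.e1 m hm
  have hd : (0 : ℝ) < X.d := by exact_mod_cast hG.d_pos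
  refine ⟨(∑ᶠ p, Real.log (C p)) / X.d, fun P => ?_⟩
  have hloc : ∀ p, |(X.d : ℝ) * X.nl 𝔸 p m P - m * X.nl 𝔸 p X.d P| ≤ Real.log (C p) := by
    intro p
    have h := abs_log_sub_log_le (pow_pos (Nn_pos hG p m P) X.d) (pow_pos (Nn_pos hG p X.d P) m)
      (hC.pos p) (hCE p P).1 (hCE p P).2
    rwa [Real.log_pow, Real.log_pow] at h
  have hfs1 : FS fun p => (X.d : ℝ) * X.nl 𝔸 p m P := (fs_nl hG m P).const_mul _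
  have hfs2 : FS fun p => (m : ℝ) * X.nl 𝔸 p X.d P := (fs_nl hG X.d P).const_mul _
  have hsum := abs_fsum_le (hfs1.sub hfs2) hC.fs_log hloc
  rw [fsum_sub hfs1 hfs2, fsum_const_mul, fsum_const_mul] at hsum
  have hsum' : |(X.d : ℝ) * X.ns 𝔸 m P - m * X.ns 𝔸 X.d P| ≤ ∑ᶠ p, Real.log (C p) := hsum
  have e : X.ns 𝔸 m P - m * X.eta 𝔸 P =
      ((X.d : ℝ) * X.ns 𝔸 m P - m * X.ns 𝔸 X.d P) / X.d := by
    rw [eta_eq]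
    field_simp
  rw [e, abs_div, abs_of_pos hd]
  exact div_le_div_of_nonneg_right hsum' hd.le

theorem ge1_multiset (hG : X.Geom) (hE : X.Estimates 𝔸) (m : ℕ) (hm : X.n₀ ≤ m) :
    ∃ c : ℝ, ∀ S : Multiset X.Pts, |(S.map (X.ns 𝔸 m)).sum - m * X.Ht 𝔸 S| ≤ S.card * c := by
  obtain ⟨c, hc⟩ := ge1 hG hE m hm
  refine ⟨c, fun S => ?_⟩
  have e : (m : ℝ) * X.Ht 𝔸 S = (S.map fun P => (m : ℝ) * X.eta 𝔸 P).sum := by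
    rw [Ht, Multiset.sum_map_mul_left]
  rw [e]
  exact abs_multiset_sum_sub_le S (X.ns 𝔸 m) (fun P => (m : ℝ) * X.eta 𝔸 P) c fun P _ => hc P

/-- `n_{d}(P) ≤ d (n_{n+1}(P) - n_n(P)) + O(1)` -/
theorem ge1_diff (hG : X.Geom) (hE : X.Estimates 𝔸) (n : ℕ) (hn : X.n₀ ≤ n) :
    ∃ c : ℝ, ∀ P, X.ns 𝔸 X.d P ≤ X.d * (X.ns 𝔸 (n + 1) P - X.ns 𝔸 n P) + c := by
  obtain ⟨c₁, hc₁⟩ := ge1 hG hE n hn
  obtain ⟨c₂, hc₂⟩ := ge1 hG hE (n + 1) (hn.trans (Nat.le_succ n))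
  have hd : (0 : ℝ) < X.d := by exact_mod_cast hG.d_pos
  refine ⟨X.d * (c₁ + c₂), fun P => ?_⟩
  have h1 := (abs_le.1 (hc₁ P)).2
  have h2 := (abs_le.1 (hc₂ P)).1
  have e : X.ns 𝔸 X.d P = X.d * X.eta 𝔸 P := by
    rw [eta_eq]
    field_simp
  push_cast at h2
  have h3 : X.eta 𝔸 P ≤ X.ns 𝔸 (n + 1) P - X.ns 𝔸 n P + (c₁ + c₂) := by linarith
  rw [e, ← mul_add]
  exact mul_le_mul_of_nonneg_left h3 hd.le

end ACurve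

end Fermat.Agent.S17
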