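import Fermat.Agent.S17.Glob.Api

/-!
# S17-GLOB: global form of (E-HS)
-/

set_option autoImplicit false

namespace Fermat.Agent.S17

namespace ACurve

variable {X : ACurve} {𝔸 : GlobalAbs}

/-- (GEHS)  `∑_p log|t(ρ)|_p + ∑_{P ∈ ψ} λ(P,ρ) = h(t) + ∑_p n_{m,p}(ρ) + O(1)` -/
theorem gehs (hG : X.Geom) (hE : X.Estimates 𝔸) (m : ℕ) (hm : X.n₀ ≤ m) :
    ∃ c : ℝ, ∀ (t : ℕ → Qbar) (ψ : List X.Pts) (ρ : X.Pts), ψ.Nodup → ψ.length = m →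
      (∃ i < X.ℓ m, t i ≠ 0) → (∀ P ∈ ψ, X.sec m t P = 0) → X.sec m t ρ ≠ 0 →
      |𝔸.hl (X.sec m t ρ) + (ψ.map fun P => X.lam 𝔸 P ρ).sum - X.hsec 𝔸 m t - X.ns 𝔸 m ρ| ≤ c := by
  obtain ⟨C, hC, hest⟩ := hE.ehs m hm
  refine ⟨∑ᶠ p, Real.log (C p), fun t ψ ρ hnd hlen ht hz hρ => ?_⟩
  have hne : ∀ P ∈ ψ, P ≠ ρ := fun P hP h => hρ (h ▸ hz P hP)
  -- the local identity
  have hloc : ∀ p, |Real.log (𝔸.abv p (X.sec m t ρ)) + (ψ.map fun P => X.ll 𝔸 p P ρ).sum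
      - Real.log (X.tsize 𝔸 p m t) - X.nl 𝔸 p m ρ| ≤ Real.log (C p) := by
    intro p
    have h1 : 0 < 𝔸.abv p (X.sec m t ρ) := (𝔸.abv p).pos hρ
    have h2 : 0 < (ψ.map fun P => X.NN 𝔸 p P ρ).prod :=
      list_prod_pos ψ _ fun P _ => NN_pos hG p P ρ
    have h3 : 0 < X.tsize 𝔸 p m t := tsize_pos p ht
    have h4 : 0 < X.Nn 𝔸 p m ρ := Nn_pos hG p m ρ
    have h5 : 0 < (ψ.map fun P => X.Wd 𝔸 p P ρ).prod :=
      list_prod_pos ψ _ fun P hP => Wd_pos hG p (hne P hP)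
    have hAB := abs_log_sub_log_le (mul_pos h1 h2) (mul_pos (mul_pos h3 h4) h5) (hC.pos p)
      (hest p t ψ ρ hnd hlen ht hz).1 (hest p t ψ ρ hnd hlen ht hz).2
    rw [Real.log_mul h1.ne' h2.ne', Real.log_mul (mul_pos h3 h4).ne' h5.ne',
      Real.log_mul h3.ne' h4.ne', log_list_prod ψ _ fun P _ => NN_pos hG p P ρ,
      log_list_prod ψ _ fun P hP => Wd_pos hG p (hne P hP)] at hAB
    have e : (ψ.map fun P => X.ll 𝔸 p P ρ).sum =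
        (ψ.map fun P => Real.log (X.NN 𝔸 p P ρ)).sum - (ψ.map fun P => Real.log (X.Wd 𝔸 p P ρ)).sum :=
      Fsum_list_sum_sub _ _ ψ
    rw [e]
    have e2 : Real.log (𝔸.abv p (X.sec m t ρ)) + ((ψ.map fun P => Real.log (X.NN 𝔸 p P ρ)).sum -
        (ψ.map fun P => Real.log (X.Wd 𝔸 p P ρ)).sum) - Real.log (X.tsize 𝔸 p m t) - X.nl 𝔸 p m ρ =
        Real.log (𝔸.abv p (X.sec m t ρ)) + (ψ.map fun P => Real.log (X.NN 𝔸 p P ρ)).sum -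
        (Real.log (X.tsize 𝔸 p m t) + Real.log (X.Nn 𝔸 p m ρ) +
          (ψ.map fun P => Real.log (X.Wd 𝔸 p P ρ)).sum) := by
      unfold nl
      ring
    rw [e2]
    exact hAB
  -- finite supports
  have f1 : FS fun p => Real.log (𝔸.abv p (X.sec m t ρ)) := 𝔸.fs_log hρ
  have f2 : FS fun p => (ψ.map fun P => X.ll 𝔸 p P ρ).sum :=
    FS.list_sum ψ (fun P p => X.ll 𝔸 p P ρ) fun P hP => fs_ll hG (hne P hP)
  have f3 : FS fun p => Real.log (X.tsize 𝔸 p m t) := fs_log_tsize ht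
  have f4 : FS fun p => X.nl 𝔸 p m ρ := fs_nl hG m ρ
  have hsum : ∑ᶠ p, (Real.log (𝔸.abv p (X.sec m t ρ)) + (ψ.map fun P => X.ll 𝔸 p P ρ).sum
      - Real.log (X.tsize 𝔸 p m t) - X.nl 𝔸 p m ρ) =
      𝔸.hl (X.sec m t ρ) + (ψ.map fun P => X.lam 𝔸 P ρ).sum - X.hsec 𝔸 m t - X.ns 𝔸 m ρ := by
    rw [fsum_sub ((f1.add f2).sub f3) f4, fsum_sub (f1.add f2) f3, fsum_add f1 f2,
      fsum_list_sum ψ (fun P p => X.ll 𝔸 p P ρ) fun P hP => fs_ll hG (hne P hP)]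
    have e : (ψ.map fun P => ∑ᶠ p, X.ll 𝔸 p P ρ) = ψ.map fun P => X.lam 𝔸 P ρ :=
      List.map_congr_left fun P hP => (lam_eq (hne P hP)).symm
    rw [e]
    rfl
  rw [← hsum]
  exact abs_fsum_le (((f1.add f2).sub f3).sub f4) hC.fs_log hloc

end ACurve

end Fermat.Agent.S17
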