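import Fermat.Agent.S17.Glob.ACurve

/-!
# S17-GLOB: global heights and the pairing `b`
-/

set_option autoImplicit false

namespace Fermat.Agent.S17

namespace ACurve

variable (X : ACurve) (𝔸 : GlobalAbs)

/-- `η(P) = (1/d) ∑_p log N_{d,p}(P)`: the height of `P` relative to `∞` -/
noncomputable def eta (P : X.Pts) : ℝ := (∑ᶠ p, Real.log (X.Nn 𝔸 p X.d P)) / X.d

/-- `H(S) = ∑_{P ∈ S} η(P)` -/
noncomputable def Ht (S : Multiset X.Pts) : ℝ := (S.map (X.eta 𝔸)).sum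

open Classical in
/-- `λ(P,P') = ∑_p [log N_d(P) + log N_d(P') - log W(P,P')]` (`0` on the diagonal) -/
noncomputable def lam (P P' : X.Pts) : ℝ :=
  if P = P' then 0 else ∑ᶠ p, (Real.log (X.NN 𝔸 p P P') - Real.log (X.Wd 𝔸 p P P'))

/-- `G(S,S') = ∑∑ λ(P,P')` -/
noncomputable def Gr (S S' : Multiset X.Pts) : ℝ := (S.map fun P => (S'.map fun P' => X.lam 𝔸 P P').sum).sum

/-- `b(Q,Q') = |Q'| H(Q) + |Q| H(Q') - G(Q,Q')` -/
noncomputable def bb (Q Q' : Multiset X.Pts) : ℝ := Q'.card * X.Ht 𝔸 Q + Q.card * X.Ht 𝔸 Q' - X.Gr 𝔸 Q Q'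

/-- `h(t) = ∑_p log ‖t‖_p` -/
noncomputable def hsec (m : ℕ) (t : ℕ → Qbar) : ℝ := ∑ᶠ p, Real.log (X.tsize 𝔸 p m t)

end ACurve

end Fermat.Agent.S17
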