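import Fermat.Agent.S17.Glob.Key1b

/-!
# S17-GLOB: KEY1
-/

set_option autoImplicit false

namespace Fermat.Agent.S17

namespace ACurve

variable {X : ACurve} {𝔸 : GlobalAbs}

/-- **KEY1** -/
theorem key1' (hG : X.Geom) (hE : X.Estimates 𝔸) (m m' : ℕ) (hm : X.n₀ ≤ m) :
    ∃ C : ℝ, ∀ Q Q' : Multiset X.Pts, X.Stable Q → X.Stable Q' → Q.Nodup → Q.card = m → Q'.card = m' →
      X.cls Q = 0 → Disjoint Q Q' → |X.bb 𝔸 Q Q'| ≤ C := by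
  obtain ⟨C1, h1⟩ := key1a hG hE m m' hm
  obtain ⟨C2, h2⟩ := key1b hG hE m hm
  refine ⟨C1 + m' * C2, ?_⟩
  intro Q Q' hQ hQ' hnd hc hc' hcls hdisj
  obtain ⟨t, ht0, htz⟩ := hG.sec_of_cls m hm Q hQ hnd hc hcls
  have ha := h1 t Q Q' ht0 htz hnd hc hQ' hc' hdisj
  have hb := h2 t Q ht0 htz hnd hc hQ
  set hs := X.hsec 𝔸 m (fun i => algebraMap ℚ Qbar (t i)) with hhs
  have e : X.bb 𝔸 Q Q' =
      -(X.Gr 𝔸 Q Q' - (m' * hs + m * X.Ht 𝔸 Q')) - m' * (hs - X.Ht 𝔸 Q) := by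
    rw [bb, hc, hc']
    ring
  rw [e]
  calc |-(X.Gr 𝔸 Q Q' - (m' * hs + m * X.Ht 𝔸 Q')) - m' * (hs - X.Ht 𝔸 Q)|
      ≤ |-(X.Gr 𝔸 Q Q' - (m' * hs + m * X.Ht 𝔸 Q'))| + |(m' : ℝ) * (hs - X.Ht 𝔸 Q)| :=
        abs_sub _ _
    _ = |X.Gr 𝔸 Q Q' - (m' * hs + m * X.Ht 𝔸 Q')| + m' * |hs - X.Ht 𝔸 Q| := by
        rw [abs_neg, abs_mul, Nat.abs_cast]
    _ ≤ C1 + m' * C2 := add_le_add ha (mul_le_mul_of_nonneg_left hb (Nat.cast_nonneg _))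

end ACurve

end Fermat.Agent.S17
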