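import Fermat.Agent.S17.Glob.GE1
import Fermat.Agent.S17.Glob.GEHS

/-!
# S17-GLOB: KEY1a
-/

set_option autoImplicit false

namespace Fermat.Agent.S17

namespace ACurve

variable {X : ACurve} {𝔸 : GlobalAbs}

/-- **KEY1a**: `G(Q,Q') = |Q'| h(t) + m H(Q') + O(1)` for `Q = Z(t)`, `t` rational, `Q'` stable disjoint from `Q`. -/
theorem key1a (hG : X.Geom) (hE : X.Estimates 𝔸) (m m' : ℕ) (hm : X.n₀ ≤ m) :
    ∃ C : ℝ, ∀ (t : ℕ → ℚ) (Q Q' : Multiset X.Pts), (∃ i < X.ℓ m, t i ≠ 0) →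
      (∀ P, X.sec m (fun i => algebraMap ℚ Qbar (t i)) P = 0 ↔ P ∈ Q) → Q.Nodup → Q.card = m →
      X.Stable Q' → Q'.card = m' → Disjoint Q Q' →
      |X.Gr 𝔸 Q Q' - (m' * X.hsec 𝔸 m (fun i => algebraMap ℚ Qbar (t i)) + m * X.Ht 𝔸 Q')| ≤ C := by
  obtain ⟨c, hc⟩ := gehs (𝔸 := 𝔸) hG hE m hm
  obtain ⟨c1, hc1⟩ := ge1_multiset (𝔸 := 𝔸) hG hE m hm
  refine ⟨m' * c + m' * c1, ?_⟩
  intro t Q Q' ht hZ hQnd hQc hst hQ'c hdisj
  set T : ℕ → Qbar := fun i => algebraMap ℚ Qbar (t i) with hTdef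
  have hT : ∃ i < X.ℓ m, T i ≠ 0 := by
    obtain ⟨i, hi, h0⟩ := ht
    refine ⟨i, hi, fun h => h0 ?_⟩
    exact (map_eq_zero (algebraMap ℚ Qbar)).1 h
  have hψnd : Q.toList.Nodup := by
    rw [← Multiset.coe_nodup, Multiset.coe_toList]; exact hQnd
  have hψlen : Q.toList.length = m := by rw [Multiset.length_toList, hQc]
  have hψz : ∀ P ∈ Q.toList, X.sec m T P = 0 := fun P hP => (hZ P).2 (Multiset.mem_toList.1 hP)
  have hne : ∀ ρ ∈ Q', X.sec m T ρ ≠ 0 := by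
    intro ρ hρ h0
    exact Multiset.disjoint_right.1 hdisj hρ ((hZ ρ).1 h0)
  have hsumQ : ∀ ρ, (Q.toList.map fun P => X.lam 𝔸 P ρ).sum = (Q.map fun P => X.lam 𝔸 P ρ).sum := by
    intro ρ
    conv_rhs => rw [← Multiset.coe_toList Q]
    rw [Multiset.map_coe, Multiset.sum_coe]
  have hbound : ∀ ρ ∈ Q', |(𝔸.hl (X.sec m T ρ) + (Q.map fun P => X.lam 𝔸 P ρ).sum) -
      (X.hsec 𝔸 m T + X.ns 𝔸 m ρ)| ≤ c := by
    intro ρ hρ
    have h := hc T Q.toList ρ hψnd hψlen hT hψz (hne ρ hρ)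
    rw [hsumQ] at h
    rwa [← sub_sub]
  have h1 := abs_multiset_sum_sub_le Q'
    (fun ρ => 𝔸.hl (X.sec m T ρ) + (Q.map fun P => X.lam 𝔸 P ρ).sum)
    (fun ρ => X.hsec 𝔸 m T + X.ns 𝔸 m ρ) c hbound
  have hprod : (Q'.map fun ρ => 𝔸.hl (X.sec m T ρ)).sum = 0 := by
    have h := 𝔸.sum_hl_eq_zero (Q'.map (X.sec m T)) ?_ ?_
    · rwa [Multiset.map_map] at h
    · intro σ
      rw [Multiset.map_map]
      conv_rhs => rw [← hst σ]
      rw [Multiset.map_map]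
      refine Multiset.map_congr rfl fun P _ => ?_
      exact (sec_smul hG m t σ P).symm
    · intro h0
      obtain ⟨ρ, hρ, h⟩ := Multiset.mem_map.1 h0
      exact hne ρ hρ h
  rw [Multiset.sum_map_add, Multiset.sum_map_add, hprod, zero_add, ← Gr_eq_sum_right,
    Multiset.map_const', Multiset.sum_replicate, nsmul_eq_mul, hQ'c] at h1
  have h2 := hc1 Q'
  rw [hQ'c] at h2
  have e : X.Gr 𝔸 Q Q' - (m' * X.hsec 𝔸 m T + m * X.Ht 𝔸 Q') =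
      (X.Gr 𝔸 Q Q' - (m' * X.hsec 𝔸 m T + (Q'.map (X.ns 𝔸 m)).sum)) +
        ((Q'.map (X.ns 𝔸 m)).sum - m * X.Ht 𝔸 Q') := by ring
  rw [e]
  exact (abs_add_le _ _).trans (add_le_add h1 h2)

end ACurve

end Fermat.Agent.S17
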