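import Fermat.Agent.S17.Glob.Key1a
import Fermat.Agent.S17.Glob.Fam

/-!
# S17-GLOB: KEY1b
-/

set_option autoImplicit false

namespace Fermat.Agent.S17

namespace ACurve

variable {X : ACurve} {𝔸 : GlobalAbs}

/-- **KEY1b**: `h(t) = H(Q) + O(1)` for `Q = Z(t)` stable. -/
theorem key1b (hG : X.Geom) (hE : X.Estimates 𝔸) (m : ℕ) (hm : X.n₀ ≤ m) :
    ∃ C : ℝ, ∀ (t : ℕ → ℚ) (Q : Multiset X.Pts), (∃ i < X.ℓ m, t i ≠ 0) →
      (∀ P, X.sec m (fun i => algebraMap ℚ Qbar (t i)) P = 0 ↔ P ∈ Q) → Q.Nodup → Q.card = m →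
      X.Stable Q → |X.hsec 𝔸 m (fun i => algebraMap ℚ Qbar (t i)) - X.Ht 𝔸 Q| ≤ C := by
  have hm0 : X.n₀ ≤ X.n₀ + 1 := Nat.le_succ _
  obtain ⟨F, hF, hFd⟩ := exists_fam_cls_zero hG (X.n₀ + 1) hm0 (m + 1)
  have hsec : ∀ k, ∃ t : ℕ → ℚ, (∃ i < X.ℓ (X.n₀ + 1), t i ≠ 0) ∧
      ∀ P, X.sec (X.n₀ + 1) (fun i => algebraMap ℚ Qbar (t i)) P = 0 ↔ P ∈ F k := fun k =>
    hG.sec_of_cls (X.n₀ + 1) hm0 (F k) (hF k).1 (hF k).2.1 (hF k).2.2.1 (hF k).2.2.2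
  choose t0 ht0ne ht0z using hsec
  obtain ⟨C1, hC1⟩ := key1a (𝔸 := 𝔸) hG hE m (X.n₀ + 1) hm
  obtain ⟨C2, hC2⟩ := key1a (𝔸 := 𝔸) hG hE (X.n₀ + 1) m hm0
  set D : ℝ := ∑ k, |X.hsec 𝔸 (X.n₀ + 1) (fun i => algebraMap ℚ Qbar (t0 k i)) - X.Ht 𝔸 (F k)|
    with hD
  refine ⟨C1 + C2 + m * D, ?_⟩
  intro t Q hne hz hnd hcard hst
  obtain ⟨k, hk⟩ := exists_avoid m (fun k => {P | P ∈ F k})
    (fun i j hij => Set.disjoint_left.2 fun P hPi hPj => hFd i j hij P hPi hPj) Q hcard.le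
  have hdisj : Disjoint Q (F k) := Multiset.disjoint_left.2 fun {P} hP => hk P hP
  have h1 := hC1 t Q (F k) hne hz hnd hcard (hF k).1 (hF k).2.2.1 hdisj
  have h2 := hC2 (t0 k) (F k) Q (ht0ne k) (ht0z k) (hF k).2.1 (hF k).2.2.1 hst hcard hdisj.symm
  rw [Gr_symm] at h2
  have h3 : |X.hsec 𝔸 (X.n₀ + 1) (fun i => algebraMap ℚ Qbar (t0 k i)) - X.Ht 𝔸 (F k)| ≤ D :=
    Finset.single_le_sum
      (f := fun k => |X.hsec 𝔸 (X.n₀ + 1) (fun i => algebraMap ℚ Qbar (t0 k i)) - X.Ht 𝔸 (F k)|)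
      (fun _ _ => abs_nonneg _) (Finset.mem_univ k)
  generalize X.hsec 𝔸 m (fun i => algebraMap ℚ Qbar (t i)) = a at h1 ⊢
  generalize X.Ht 𝔸 Q = b at h2 ⊢
  generalize X.hsec 𝔸 (X.n₀ + 1) (fun i => algebraMap ℚ Qbar (t0 k i)) = c at h2 h3
  generalize X.Ht 𝔸 (F k) = e at h1 h3
  generalize X.Gr 𝔸 Q (F k) = G at h1 h2
  have hm0' : (1 : ℝ) ≤ ((X.n₀ + 1 : ℕ) : ℝ) := by
    exact_mod_cast Nat.succ_le_succ (Nat.zero_le _)
  generalize ((X.n₀ + 1 : ℕ) : ℝ) = μ at h1 h2 hm0'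
  have hmn : (0 : ℝ) ≤ (m : ℝ) := Nat.cast_nonneg m
  have h4 : μ * |a - b| ≤ C1 + C2 + m * |c - e| := by
    have e1 : μ * |a - b| = |μ * (a - b)| := by
      rw [abs_mul, abs_of_nonneg (show (0 : ℝ) ≤ μ by linarith)]
    have e2 : (m : ℝ) * |c - e| = |(m : ℝ) * (c - e)| := by
      rw [abs_mul, abs_of_nonneg hmn]
    rw [e1, e2]
    have e3 : μ * (a - b) = -(G - (μ * a + m * e)) + (G - (m * c + μ * b)) + m * (c - e) := by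
      ring
    rw [e3]
    calc |-(G - (μ * a + m * e)) + (G - (m * c + μ * b)) + m * (c - e)|
        ≤ |-(G - (μ * a + m * e)) + (G - (m * c + μ * b))| + |(m : ℝ) * (c - e)| := abs_add_le _ _
      _ ≤ |-(G - (μ * a + m * e))| + |G - (m * c + μ * b)| + |(m : ℝ) * (c - e)| := by
          gcongr
          exact abs_add_le _ _
      _ ≤ C1 + C2 + |(m : ℝ) * (c - e)| := by
          rw [abs_neg]
          gcongr
  have h5 : |a - b| ≤ μ * |a - b| := le_mul_of_one_le_left (abs_nonneg _) hm0'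
  have h6 : (m : ℝ) * |c - e| ≤ m * D := mul_le_mul_of_nonneg_left h3 hmn
  linarith

end ACurve

end Fermat.Agent.S17
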