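import Fermat.Agent.S17.Glob.Det

/-!
# S17-GLOB: the finite Galois orbit of a list of points; product formula for the determinants `DL (q ++ Y')`
-/

set_option autoImplicit false

namespace Fermat.Agent.S17

namespace ACurve

variable (X : ACurve)

open Classical in
/-- the finite set of Galois conjugates of a list of points -/
noncomputable def orb (Y : List X.Pts) : Finset (List X.Pts) :=
  if h : (Set.range fun σ : GQ => Y.map fun P => σ • P).Finite then h.toFinset else ∅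

/-- the sum of all conjugates of `Y`, a Galois-stable multiset -/
noncomputable def sumOrb (Y : List X.Pts) : Multiset X.Pts := ∑ Y' ∈ X.orb Y, (Y' : Multiset X.Pts)

variable {X}

theorem orbit_finite_range (hG : X.Geom) (Y : List X.Pts) :
    (Set.range fun σ : GQ => Y.map fun P => σ • P).Finite := by
  induction Y with
  | nil =>
    refine (Set.finite_singleton ([] : List X.Pts)).subset ?_
    rintro _ ⟨σ, rfl⟩
    simp
  | cons P Y ih =>
    refine (Set.Finite.image2 List.cons (hG.finite_orbit P) ih).subset ?_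
    rintro _ ⟨σ, rfl⟩
    exact ⟨σ • P, ⟨σ, rfl⟩, Y.map (fun P => σ • P), ⟨σ, rfl⟩, by simp⟩

theorem orbit_map_map (σ τ : GQ) (Y : List X.Pts) :
    (Y.map fun P => τ • P).map (fun P => σ • P) = Y.map fun P => (σ * τ) • P := by
  rw [List.map_map]
  refine List.map_congr_left fun P _ => ?_
  simp [mul_smul]

theorem orbit_map_one (Y : List X.Pts) : (Y.map fun P => (1 : GQ) • P) = Y := by
  simp

theorem mem_orb (hG : X.Geom) {Y Y' : List X.Pts} : Y' ∈ X.orb Y ↔ ∃ σ : GQ, Y' = Y.map fun P => σ • P := by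
  unfold orb
  rw [dif_pos (orbit_finite_range hG Y), Set.Finite.mem_toFinset, Set.mem_range]
  exact exists_congr fun σ => eq_comm

theorem orbit_smul_mem (hG : X.Geom) {Y Y' : List X.Pts} (h : Y' ∈ X.orb Y) (σ : GQ) :
    (Y'.map fun P => σ • P) ∈ X.orb Y := by
  obtain ⟨τ, rfl⟩ := (mem_orb hG).1 h
  exact (mem_orb hG).2 ⟨σ * τ, orbit_map_map σ τ Y⟩

theorem self_mem_orb (hG : X.Geom) (Y : List X.Pts) : Y ∈ X.orb Y :=
  (mem_orb hG).2 ⟨1, (orbit_map_one Y).symm⟩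

theorem card_orb_pos (hG : X.Geom) (Y : List X.Pts) : 0 < (X.orb Y).card :=
  Finset.card_pos.2 ⟨Y, self_mem_orb hG Y⟩

theorem length_of_mem_orb (hG : X.Geom) {Y Y' : List X.Pts} (h : Y' ∈ X.orb Y) : Y'.length = Y.length := by
  obtain ⟨σ, rfl⟩ := (mem_orb hG).1 h
  simp

theorem nodup_of_mem_orb (hG : X.Geom) {Y Y' : List X.Pts} (h : Y' ∈ X.orb Y) (hY : Y.Nodup) : Y'.Nodup := by
  obtain ⟨σ, rfl⟩ := (mem_orb hG).1 h
  exact hY.map (MulAction.injective σ)

theorem DL_ne_zero_of_mem_orb (hG : X.Geom) {Y Y' : List X.Pts} (h : Y' ∈ X.orb Y) (hY : X.DL Y ≠ 0) :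
    X.DL Y' ≠ 0 := by
  obtain ⟨σ, rfl⟩ := (mem_orb hG).1 h
  rw [DL_smul hG]
  exact (map_ne_zero σ).2 hY

/-- reindexing a sum over the orbit by `σ` -/
theorem sum_orb_smul (hG : X.Geom) {M : Type*} [AddCommMonoid M] (Y : List X.Pts) (σ : GQ)
    (F : List X.Pts → M) : ∑ Y' ∈ X.orb Y, F (Y'.map fun P => σ • P) = ∑ Y' ∈ X.orb Y, F Y' := by
  refine Finset.sum_nbij' (fun Y' => Y'.map fun P => σ • P) (fun Y' => Y'.map fun P => σ⁻¹ • P)
    (fun Y' h => orbit_smul_mem hG h σ) (fun Y' h => orbit_smul_mem hG h σ⁻¹) ?_ ?_ (fun _ _ => rfl)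
  · intro Y' _
    show (Y'.map fun P => σ • P).map (fun P => σ⁻¹ • P) = Y'
    rw [orbit_map_map, inv_mul_cancel, orbit_map_one]
  · intro Y' _
    show (Y'.map fun P => σ⁻¹ • P).map (fun P => σ • P) = Y'
    rw [orbit_map_map, mul_inv_cancel, orbit_map_one]

/-- reindexing a multiset over the orbit by `σ` -/
theorem map_orb_smul (hG : X.Geom) {M : Type*} (Y : List X.Pts) (σ : GQ) (F : List X.Pts → M) :
    (X.orb Y).val.map (fun Y' => F (Y'.map fun P => σ • P)) = (X.orb Y).val.map F := by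
  have key : ∀ f : List X.Pts → M, ∑ Y' ∈ X.orb Y, ({f Y'} : Multiset M) = (X.orb Y).val.map f := by
    intro f
    show ((X.orb Y).val.map fun Y' => ({f Y'} : Multiset M)).sum = _
    rw [← Multiset.sum_map_singleton ((X.orb Y).val.map f), Multiset.map_map]
    rfl
  rw [← key, ← key]
  exact sum_orb_smul hG Y σ fun Y' => ({F Y'} : Multiset M)

theorem stable_sumOrb (hG : X.Geom) (Y : List X.Pts) : X.Stable (X.sumOrb Y) := by
  intro σ
  unfold sumOrb
  have h1 : (∑ Y' ∈ X.orb Y, (Y' : Multiset X.Pts)).map (fun P => σ • P) =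
      ∑ Y' ∈ X.orb Y, ((Y'.map fun P => σ • P : List X.Pts) : Multiset X.Pts) := by
    rw [← Multiset.coe_mapAddMonoidHom, map_sum]
    rfl
  rw [h1]
  exact sum_orb_smul hG Y σ fun Y' => (Y' : Multiset X.Pts)

theorem card_sumOrb (hG : X.Geom) (Y : List X.Pts) : (X.sumOrb Y).card = (X.orb Y).card * Y.length := by
  unfold sumOrb
  rw [Multiset.card_sum]
  have h1 : ∀ Y' ∈ X.orb Y, (Y' : Multiset X.Pts).card = Y.length := fun Y' h => by
    rw [Multiset.coe_card, length_of_mem_orb hG h]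
  rw [Finset.sum_congr rfl h1, Finset.sum_const, smul_eq_mul]

theorem mem_sumOrb (hG : X.Geom) {Y : List X.Pts} {P : X.Pts} : P ∈ X.sumOrb Y ↔ ∃ Y' ∈ X.orb Y, P ∈ Y' := by
  unfold sumOrb
  rw [Multiset.mem_sum]
  simp only [Multiset.mem_coe]

/-- a stable multiset disjoint from `Y` is disjoint from all conjugates -/
theorem Stable.not_mem_of_mem_orb (hG : X.Geom) {Q : Multiset X.Pts} (hQ : X.Stable Q) {Y Y' : List X.Pts}
    (h : Y' ∈ X.orb Y) (hd : ∀ P ∈ Q, P ∉ Y) : ∀ P ∈ Q, P ∉ Y' := by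
  obtain ⟨σ, rfl⟩ := (mem_orb hG).1 h
  intro P hP hPY
  obtain ⟨P₀, hP₀, rfl⟩ := List.mem_map.1 hPY
  exact hd P₀ ((hQ.smul_mem_iff σ).1 hP) hP₀

theorem Stable.disjoint_sumOrb (hG : X.Geom) {Q : Multiset X.Pts} (hQ : X.Stable Q) {Y : List X.Pts}
    (hd : ∀ P ∈ Q, P ∉ Y) : Disjoint Q (X.sumOrb Y) := by
  rw [Multiset.disjoint_left]
  intro P hP hPs
  obtain ⟨Y', hY', hPY'⟩ := (mem_sumOrb hG).1 hPs
  exact hQ.not_mem_of_mem_orb hG hY' hd P hP hPY'

theorem DL_append_ne_zero_of_mem_orb (hG : X.Geom) {Q : Multiset X.Pts} (hQ : X.Stable Q) {q : List X.Pts}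
    (hq : (q : Multiset X.Pts) = Q) {Y Y' : List X.Pts} (h : Y' ∈ X.orb Y) (h0 : X.DL (q ++ Y) ≠ 0) :
    X.DL (q ++ Y') ≠ 0 := by
  obtain ⟨σ, rfl⟩ := (mem_orb hG).1 h
  have h1 : X.DL ((q ++ Y).map fun P => σ • P) ≠ 0 := by
    rw [DL_smul hG]
    exact (map_ne_zero σ).2 h0
  rw [List.map_append] at h1
  exact DL_ne_zero_perm ((hQ.perm hq σ).append_right _) h1

/-- **product formula** for the family `DL (q ++ Y')`, `Y'` in the orbit of `Y` (stable up to signs) -/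
theorem sum_hl_DL_orb (hG : X.Geom) (𝔸 : GlobalAbs) {Q : Multiset X.Pts} (hQ : X.Stable Q) {q : List X.Pts}
    (hq : (q : Multiset X.Pts) = Q) {Y : List X.Pts} (h0 : X.DL (q ++ Y) ≠ 0) :
    ∑ Y' ∈ X.orb Y, 𝔸.hl (X.DL (q ++ Y')) = 0 := by
  have key := 𝔸.sum_hl_eq_zero_of_sq ((X.orb Y).val.map fun Y' => X.DL (q ++ Y')) ?_ ?_
  · rw [Multiset.map_map] at key
    exact key
  · intro σ
    rw [Multiset.map_map, Multiset.map_map]
    refine Eq.trans ?_ (map_orb_smul hG Y σ fun Y' => X.DL (q ++ Y') ^ 2)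
    refine Multiset.map_congr rfl fun Y' _ => ?_
    show σ (X.DL (q ++ Y')) ^ 2 = X.DL (q ++ Y'.map fun P => σ • P) ^ 2
    rw [← DL_smul hG, List.map_append]
    exact DL_sq_perm ((hQ.perm hq σ).append_right _)
  · intro h
    obtain ⟨Y', hY', h1⟩ := Multiset.mem_map.1 h
    exact DL_append_ne_zero_of_mem_orb hG hQ hq hY' h0 h1

end ACurve

end Fermat.Agent.S17
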