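import Fermat.Agent.S17.Glob.Key1
import Fermat.Agent.S17.Glob.GDet
import Fermat.Agent.S17.Glob.Orbit

/-!
# S17-GLOB: KEY2
-/

set_option autoImplicit false

namespace Fermat.Agent.S17

namespace ACurve

variable {X : ACurve} {𝔸 : GlobalAbs}

/-- expansion of the pair sum of `ψ ++ U'` -/
theorem key2_pairSum (Q : Multiset X.Pts) (ψ U' : List X.Pts) (hψ : (ψ : Multiset X.Pts) = Q) :
    pairSum (X.lam 𝔸) (ψ ++ U') =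
      X.Gr 𝔸 Q Q / 2 + X.Gr 𝔸 Q (U' : Multiset X.Pts) +
        X.Gr 𝔸 (U' : Multiset X.Pts) (U' : Multiset X.Pts) / 2 := by
  rw [pairSum_lam, ← Multiset.coe_add, hψ, Gr_add_left, Gr_add_right, Gr_add_right,
    Gr_symm (U' : Multiset X.Pts) Q]
  ring

theorem key2_sum_append (f : X.Pts → ℝ) (Q : Multiset X.Pts) (ψ U' : List X.Pts)
    (hψ : (ψ : Multiset X.Pts) = Q) :
    ((ψ ++ U').map f).sum = (Q.map f).sum + (U'.map f).sum := by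
  rw [List.map_append, List.sum_append, ← hψ, Multiset.map_coe, Multiset.sum_coe]

/-- KEY2 for divisors avoiding a fixed auxiliary list `U` (`n = n₀ + m`, `|U| = ℓ n₀`). -/
theorem key2_aux (hG : X.Geom) (hE : X.Estimates 𝔸) (m : ℕ) (hm : X.n₀ ≤ m) (U : List X.Pts)
    (hU : U.Nodup) (hl : U.length = X.ℓ X.n₀) (hD : X.DL U ≠ 0) :
    ∃ C : ℝ, ∀ Q : Multiset X.Pts, X.Stable Q → Q.Nodup → Q.card = m → X.cls Q = 0 → (∀ P ∈ Q, P ∉ U) →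
      |X.Gr 𝔸 Q Q / 2 - ((m : ℝ) + X.g - 1) * X.Ht 𝔸 Q| ≤ C := by
  classical
  obtain ⟨n, hn⟩ : ∃ n, n = X.n₀ + m := ⟨_, rfl⟩
  obtain ⟨r, hr⟩ : ∃ r, r = (X.orb U).card := ⟨_, rfl⟩
  have hr1 : 1 ≤ r := hr ▸ card_orb_pos hG U
  have hnm : n - m = X.n₀ := by omega
  have hg : ∀ U' ∈ X.orb U, ∃ c : ℝ, ∀ (t : ℕ → Qbar) (ψ : List X.Pts), ψ.Nodup → ψ.length = m →
      (∃ i < X.ℓ m, t i ≠ 0) → (∀ P ∈ ψ, X.sec m t P = 0) → (∀ P ∈ ψ, P ∉ U') →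
      X.DL (ψ ++ U') ≠ 0 ∧
      |𝔸.hl (X.DL (ψ ++ U')) - ((ψ ++ U').map (X.ns 𝔸 n)).sum + pairSum (X.lam 𝔸) (ψ ++ U')| ≤ c := by
    intro U' hU'
    exact gdet hG hE n m U' hm hn.ge (nodup_of_mem_orb hG hU' hU)
      (by rw [length_of_mem_orb hG hU', hl, hnm]) (DL_ne_zero_of_mem_orb hG hU' hD)
  choose! c hc using hg
  obtain ⟨C1, hC1⟩ := key1' (𝔸 := 𝔸) hG hE m (r * U.length) hm
  obtain ⟨c1, hc1⟩ := ge1_multiset (𝔸 := 𝔸) hG hE n (by omega)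
  obtain ⟨K, hK⟩ : ∃ K : ℝ, K = ∑ U' ∈ X.orb U, ((U'.map (X.ns 𝔸 n)).sum -
      X.Gr 𝔸 (U' : Multiset X.Pts) (U' : Multiset X.Pts) / 2) - m * X.Ht 𝔸 (X.sumOrb U) := ⟨_, rfl⟩
  refine ⟨∑ U' ∈ X.orb U, c U' + C1 + r * (m * |c1|) + |K|, fun Q hQs hQn hQc hQ0 hQU => ?_⟩
  obtain ⟨t, ⟨i0, hi0, hti0⟩, htz⟩ := hG.sec_of_cls m hm Q hQs hQn hQc hQ0
  have hψ : (Q.toList : Multiset X.Pts) = Q := Multiset.coe_toList Q
  have hψn : Q.toList.Nodup := by rw [← Multiset.coe_nodup, hψ]; exact hQn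
  have hψl : Q.toList.length = m := by rw [Multiset.length_toList, hQc]
  have hT0 : ∃ i < X.ℓ m, (fun i => algebraMap ℚ Qbar (t i)) i ≠ 0 :=
    ⟨i0, hi0, fun h => hti0 ((map_eq_zero _).1 h)⟩
  have hTz : ∀ P ∈ Q.toList, X.sec m (fun i => algebraMap ℚ Qbar (t i)) P = 0 :=
    fun P hP => (htz P).2 (Multiset.mem_toList.1 hP)
  have hav : ∀ U' ∈ X.orb U, ∀ P ∈ Q.toList, P ∉ U' := fun U' hU' P hP =>
    hQs.not_mem_of_mem_orb hG hU' hQU P (Multiset.mem_toList.1 hP)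
  have hE1 : ∀ U' ∈ X.orb U, |𝔸.hl (X.DL (Q.toList ++ U')) - ((Q.map (X.ns 𝔸 n)).sum +
      (U'.map (X.ns 𝔸 n)).sum) + (X.Gr 𝔸 Q Q / 2 + X.Gr 𝔸 Q (U' : Multiset X.Pts) +
        X.Gr 𝔸 (U' : Multiset X.Pts) (U' : Multiset X.Pts) / 2)| ≤ c U' := by
    intro U' hU'
    have := (hc U' hU' _ _ hψn hψl hT0 hTz (hav U' hU')).2
    rwa [key2_pairSum Q _ U' hψ, key2_sum_append _ Q _ U' hψ] at this
  have h0 : X.DL (Q.toList ++ U) ≠ 0 :=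
    (hc U (self_mem_orb hG U) _ _ hψn hψl hT0 hTz (hav U (self_mem_orb hG U))).1
  have hsum0 := sum_hl_DL_orb hG 𝔸 hQs hψ h0
  have hS : |∑ U' ∈ X.orb U, (𝔸.hl (X.DL (Q.toList ++ U')) - ((Q.map (X.ns 𝔸 n)).sum +
      (U'.map (X.ns 𝔸 n)).sum) + (X.Gr 𝔸 Q Q / 2 + X.Gr 𝔸 Q (U' : Multiset X.Pts) +
        X.Gr 𝔸 (U' : Multiset X.Pts) (U' : Multiset X.Pts) / 2))| ≤ ∑ U' ∈ X.orb U, c U' :=
    (Finset.abs_sum_le_sum_abs _ _).trans (Finset.sum_le_sum hE1)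
  have hGs : X.Gr 𝔸 Q (X.sumOrb U) = ∑ U' ∈ X.orb U, X.Gr 𝔸 Q (U' : Multiset X.Pts) :=
    Gr_finset_sum_right Q _ _
  have hbb := hC1 Q (X.sumOrb U) hQs (stable_sumOrb hG U) hQn hQc
    (by rw [card_sumOrb hG, hr]) hQ0 (hQs.disjoint_sumOrb hG hQU)
  have hA := hc1 Q
  have hell := hG.ell_eq X.n₀ le_rfl
  have hUl : (U.length : ℝ) + X.g = X.n₀ + 1 := by
    rw [hl]; exact_mod_cast hell
  have hnR : (n : ℝ) = X.n₀ + m := by rw [hn]; push_cast; ring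
  -- the main identity
  have hid : (r : ℝ) * (X.Gr 𝔸 Q Q / 2 - ((m : ℝ) + X.g - 1) * X.Ht 𝔸 Q) =
      ∑ U' ∈ X.orb U, (𝔸.hl (X.DL (Q.toList ++ U')) - ((Q.map (X.ns 𝔸 n)).sum +
      (U'.map (X.ns 𝔸 n)).sum) + (X.Gr 𝔸 Q Q / 2 + X.Gr 𝔸 Q (U' : Multiset X.Pts) +
        X.Gr 𝔸 (U' : Multiset X.Pts) (U' : Multiset X.Pts) / 2)) +
      r * ((Q.map (X.ns 𝔸 n)).sum - n * X.Ht 𝔸 Q) + X.bb 𝔸 Q (X.sumOrb U) + K := by
    have e1 : ∑ U' ∈ X.orb U, (𝔸.hl (X.DL (Q.toList ++ U')) - ((Q.map (X.ns 𝔸 n)).sum +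
      (U'.map (X.ns 𝔸 n)).sum) + (X.Gr 𝔸 Q Q / 2 + X.Gr 𝔸 Q (U' : Multiset X.Pts) +
        X.Gr 𝔸 (U' : Multiset X.Pts) (U' : Multiset X.Pts) / 2)) =
        ∑ U' ∈ X.orb U, 𝔸.hl (X.DL (Q.toList ++ U')) - r * (Q.map (X.ns 𝔸 n)).sum
        + r * (X.Gr 𝔸 Q Q / 2) + ∑ U' ∈ X.orb U, X.Gr 𝔸 Q (U' : Multiset X.Pts)
        - ∑ U' ∈ X.orb U, ((U'.map (X.ns 𝔸 n)).sum -
            X.Gr 𝔸 (U' : Multiset X.Pts) (U' : Multiset X.Pts) / 2) := by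
      rw [hr, ← nsmul_eq_mul, ← nsmul_eq_mul, ← Finset.sum_const, ← Finset.sum_const,
        ← Finset.sum_sub_distrib, ← Finset.sum_add_distrib, ← Finset.sum_add_distrib,
        ← Finset.sum_sub_distrib]
      refine Finset.sum_congr rfl fun U' _ => ?_
      ring
    rw [e1, hsum0, ← hGs, hK]
    unfold bb
    rw [card_sumOrb hG, hQc, ← hr]
    push_cast
    have : (X.g : ℝ) = X.n₀ + 1 - U.length := by linarith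
    rw [this, hnR]
    ring
  have hr1' : (1 : ℝ) ≤ r := by exact_mod_cast hr1
  have hr0 : (0 : ℝ) ≤ r := by linarith
  have hA' : |(r : ℝ) * ((Q.map (X.ns 𝔸 n)).sum - n * X.Ht 𝔸 Q)| ≤ r * (m * |c1|) := by
    rw [abs_mul, abs_of_nonneg hr0]
    refine mul_le_mul_of_nonneg_left (hA.trans ?_) hr0
    rw [hQc]
    exact mul_le_mul_of_nonneg_left (le_abs_self _) (Nat.cast_nonneg _)
  have hfin : |(r : ℝ) * (X.Gr 𝔸 Q Q / 2 - ((m : ℝ) + X.g - 1) * X.Ht 𝔸 Q)| ≤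
      ∑ U' ∈ X.orb U, c U' + C1 + r * (m * |c1|) + |K| := by
    rw [hid]
    refine (abs_add_le _ _).trans ?_
    refine add_le_add ((abs_add_le _ _).trans ?_) le_rfl
    have := (abs_add_le (∑ U' ∈ X.orb U, (𝔸.hl (X.DL (Q.toList ++ U')) - ((Q.map (X.ns 𝔸 n)).sum +
      (U'.map (X.ns 𝔸 n)).sum) + (X.Gr 𝔸 Q Q / 2 + X.Gr 𝔸 Q (U' : Multiset X.Pts) +
        X.Gr 𝔸 (U' : Multiset X.Pts) (U' : Multiset X.Pts) / 2)))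
      (r * ((Q.map (X.ns 𝔸 n)).sum - n * X.Ht 𝔸 Q)))
    linarith
  refine le_trans ?_ hfin
  rw [abs_mul, abs_of_nonneg hr0]
  exact le_mul_of_one_le_left (abs_nonneg _) hr1'

/-- **KEY2** -/
theorem key2' (hG : X.Geom) (hE : X.Estimates 𝔸) (m : ℕ) (hm : X.n₀ ≤ m) :
    ∃ C : ℝ, ∀ Q : Multiset X.Pts, X.Stable Q → Q.Nodup → Q.card = m → X.cls Q = 0 →
      |X.Gr 𝔸 Q Q / 2 - ((m : ℝ) + X.g - 1) * X.Ht 𝔸 Q| ≤ C := by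
  obtain ⟨F, hF, hFd⟩ := exists_fam_indep hG X.n₀ le_rfl (m + 1)
  have h := fun k => key2_aux (𝔸 := 𝔸) hG hE m hm (F k) (hF k).1 (hF k).2.1 (hF k).2.2
  choose C hC using h
  refine ⟨∑ k, |C k|, fun Q hQs hQn hQc hQ0 => ?_⟩
  obtain ⟨k, hk⟩ := exists_avoid m (fun k => {P | P ∈ F k}) (fun i j hij => by
    rw [Set.disjoint_left]
    exact fun P hP => hFd i j hij P hP) Q hQc.le
  refine (hC k Q hQs hQn hQc hQ0 hk).trans ((le_abs_self _).trans ?_)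
  exact Finset.single_le_sum (f := fun k => |C k|) (fun i _ => abs_nonneg _) (Finset.mem_univ k)

end ACurve

end Fermat.Agent.S17
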