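import Fermat.Agent.S17.Glob.Pos

/-!
# S17-GLOB: (NORTHCOTT) the residual zeros lie in a finite set
-/

set_option autoImplicit false

namespace Fermat.Agent.S17

namespace ACurve

variable {X : ACurve} {𝔸 : GlobalAbs}

/-- the values of `e_1` on a stable multiset of points form a stable multiset of numbers -/
theorem northaux_stable_map (hG : X.Geom) {W : Multiset X.Pts} (hW : X.Stable W) (σ : GQ) :
    (W.map (X.ev 1)).map σ = W.map (X.ev 1) := by
  conv_rhs => rw [← hW σ]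
  rw [Multiset.map_map, Multiset.map_map]
  refine Multiset.map_congr rfl fun P _ => ?_
  exact (hG.ev_smul σ 1 P).symm

/-- the height of the values of `e_1` is bounded by the sum of the `n_d` -/
theorem northaux_sum_le (hG : X.Geom) (W : Multiset X.Pts) :
    ∑ᶠ p, ((W.map (X.ev 1)).map fun y => Real.log (max 1 (𝔸.abv p y))).sum ≤
      (W.map (X.ns 𝔸 X.d)).sum := by
  have h1 : ∀ p, ((W.map (X.ev 1)).map fun y => Real.log (max 1 (𝔸.abv p y))).sum =
      (W.map fun P => Real.log (max 1 (𝔸.abv p (X.ev 1 P)))).sum := by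
    intro p
    rw [Multiset.map_map]
    rfl
  simp only [h1]
  have h2 : ∑ᶠ p, (W.map fun P => X.nl 𝔸 p X.d P).sum = (W.map (X.ns 𝔸 X.d)).sum :=
    fsum_multiset_sum W (fun P p => X.nl 𝔸 p X.d P) fun P _ => fs_nl hG X.d P
  rw [← h2]
  refine fsum_le
    (FS.multiset_sum W (fun P p => Real.log (max 1 (𝔸.abv p (X.ev 1 P))))
      fun P _ => 𝔸.finite_support_log_max (X.ev 1 P))
    (FS.multiset_sum W (fun P p => X.nl 𝔸 p X.d P) fun P _ => fs_nl hG X.d P) fun p => ?_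
  exact multiset_sum_le_sum W _ _ fun P _ => log_max_ev_one_le hG p P

theorem northaux_sum_affine (W : Multiset X.Pts) (u : X.Pts → ℝ) (a c : ℝ) :
    (W.map fun P => a * u P + c).sum = a * (W.map u).sum + W.card * c := by
  rw [Multiset.sum_map_add, Multiset.sum_map_mul_left, Multiset.map_const', Multiset.sum_replicate,
    nsmul_eq_mul]

/-- the residual zeros have bounded height, hence lie in a finite set -/
theorem north_aux (hG : X.Geom) (hE : X.Estimates 𝔸) (μ : ℕ) (hμ : X.n₀ ≤ μ) (Y : List X.Pts)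
    (hY : Y.length + μ = X.ℓ (X.n₀ + μ)) (B : ℝ) :
    ∃ FF : Finset X.Pts, ∀ (Q Q' : Multiset X.Pts) (q q' : List X.Pts), X.AdmPair μ Q Q' →
      (q : Multiset X.Pts) = Q → (q' : Multiset X.Pts) = Q' → X.DL (q ++ Y) ≠ 0 → X.DL (q' ++ Y) ≠ 0 →
      - X.bb 𝔸 Q Q' ≤ B → ∀ P ∈ X.Tres (q ++ Y), P ∈ FF := by
  have hn : X.n₀ ≤ X.n₀ + μ := Nat.le_add_right _ _
  obtain ⟨C, hC⟩ := pos_main hG hE μ hμ Y hY
  obtain ⟨c, hc⟩ := ge1_diff hG hE (X.n₀ + μ) hn
  have hN := 𝔸.northcott_stable ((X.orb Y).card * X.g)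
    (X.d * (C + (X.orb Y).card * B) + ((X.orb Y).card * X.g : ℕ) * |c|)
  have hfin := hN.biUnion fun x _ => hG.finite_fiber x
  refine ⟨hfin.toFinset, fun Q Q' q q' hA hq hq' h0 h0' hB P hP => ?_⟩
  rw [Set.Finite.mem_toFinset, Set.mem_iUnion₂]
  have hWst : X.Stable (X.sumT q Y) := stable_sumT hG hA.st hq Y
  have hql : q.length = μ := by
    rw [← hA.card, ← hq, Multiset.coe_card]
  have hlen : (q ++ Y).length = X.ℓ (X.n₀ + μ) := by
    rw [List.length_append, hql, add_comm, hY]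
  have hWc : (X.sumT q Y).card ≤ (X.orb Y).card * X.g := card_sumT_le hG hn hA.st hq hlen h0
  refine ⟨X.ev 1 P, ⟨(X.sumT q Y).map (X.ev 1), northaux_stable_map hG hWst, ?_,
    Multiset.mem_map_of_mem _ (Tres_le_sumT hG q Y hP), ?_⟩, rfl⟩
  · rwa [Multiset.card_map]
  · refine (northaux_sum_le hG _).trans ?_
    have h1 : ((X.sumT q Y).map (X.ns 𝔸 X.d)).sum ≤
        ((X.sumT q Y).map fun P =>
          X.d * (X.ns 𝔸 (X.n₀ + μ + 1) P - X.ns 𝔸 (X.n₀ + μ) P) + c).sum :=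
      multiset_sum_le_sum _ _ _ fun P _ => hc P
    refine h1.trans ?_
    rw [northaux_sum_affine (X.sumT q Y)
      (fun P => X.ns 𝔸 (X.n₀ + μ + 1) P - X.ns 𝔸 (X.n₀ + μ) P) X.d c]
    have h2 := hC Q Q' q q' hA hq hq' h0 h0'
    have hr : (0 : ℝ) ≤ (X.orb Y).card := Nat.cast_nonneg _
    have hd : (0 : ℝ) ≤ X.d := Nat.cast_nonneg _
    have h3 : C - (X.orb Y).card * X.bb 𝔸 Q Q' ≤ C + (X.orb Y).card * B := by
      have := mul_le_mul_of_nonneg_left hB hr
      linarith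
    have h4 : ((X.sumT q Y).card : ℝ) * c ≤ ((X.orb Y).card * X.g : ℕ) * |c| := by
      calc ((X.sumT q Y).card : ℝ) * c ≤ ((X.sumT q Y).card : ℝ) * |c| :=
            mul_le_mul_of_nonneg_left (le_abs_self c) (Nat.cast_nonneg _)
        _ ≤ ((X.orb Y).card * X.g : ℕ) * |c| :=
            mul_le_mul_of_nonneg_right (by exact_mod_cast hWc) (abs_nonneg c)
    exact add_le_add (mul_le_mul_of_nonneg_left (h2.trans h3) hd) h4

end ACurve

end Fermat.Agent.S17
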