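import Fermat.Agent.S17.Glob.Det

/-!
# S17-GLOB: (POS1), local and global form
-/

set_option autoImplicit false

namespace Fermat.Agent.S17

namespace ACurve

variable {X : ACurve} {𝔸 : GlobalAbs}

/-- (POS1), local form.  `S` a list of `ℓ n` distinct points, `T` a list of `k` further distinct zeros of
`P ↦ DL (S ++ [P])`. -/
theorem pos1_local (hG : X.Geom) (hE : X.Estimates 𝔸) (n : ℕ) (hn : X.n₀ ≤ n) (k : ℕ) :
    ∃ C, 𝔸.Good C ∧ ∀ (p : 𝔸.ι) (S T : List X.Pts), S.Nodup → S.length = X.ℓ n → T.Nodup → T.length = k →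
      (∀ P ∈ T, P ∉ S) → (∀ P ∈ T, X.DL (S ++ [P]) = 0) →
      𝔸.abv p (X.DL S) * (T.map fun P => X.Nn 𝔸 p (n + 1) P).prod * pairProd (X.NN 𝔸 p) S ≤
        C p * ((T.map fun P => X.Nn 𝔸 p n P).prod * (S.map fun P => X.Nn 𝔸 p n P).prod *
          pairProd (X.Wd 𝔸 p) S) := by
  obtain ⟨C1, hC1, h1⟩ := hE.ehsinf n (X.ℓ n + k) hn
  obtain ⟨C2, hC2, h2⟩ := hE.ew (n + 1) (X.ℓ n) (by omega)
  refine ⟨fun p => C1 p * C2 p, hC1.mul _ hC2, ?_⟩
  intro p S T hS hSl hT hTl hTS hTz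
  have hell : X.ℓ (n + 1) = X.ℓ n + 1 := ell_succ hG hn
  have hψ : (S ++ T).Nodup := by
    rw [List.nodup_append]
    refine ⟨hS, hT, ?_⟩
    intro a ha b hb hab
    exact hTS b hb (hab ▸ ha)
  have hψl : (S ++ T).length = X.ℓ n + k := by rw [List.length_append, hSl, hTl]
  have hz : ∀ P ∈ S ++ T, X.sec (n + 1) (X.cof S) P = 0 := by
    intro P hP
    rw [← DL_append_singleton_eq_sec hG hn hSl P]
    rcases List.mem_append.1 hP with h | h
    · exact DL_append_singleton_self h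
    · exact hTz P h
  have h1' := h1 p (X.cof S) (S ++ T) hψ hψl hz
  rw [← hSl, cof_length, List.map_append, List.prod_append, List.map_append, List.prod_append]
    at h1'
  have hPNN : 0 < pairProd (X.NN 𝔸 p) S := pairProd_NN_pos hG p S
  have hPW : 0 < pairProd (X.Wd 𝔸 p) S := pairProd_Wd_pos hG p hS
  have hSN1 : 0 < (S.map fun P => X.Nn 𝔸 p (n + 1) P).prod :=
    list_prod_pos S _ fun P _ => Nn_pos hG p (n + 1) P
  have hSN0 : 0 < (S.map fun P => X.Nn 𝔸 p n P).prod :=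
    list_prod_pos S _ fun P _ => Nn_pos hG p n P
  have hTN0 : 0 < (T.map fun P => X.Nn 𝔸 p n P).prod :=
    list_prod_pos T _ fun P _ => Nn_pos hG p n P
  have hC1p : 0 < C1 p := hC1.pos p
  have hC2p : 0 < C2 p := hC2.pos p
  have h2' : X.tsize 𝔸 p (n + 1) (X.cof S) * pairProd (X.NN 𝔸 p) S ≤
      C2 p * ((S.map fun P => X.Nn 𝔸 p (n + 1) P).prod * pairProd (X.Wd 𝔸 p) S) := by
    rw [← le_div_iff₀ hPNN]
    rw [tsize_le_iff p (n + 1) (X.cof S) (by positivity)]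
    intro i hi
    rw [le_div_iff₀ hPNN]
    have h3 := h2 p (fun k => if k < i then k else k + 1) S hSl (by
      intro j hj
      show (if j < i then j else j + 1) < X.ℓ (n + 1)
      split_ifs <;> omega)
    have h4 : 𝔸.abv p (X.cof S i) =
        𝔸.abv p (X.minor (fun k => if k < i then k else k + 1) S) := by
      unfold cof
      rw [map_mul, map_pow, AbsoluteValue.map_neg, map_one, one_pow, one_mul]
    rw [h4]
    exact h3
  set a := 𝔸.abv p (X.DL S) with ha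
  set SN1 := (S.map fun P => X.Nn 𝔸 p (n + 1) P).prod with hSN1d
  set SN0 := (S.map fun P => X.Nn 𝔸 p n P).prod with hSN0d
  set TN1 := (T.map fun P => X.Nn 𝔸 p (n + 1) P).prod with hTN1d
  set TN0 := (T.map fun P => X.Nn 𝔸 p n P).prod with hTN0d
  set PNN := pairProd (X.NN 𝔸 p) S with hPNNd
  set PW := pairProd (X.Wd 𝔸 p) S with hPWd
  set ts := X.tsize 𝔸 p (n + 1) (X.cof S) with hts
  have key : SN1 * (a * TN1 * PNN) ≤ SN1 * (C1 p * C2 p * (TN0 * SN0 * PW)) := by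
    calc SN1 * (a * TN1 * PNN) = (a * (SN1 * TN1)) * PNN := by ring
      _ ≤ (C1 p * (ts * (SN0 * TN0))) * PNN := mul_le_mul_of_nonneg_right h1' hPNN.le
      _ = C1 p * (SN0 * TN0) * (ts * PNN) := by ring
      _ ≤ C1 p * (SN0 * TN0) * (C2 p * (SN1 * PW)) :=
          mul_le_mul_of_nonneg_left h2' (by positivity)
      _ = SN1 * (C1 p * C2 p * (TN0 * SN0 * PW)) := by ring
  exact le_of_mul_le_mul_left key hSN1

/-- (POS1), global form. -/
theorem gpos1 (hG : X.Geom) (hE : X.Estimates 𝔸) (n : ℕ) (hn : X.n₀ ≤ n) :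
    ∃ c : ℝ, ∀ (S T : List X.Pts), S.Nodup → S.length = X.ℓ n → X.DL S ≠ 0 → T.Nodup → T.length ≤ X.g →
      (∀ P ∈ T, P ∉ S) → (∀ P ∈ T, X.DL (S ++ [P]) = 0) →
      𝔸.hl (X.DL S) + (T.map fun P => X.ns 𝔸 (n + 1) P - X.ns 𝔸 n P).sum ≤
        c + (S.map (X.ns 𝔸 n)).sum - pairSum (X.lam 𝔸) S := by
  choose C hC hCl using fun k : Fin (X.g + 1) => pos1_local hG hE n hn (k : ℕ)
  obtain ⟨D, hD, hCD⟩ := AbsFam.Good.exists_sup 𝔸.toAbsFam hC
  refine ⟨∑ᶠ p, Real.log (D p), ?_⟩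
  intro S T hS hSl hDL hT hTl hTS hTz
  have hloc : ∀ p, Real.log (𝔸.abv p (X.DL S)) +
      (T.map fun P => X.nl 𝔸 p (n + 1) P - X.nl 𝔸 p n P).sum ≤
      Real.log (D p) + (S.map fun P => X.nl 𝔸 p n P).sum - pairSum (X.ll 𝔸 p) S := by
    intro p
    have h := hCl ⟨T.length, by omega⟩ p S T hS hSl hT rfl hTS hTz
    have hPNN : 0 < pairProd (X.NN 𝔸 p) S := pairProd_NN_pos hG p S
    have hPW : 0 < pairProd (X.Wd 𝔸 p) S := pairProd_Wd_pos hG p hS
    have hSN0 : 0 < (S.map fun P => X.Nn 𝔸 p n P).prod :=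
      list_prod_pos S _ fun P _ => Nn_pos hG p n P
    have hTN0 : 0 < (T.map fun P => X.Nn 𝔸 p n P).prod :=
      list_prod_pos T _ fun P _ => Nn_pos hG p n P
    have hTN1 : 0 < (T.map fun P => X.Nn 𝔸 p (n + 1) P).prod :=
      list_prod_pos T _ fun P _ => Nn_pos hG p (n + 1) P
    have ha : 0 < 𝔸.abv p (X.DL S) := (𝔸.abv p).pos hDL
    have hDp : 0 < D p := hD.pos p
    have h' : 𝔸.abv p (X.DL S) * (T.map fun P => X.Nn 𝔸 p (n + 1) P).prod *
        pairProd (X.NN 𝔸 p) S ≤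
        D p * ((T.map fun P => X.Nn 𝔸 p n P).prod * (S.map fun P => X.Nn 𝔸 p n P).prod *
          pairProd (X.Wd 𝔸 p) S) :=
      h.trans (mul_le_mul_of_nonneg_right (hCD _ p) (by positivity))
    have h2 := log_le_of_le_mul (by positivity) (by positivity) hDp h'
    rw [Real.log_mul (by positivity) hPNN.ne', Real.log_mul ha.ne' hTN1.ne',
      Real.log_mul (by positivity) hPW.ne', Real.log_mul hTN0.ne' hSN0.ne',
      log_list_prod T _ fun P _ => Nn_pos hG p (n + 1) P,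
      log_list_prod T _ fun P _ => Nn_pos hG p n P,
      log_list_prod S _ fun P _ => Nn_pos hG p n P] at h2
    have h3 := log_pairProd_sub (𝔸 := 𝔸) hG p hS
    rw [Fsum_list_sum_sub]
    unfold nl
    linarith
  have hf1 : FS fun p => Real.log (𝔸.abv p (X.DL S)) := 𝔸.fs_log hDL
  have hf2 : FS fun p => (T.map fun P => X.nl 𝔸 p (n + 1) P - X.nl 𝔸 p n P).sum :=
    FS.list_sum T (fun P p => X.nl 𝔸 p (n + 1) P - X.nl 𝔸 p n P)
      fun P _ => (fs_nl hG (n + 1) P).sub (fs_nl hG n P)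
  have hg1 : FS fun p => Real.log (D p) := hD.fs_log
  have hg2 : FS fun p => (S.map fun P => X.nl 𝔸 p n P).sum :=
    FS.list_sum S (fun P p => X.nl 𝔸 p n P) fun P _ => fs_nl hG n P
  have hg3 : FS fun p => pairSum (X.ll 𝔸 p) S := fs_pairSum_ll hG hS
  have hsum := fsum_le (hf1.add hf2) ((hg1.add hg2).sub hg3) hloc
  rw [fsum_add hf1 hf2, fsum_sub (hg1.add hg2) hg3, fsum_add hg1 hg2, fsum_pairSum_ll hG hS,
    fsum_list_sum T (fun P p => X.nl 𝔸 p (n + 1) P - X.nl 𝔸 p n P)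
      (fun P _ => (fs_nl hG (n + 1) P).sub (fs_nl hG n P)),
    fsum_list_sum S (fun P p => X.nl 𝔸 p n P) (fun P _ => fs_nl hG n P)] at hsum
  have e1 : (T.map fun P => ∑ᶠ p, (X.nl 𝔸 p (n + 1) P - X.nl 𝔸 p n P)) =
      T.map fun P => X.ns 𝔸 (n + 1) P - X.ns 𝔸 n P :=
    List.map_congr_left fun P _ => fsum_sub (fs_nl hG (n + 1) P) (fs_nl hG n P)
  rw [e1] at hsum
  exact hsum

end ACurve

end Fermat.Agent.S17
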