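import Fermat.Agent.S17.Glob.Orbit

/-!
# S17-GLOB: the residual zeros of `P ↦ DL (S ++ [P])`
-/

set_option autoImplicit false

namespace Fermat.Agent.S17

namespace ACurve

variable (X : ACurve)

open Classical in
/-- the zeros of `P ↦ DL (S ++ [P])` outside `S` -/
noncomputable def Tres (S : List X.Pts) : Finset X.Pts :=
  if h : {P | X.DL (S ++ [P]) = 0 ∧ P ∉ S}.Finite then h.toFinset else ∅

/-- the stable multiset `∑_{Y'} Tres (q ++ Y')` -/
noncomputable def sumT (q Y : List X.Pts) : Multiset X.Pts := ∑ Y' ∈ X.orb Y, (X.Tres (q ++ Y')).val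

variable {X}

/-- the residual divisor of degree `g` -/
theorem exists_resid (hG : X.Geom) {n : ℕ} (hn : X.n₀ ≤ n) {S : List X.Pts} (hS : S.length = X.ℓ n)
    (h0 : X.DL S ≠ 0) :
    ∃ R : Multiset X.Pts, R.card = X.g ∧ X.cls ((S : Multiset X.Pts) + R) = 0 ∧
      ∀ P, X.DL (S ++ [P]) = 0 ↔ P ∈ S ∨ P ∈ R := by
  classical
  have htop : X.cof S (X.ℓ (n + 1) - 1) ≠ 0 := by
    rw [ell_succ hG hn, Nat.add_sub_cancel, ← hS, cof_length]
    exact h0
  obtain ⟨Z, hZc, hZ0, hZ⟩ := hG.zeros (n + 1) (by omega) (X.cof S) htop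
  have hZ' : ∀ P, P ∈ Z ↔ X.DL (S ++ [P]) = 0 := fun P => by
    rw [hZ, DL_append_singleton_eq_sec hG hn hS]
  have hle : (S : Multiset X.Pts) ≤ Z := by
    rw [Multiset.le_iff_subset (Multiset.coe_nodup.2 (nodup_of_DL_ne_zero h0))]
    intro P hP
    exact (hZ' P).2 (DL_append_singleton_self (Multiset.mem_coe.1 hP))
  have hadd : (S : Multiset X.Pts) + (Z - S) = Z := add_tsub_cancel_of_le hle
  refine ⟨Z - S, ?_, by rw [hadd, hZ0], fun P => ?_⟩
  · have h1 := congrArg Multiset.card hadd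
    rw [Multiset.card_add, hZc, Multiset.coe_card, hS] at h1
    have h2 := hG.ell_eq n hn
    omega
  · rw [← hZ', ← hadd, Multiset.mem_add, hadd, Multiset.mem_coe]

theorem resid_finite (hG : X.Geom) {n : ℕ} (hn : X.n₀ ≤ n) {S : List X.Pts} (hS : S.length = X.ℓ n)
    (h0 : X.DL S ≠ 0) : {P | X.DL (S ++ [P]) = 0 ∧ P ∉ S}.Finite := by
  classical
  obtain ⟨R, -, -, hR⟩ := exists_resid hG hn hS h0
  refine (R.toFinset.finite_toSet).subset fun P hP => ?_
  rcases (hR P).1 hP.1 with h | h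
  · exact absurd h hP.2
  · simpa using h

theorem mem_Tres (hG : X.Geom) {n : ℕ} (hn : X.n₀ ≤ n) {S : List X.Pts} (hS : S.length = X.ℓ n)
    (h0 : X.DL S ≠ 0) {P : X.Pts} : P ∈ X.Tres S ↔ X.DL (S ++ [P]) = 0 ∧ P ∉ S := by
  unfold Tres
  rw [dif_pos (resid_finite hG hn hS h0), Set.Finite.mem_toFinset]
  rfl

theorem card_Tres_le (hG : X.Geom) {n : ℕ} (hn : X.n₀ ≤ n) {S : List X.Pts} (hS : S.length = X.ℓ n)
    (h0 : X.DL S ≠ 0) : (X.Tres S).card ≤ X.g := by
  classical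
  obtain ⟨R, hRc, -, hR⟩ := exists_resid hG hn hS h0
  rw [← hRc]
  refine le_trans (Finset.card_le_card fun P hP => ?_) (Multiset.toFinset_card_le R)
  rw [mem_Tres hG hn hS h0] at hP
  rcases (hR P).1 hP.1 with h | h
  · exact absurd h hP.2
  · simpa using h

theorem resid_DL_eq_zero_perm {l l' : List X.Pts} (h : l.Perm l') : X.DL l = 0 ↔ X.DL l' = 0 := by
  constructor
  · intro h1
    by_contra h2
    exact DL_ne_zero_perm h.symm h2 h1
  · intro h1
    by_contra h2
    exact DL_ne_zero_perm h h2 h1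

theorem Tres_perm {S S' : List X.Pts} (h : S.Perm S') : X.Tres S = X.Tres S' := by
  classical
  have : {P | X.DL (S ++ [P]) = 0 ∧ P ∉ S} = {P | X.DL (S' ++ [P]) = 0 ∧ P ∉ S'} := by
    ext P
    simp only [Set.mem_ofPred_eq]
    rw [resid_DL_eq_zero_perm (h.append_right [P]), h.mem_iff]
  have gen : ∀ A B : Set X.Pts, A = B →
      (if h : A.Finite then h.toFinset else (∅ : Finset X.Pts)) =
        if h : B.Finite then h.toFinset else ∅ := by
    rintro A _ rfl
    rfl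
  exact gen _ _ this

theorem resid_set_smul (hG : X.Geom) (σ : GQ) (S : List X.Pts) :
    {P | X.DL ((S.map fun P => σ • P) ++ [P]) = 0 ∧ P ∉ (S.map fun P => σ • P)} =
      (fun P => σ • P) '' {P | X.DL (S ++ [P]) = 0 ∧ P ∉ S} := by
  have key : ∀ P, (X.DL ((S.map fun P => σ • P) ++ [σ • P]) = 0 ∧ σ • P ∉ (S.map fun P => σ • P)) ↔
      (X.DL (S ++ [P]) = 0 ∧ P ∉ S) := by
    intro P
    have e : (S.map fun P => σ • P) ++ [σ • P] = (S ++ [P]).map fun P => σ • P := by simp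
    rw [e, DL_smul hG, map_eq_zero_iff _ σ.injective, List.mem_map_of_injective (MulAction.injective σ)]
  ext P
  constructor
  · intro hP
    refine ⟨σ⁻¹ • P, ?_, smul_inv_smul σ P⟩
    rw [Set.mem_ofPred_eq, ← key, smul_inv_smul]
    exact hP
  · rintro ⟨P0, hP0, rfl⟩
    exact (key P0).2 hP0

theorem Tres_smul (hG : X.Geom) (σ : GQ) (S : List X.Pts) :
    (X.Tres S).val.map (fun P => σ • P) = (X.Tres (S.map fun P => σ • P)).val := by
  classical
  have hset := resid_set_smul hG σ S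
  by_cases hf : {P | X.DL (S ++ [P]) = 0 ∧ P ∉ S}.Finite
  · have hf' : {P | X.DL ((S.map fun P => σ • P) ++ [P]) = 0 ∧ P ∉ (S.map fun P => σ • P)}.Finite := by
      rw [hset]; exact hf.image _
    have h1 : (X.Tres S).val.map (fun P => σ • P) =
        ((X.Tres S).map ⟨fun P => σ • P, MulAction.injective σ⟩).val := rfl
    rw [h1]
    congr 1
    ext P
    unfold Tres
    rw [dif_pos hf, dif_pos hf', Set.Finite.mem_toFinset, hset, Finset.mem_map]
    simp only [Set.Finite.mem_toFinset, Function.Embedding.coeFn_mk, Set.mem_image]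
  · have hf' : ¬ {P | X.DL ((S.map fun P => σ • P) ++ [P]) = 0 ∧ P ∉ (S.map fun P => σ • P)}.Finite := by
      rw [hset]
      intro h
      exact hf (h.of_finite_image (MulAction.injective σ).injOn)
    unfold Tres
    rw [dif_neg hf, dif_neg hf']
    rfl

theorem stable_sumT (hG : X.Geom) {Q : Multiset X.Pts} (hQ : X.Stable Q) {q : List X.Pts}
    (hq : (q : Multiset X.Pts) = Q) (Y : List X.Pts) : X.Stable (X.sumT q Y) := by
  intro σ
  unfold sumT
  have h1 : (∑ Y' ∈ X.orb Y, (X.Tres (q ++ Y')).val).map (fun P => σ • P) =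
      ∑ Y' ∈ X.orb Y, ((X.Tres (q ++ Y')).val.map fun P => σ • P) :=
    map_sum (Multiset.mapAddMonoidHom fun P : X.Pts => σ • P) _ _
  rw [h1]
  have h2 : ∀ Y' : List X.Pts, ((X.Tres (q ++ Y')).val.map fun P => σ • P) =
      (X.Tres (q ++ (Y'.map fun P => σ • P))).val := by
    intro Y'
    rw [Tres_smul hG, List.map_append, Tres_perm ((hQ.perm hq σ).append_right _)]
  simp only [h2]
  exact sum_orb_smul hG Y σ fun Y' => (X.Tres (q ++ Y')).val

theorem card_sumT_le (hG : X.Geom) {n : ℕ} (hn : X.n₀ ≤ n) {Q : Multiset X.Pts} (hQ : X.Stable Q)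
    {q : List X.Pts} (hq : (q : Multiset X.Pts) = Q) {Y : List X.Pts} (hS : (q ++ Y).length = X.ℓ n)
    (h0 : X.DL (q ++ Y) ≠ 0) : (X.sumT q Y).card ≤ (X.orb Y).card * X.g := by
  unfold sumT
  rw [Multiset.card_sum, ← smul_eq_mul]
  refine Finset.sum_le_card_nsmul _ _ _ fun Y' hY' => ?_
  refine card_Tres_le hG hn ?_ (DL_append_ne_zero_of_mem_orb hG hQ hq hY' h0)
  rw [List.length_append, length_of_mem_orb hG hY', ← List.length_append, hS]

theorem Tres_le_sumT (hG : X.Geom) (q Y : List X.Pts) {P : X.Pts} (h : P ∈ X.Tres (q ++ Y)) :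
    P ∈ X.sumT q Y := by
  unfold sumT
  rw [Multiset.mem_sum]
  exact ⟨Y, self_mem_orb hG Y, h⟩

end ACurve

end Fermat.Agent.S17
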