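import Fermat.Agent.S17.Glob.PosF2
import Fermat.Agent.S17.Glob.Pos1
import Fermat.Agent.S17.Glob.Resid
import Fermat.Agent.S17.Glob.Cover

/-!
# S17-GLOB: (POS) positivity
-/

set_option autoImplicit false

namespace Fermat.Agent.S17

namespace ACurve

variable {X : ACurve} {𝔸 : GlobalAbs}

theorem pos_sum_sumT (f : X.Pts → ℝ) (q Y : List X.Pts) :
    ((X.sumT q Y).map f).sum = ∑ Y' ∈ X.orb Y, ((X.Tres (q ++ Y')).val.map f).sum := by
  unfold sumT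
  rw [← Multiset.coe_mapAddMonoidHom, map_sum, ← Multiset.coe_sumAddMonoidHom, map_sum]

theorem pos_not_mem_of_nodup {q Y : List X.Pts} {Q : Multiset X.Pts} (hq : (q : Multiset X.Pts) = Q)
    (h : (q ++ Y).Nodup) : ∀ P ∈ Q, P ∉ Y := by
  intro P hP
  rw [← hq, Multiset.mem_coe] at hP
  exact List.disjoint_of_nodup_append h hP

/-- (2) + (3) -/
theorem pos_main (hG : X.Geom) (hE : X.Estimates 𝔸) (μ : ℕ) (hμ : X.n₀ ≤ μ) (Y : List X.Pts)
    (hY : Y.length + μ = X.ℓ (X.n₀ + μ)) :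
    ∃ C : ℝ, ∀ (Q Q' : Multiset X.Pts) (q q' : List X.Pts), X.AdmPair μ Q Q' →
      (q : Multiset X.Pts) = Q → (q' : Multiset X.Pts) = Q' → X.DL (q ++ Y) ≠ 0 → X.DL (q' ++ Y) ≠ 0 →
      ((X.sumT q Y).map fun P => X.ns 𝔸 (X.n₀ + μ + 1) P - X.ns 𝔸 (X.n₀ + μ) P).sum ≤
        C - (X.orb Y).card * X.bb 𝔸 Q Q' := by
  obtain ⟨c, hc⟩ := gpos1 (𝔸 := 𝔸) hG hE (X.n₀ + μ) (by omega)
  obtain ⟨C2, hC2⟩ := pos_formula2 (𝔸 := 𝔸) hG hE μ hμ Y hY
  refine ⟨(X.orb Y).card * (2 * c) + C2, fun Q Q' q q' h hq hq' h0 h0' => ?_⟩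
  have hql : q.length = μ := by rw [← Multiset.coe_card, hq, h.card]
  have hql' : q'.length = μ := by rw [← Multiset.coe_card, hq', h.card']
  have hF2 := hC2 Q Q' q q' h hq hq' (pos_not_mem_of_nodup hq (nodup_of_DL_ne_zero h0))
    (pos_not_mem_of_nodup hq' (nodup_of_DL_ne_zero h0'))
  have h1 : ∀ Y' ∈ X.orb Y, 𝔸.hl (X.DL (q ++ Y')) +
      ((X.Tres (q ++ Y')).val.map fun P => X.ns 𝔸 (X.n₀ + μ + 1) P - X.ns 𝔸 (X.n₀ + μ) P).sum ≤
      c + X.an 𝔸 (X.n₀ + μ) (q ++ Y') := by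
    intro Y' hY'
    have hD := DL_append_ne_zero_of_mem_orb hG h.st hq hY' h0
    have hl : (q ++ Y').length = X.ℓ (X.n₀ + μ) := by
      rw [List.length_append, length_of_mem_orb hG hY', hql, ← hY]; ring
    have := hc (q ++ Y') (X.Tres (q ++ Y')).toList (nodup_of_DL_ne_zero hD) hl hD
      (Finset.nodup_toList _) (by rw [Finset.length_toList]; exact card_Tres_le hG (by omega) hl hD)
      (fun P hP => ((mem_Tres hG (by omega) hl hD).1 (Finset.mem_toList.1 hP)).2)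
      (fun P hP => ((mem_Tres hG (by omega) hl hD).1 (Finset.mem_toList.1 hP)).1)
    have e : ((X.Tres (q ++ Y')).toList.map
        fun P => X.ns 𝔸 (X.n₀ + μ + 1) P - X.ns 𝔸 (X.n₀ + μ) P).sum =
        ((X.Tres (q ++ Y')).val.map fun P => X.ns 𝔸 (X.n₀ + μ + 1) P - X.ns 𝔸 (X.n₀ + μ) P).sum := by
      rw [← Multiset.sum_coe, ← Multiset.map_coe, Finset.coe_toList]
    rw [e] at this
    unfold an
    linarith
  have h2 : ∀ Y' ∈ X.orb Y, 𝔸.hl (X.DL (q' ++ Y')) ≤ c + X.an 𝔸 (X.n₀ + μ) (q' ++ Y') := by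
    intro Y' hY'
    have hD := DL_append_ne_zero_of_mem_orb hG h.st' hq' hY' h0'
    have hl : (q' ++ Y').length = X.ℓ (X.n₀ + μ) := by
      rw [List.length_append, length_of_mem_orb hG hY', hql', ← hY]; ring
    have := hc (q' ++ Y') [] (nodup_of_DL_ne_zero hD) hl hD List.nodup_nil (by simp)
      (fun P hP => by simp at hP) (fun P hP => by simp at hP)
    simp only [List.map_nil, List.sum_nil, add_zero] at this
    unfold an
    linarith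
  have hs1 := Finset.sum_le_sum h1
  have hs2 := Finset.sum_le_sum h2
  rw [Finset.sum_add_distrib, sum_hl_DL_orb hG 𝔸 h.st hq h0, Finset.sum_add_distrib,
    Finset.sum_const, nsmul_eq_mul, zero_add] at hs1
  rw [sum_hl_DL_orb hG 𝔸 h.st' hq' h0', Finset.sum_add_distrib, Finset.sum_const,
    nsmul_eq_mul] at hs2
  rw [Finset.sum_add_distrib] at hF2
  rw [pos_sum_sumT]
  have := (abs_le.1 hF2).2
  linarith

/-- **POS** -/
theorem pos_upper (hG : X.Geom) (hE : X.Estimates 𝔸) (μ : ℕ) (hμ : X.n₀ ≤ μ) :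
    ∃ C : ℝ, ∀ Q Q' : Multiset X.Pts, X.AdmPair μ Q Q' → X.bb 𝔸 Q Q' ≤ C := by
  obtain ⟨𝒴, h𝒴, hcov⟩ := exists_finite_cover hG (X.n₀ + μ) μ le_rfl
  have hm : ∀ Y ∈ 𝒴, ∃ C : ℝ, ∀ (Q Q' : Multiset X.Pts) (q q' : List X.Pts), X.AdmPair μ Q Q' →
      (q : Multiset X.Pts) = Q → (q' : Multiset X.Pts) = Q' → X.DL (q ++ Y) ≠ 0 → X.DL (q' ++ Y) ≠ 0 →
      ((X.sumT q Y).map fun P => X.ns 𝔸 (X.n₀ + μ + 1) P - X.ns 𝔸 (X.n₀ + μ) P).sum ≤
        C - (X.orb Y).card * X.bb 𝔸 Q Q' := fun Y hY => pos_main hG hE μ hμ Y (h𝒴 Y hY)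
  choose! C hC using hm
  refine ⟨∑ Y ∈ 𝒴, |C Y|, fun Q Q' h => ?_⟩
  have hq : (Q.toList : Multiset X.Pts) = Q := Multiset.coe_toList Q
  have hq' : (Q'.toList : Multiset X.Pts) = Q' := Multiset.coe_toList Q'
  obtain ⟨Y, hY, h0, h0'⟩ := hcov Q.toList Q'.toList
    (by rw [← Multiset.coe_nodup, hq]; exact h.nd) (by rw [← Multiset.coe_nodup, hq']; exact h.nd')
    (by rw [Multiset.length_toList, h.card]) (by rw [Multiset.length_toList, h.card'])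
  have h1 := hC Y hY Q Q' _ _ h hq hq' h0 h0'
  have h2 : 0 ≤ ((X.sumT Q.toList Y).map
      fun P => X.ns 𝔸 (X.n₀ + μ + 1) P - X.ns 𝔸 (X.n₀ + μ) P).sum := by
    refine Multiset.sum_nonneg fun x hx => ?_
    obtain ⟨P, -, rfl⟩ := Multiset.mem_map.1 hx
    exact sub_nonneg.2 (ns_mono hG (Nat.le_succ _) P)
  have hr : (1 : ℝ) ≤ (X.orb Y).card := by exact_mod_cast card_orb_pos hG Y
  have h3 : ((X.orb Y).card : ℝ) * X.bb 𝔸 Q Q' ≤ |C Y| := by linarith [le_abs_self (C Y)]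
  have h4 : |C Y| ≤ ∑ Y ∈ 𝒴, |C Y| :=
    Finset.single_le_sum (f := fun Y => |C Y|) (fun i _ => abs_nonneg _) hY
  by_cases hb : X.bb 𝔸 Q Q' ≤ 0
  · exact hb.trans ((abs_nonneg _).trans h4)
  · push Not at hb
    have : X.bb 𝔸 Q Q' ≤ ((X.orb Y).card : ℝ) * X.bb 𝔸 Q Q' := le_mul_of_one_le_left hb.le hr
    linarith

end ACurve

end Fermat.Agent.S17
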