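import Fermat.Agent.S17.Glob.Key2
import Fermat.Agent.S17.Glob.PosDefs

/-!
# S17-GLOB: (POS) formula (1)
-/

set_option autoImplicit false

namespace Fermat.Agent.S17

namespace ACurve

variable {X : ACurve} {𝔸 : GlobalAbs}

theorem AdmPair.stable_add {μ : ℕ} {Q Q' : Multiset X.Pts} (h : X.AdmPair μ Q Q') : X.Stable (Q + Q') :=
  h.st.add h.st'

theorem AdmPair.nodup_add {μ : ℕ} {Q Q' : Multiset X.Pts} (h : X.AdmPair μ Q Q') : (Q + Q').Nodup :=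
  Multiset.nodup_add.2 ⟨h.nd, h.nd', h.disj⟩

theorem AdmPair.card_add {μ : ℕ} {Q Q' : Multiset X.Pts} (h : X.AdmPair μ Q Q') :
    (Q + Q').card = 2 * μ := by
  rw [Multiset.card_add, h.card, h.card']; ring

theorem AdmPair.cls_add (hG : X.Geom) {μ : ℕ} {Q Q' : Multiset X.Pts} (h : X.AdmPair μ Q Q') :
    X.cls (Q + Q') = 0 := by
  rw [hG.cls_add, h.cls]

/-- formula (1): `-b(Q,Q') = (μ+g-1) H(Q+Q') - G(Q,Q)/2 - G(Q',Q')/2 + O(1)` -/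
theorem pos_formula1 (hG : X.Geom) (hE : X.Estimates 𝔸) (μ : ℕ) (hμ : X.n₀ ≤ μ) :
    ∃ C : ℝ, ∀ Q Q' : Multiset X.Pts, X.AdmPair μ Q Q' →
      |X.bb 𝔸 Q Q' + (((μ : ℝ) + X.g - 1) * X.Ht 𝔸 (Q + Q') - X.Gr 𝔸 Q Q / 2 - X.Gr 𝔸 Q' Q' / 2)| ≤ C := by
  obtain ⟨C, hC⟩ := key2' (𝔸 := 𝔸) hG hE (2 * μ) (by omega)
  refine ⟨C, fun Q Q' h => ?_⟩
  have h1 := hC (Q + Q') h.stable_add h.nodup_add h.card_add (h.cls_add hG)
  rw [← abs_neg] at h1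
  refine le_of_eq_of_le (congrArg _ ?_) h1
  unfold bb
  rw [h.card, h.card', Gr_add_left, Gr_add_right, Gr_add_right, Gr_symm Q' Q, Ht_add]
  push_cast
  ring

end ACurve

end Fermat.Agent.S17
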