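import Fermat.Agent.S17.Glob.PosF1

/-!
# S17-GLOB: (POS) formula (2)
-/

set_option autoImplicit false

namespace Fermat.Agent.S17

namespace ACurve

variable {X : ACurve} {𝔸 : GlobalAbs}

theorem posf2_an (n : ℕ) (Q : Multiset X.Pts) (q Y' : List X.Pts) (hq : (q : Multiset X.Pts) = Q) :
    X.an 𝔸 n (q ++ Y') = (Q.map (X.ns 𝔸 n)).sum - X.Gr 𝔸 Q Q / 2 - X.Gr 𝔸 Q (Y' : Multiset X.Pts) +
      ((Y'.map (X.ns 𝔸 n)).sum - X.Gr 𝔸 (Y' : Multiset X.Pts) (Y' : Multiset X.Pts) / 2) := by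
  unfold an
  rw [key2_pairSum Q q Y' hq, key2_sum_append _ Q q Y' hq]
  ring

/-- formula (2): `∑_{Y'} [a_n(q ++ Y') + a_n(q' ++ Y')] = - r b(Q,Q') + O(1)`, `n = n₀ + μ`. -/
theorem pos_formula2 (hG : X.Geom) (hE : X.Estimates 𝔸) (μ : ℕ) (hμ : X.n₀ ≤ μ) (Y : List X.Pts)
    (hY : Y.length + μ = X.ℓ (X.n₀ + μ)) :
    ∃ C : ℝ, ∀ (Q Q' : Multiset X.Pts) (q q' : List X.Pts), X.AdmPair μ Q Q' →
      (q : Multiset X.Pts) = Q → (q' : Multiset X.Pts) = Q' → (∀ P ∈ Q, P ∉ Y) → (∀ P ∈ Q', P ∉ Y) →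
      |∑ Y' ∈ X.orb Y, (X.an 𝔸 (X.n₀ + μ) (q ++ Y') + X.an 𝔸 (X.n₀ + μ) (q' ++ Y')) +
        (X.orb Y).card * X.bb 𝔸 Q Q'| ≤ C := by
  obtain ⟨n, hn⟩ : ∃ n, n = X.n₀ + μ := ⟨_, rfl⟩
  rw [← hn] at hY ⊢
  obtain ⟨r, hr⟩ : ∃ r, r = (X.orb Y).card := ⟨_, rfl⟩
  rw [← hr]
  obtain ⟨C0, hC0⟩ := pos_formula1 (𝔸 := 𝔸) hG hE μ hμ
  obtain ⟨C1, hC1⟩ := key1' (𝔸 := 𝔸) hG hE (2 * μ) (r * Y.length) (by omega)
  obtain ⟨c1, hc1⟩ := ge1_multiset (𝔸 := 𝔸) hG hE n (by omega)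
  obtain ⟨K, hK⟩ : ∃ K : ℝ, K = 2 * ∑ Y' ∈ X.orb Y, ((Y'.map (X.ns 𝔸 n)).sum -
      X.Gr 𝔸 (Y' : Multiset X.Pts) (Y' : Multiset X.Pts) / 2) - 2 * μ * X.Ht 𝔸 (X.sumOrb Y) := ⟨_, rfl⟩
  refine ⟨r * (2 * μ * |c1|) + C1 + r * C0 + |K|, fun Q Q' q q' h hq hq' hQY hQY' => ?_⟩
  have hZY : ∀ P ∈ Q + Q', P ∉ Y := fun P hP => by
    rcases Multiset.mem_add.1 hP with h1 | h1
    · exact hQY P h1
    · exact hQY' P h1
  have hbb := hC1 (Q + Q') (X.sumOrb Y) h.stable_add (stable_sumOrb hG Y) h.nodup_add h.card_add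
    (by rw [card_sumOrb hG, hr]) (h.cls_add hG) (h.stable_add.disjoint_sumOrb hG hZY)
  have hA := hc1 (Q + Q')
  have hF1 := hC0 Q Q' h
  have hGs : X.Gr 𝔸 (Q + Q') (X.sumOrb Y) =
      ∑ Y' ∈ X.orb Y, X.Gr 𝔸 (Q + Q') (Y' : Multiset X.Pts) := Gr_finset_sum_right _ _ _
  have hell := hG.ell_eq n (by omega)
  have hYl : (Y.length : ℝ) + μ + X.g = n + 1 := by
    have : Y.length + μ + X.g = n + 1 := by rw [hY]; exact hell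
    exact_mod_cast this
  have hr0 : (0 : ℝ) ≤ r := Nat.cast_nonneg _
  have hid : ∑ Y' ∈ X.orb Y, (X.an 𝔸 n (q ++ Y') + X.an 𝔸 n (q' ++ Y')) + r * X.bb 𝔸 Q Q' =
      r * (((Q + Q').map (X.ns 𝔸 n)).sum - n * X.Ht 𝔸 (Q + Q')) + X.bb 𝔸 (Q + Q') (X.sumOrb Y) +
      r * (X.bb 𝔸 Q Q' + (((μ : ℝ) + X.g - 1) * X.Ht 𝔸 (Q + Q') - X.Gr 𝔸 Q Q / 2 - X.Gr 𝔸 Q' Q' / 2))
      + K := by
    have e1 : ∑ Y' ∈ X.orb Y, (X.an 𝔸 n (q ++ Y') + X.an 𝔸 n (q' ++ Y')) =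
        r * ((Q + Q').map (X.ns 𝔸 n)).sum - r * (X.Gr 𝔸 Q Q / 2 + X.Gr 𝔸 Q' Q' / 2)
        - ∑ Y' ∈ X.orb Y, X.Gr 𝔸 (Q + Q') (Y' : Multiset X.Pts)
        + 2 * ∑ Y' ∈ X.orb Y, ((Y'.map (X.ns 𝔸 n)).sum -
            X.Gr 𝔸 (Y' : Multiset X.Pts) (Y' : Multiset X.Pts) / 2) := by
      rw [hr, ← nsmul_eq_mul, ← nsmul_eq_mul, ← Finset.sum_const, ← Finset.sum_const,
        Finset.mul_sum, ← Finset.sum_sub_distrib, ← Finset.sum_sub_distrib,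
        ← Finset.sum_add_distrib]
      refine Finset.sum_congr rfl fun Y' _ => ?_
      rw [posf2_an n Q q Y' hq, posf2_an n Q' q' Y' hq', Gr_add_left, Multiset.map_add,
        Multiset.sum_add]
      ring
    rw [e1, ← hGs, hK]
    unfold bb
    rw [card_sumOrb hG, h.card_add, h.card, h.card', ← hr]
    push_cast
    have : (X.g : ℝ) = n + 1 - Y.length - μ := by linarith
    rw [this]
    ring
  rw [hid]
  have hA' : |(r : ℝ) * (((Q + Q').map (X.ns 𝔸 n)).sum - n * X.Ht 𝔸 (Q + Q'))| ≤ r * (2 * μ * |c1|) := by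
    rw [abs_mul, abs_of_nonneg hr0]
    refine mul_le_mul_of_nonneg_left (hA.trans ?_) hr0
    rw [h.card_add]
    push_cast
    exact mul_le_mul_of_nonneg_left (le_abs_self _) (by positivity)
  have hF1' : |(r : ℝ) * (X.bb 𝔸 Q Q' + (((μ : ℝ) + X.g - 1) * X.Ht 𝔸 (Q + Q') - X.Gr 𝔸 Q Q / 2 -
      X.Gr 𝔸 Q' Q' / 2))| ≤ r * C0 := by
    rw [abs_mul, abs_of_nonneg hr0]
    exact mul_le_mul_of_nonneg_left hF1 hr0
  refine (abs_add_le _ _).trans (add_le_add ?_ le_rfl)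
  refine (abs_add_le _ _).trans (add_le_add ?_ hF1')
  exact (abs_add_le _ _).trans (add_le_add hA' hbb)

end ACurve

end Fermat.Agent.S17
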